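/-
T1G (helper6), the formal model of the modular function fields of level `Γ(M)` and `Γ₁(M)`.

For a commutative ring `R` and a unit `ζ` with `ζ ^ M = 1` (in the applications a primitive `M`-th
root of unity) and an index vector `v = (b, a) ∈ (ℤ/M)²`, `tgS R M ζ v ∈ R[[t]]` is the
`t`-expansion (`t = q^{1/M}`) of `Σ_{m ∈ ℤ} q^m u / (1 - q^m u)²` at the point `u = t^b ζ^a` of the
Tate curve (`= ℘((bτ + a)/M; τ)/(2πi)² - E₂/12`):

  `coeff_0 = [b = 0] · ζ^a / (1 - ζ^a)²`,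
  `coeff_n = Σ_{d ∣ n} d · ([n/d ≡ b] ζ^{ad} + [n/d ≡ -b] ζ^{-ad})`   (`n ≥ 1`).

Only the differences `tgS v - tgS w` are used: `tgNu v w = (E₄E₆/Δ)(t^M) · (tgS v - tgS w)` is the
difference of two Fricke–Weber functions (weight `0`), with coefficients integral away from `M`.
-/
import Fermat.Agent.Lib.Igusa.Puiseux
import Fermat.Prelude.Def_ModularCurve_JqCoeff
import Fermat.Prelude.Def_ModularCurve_X0ModL
import Fermat.Prelude.Def_ModularCurve_LaurentCoeff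

set_option autoImplicit false
set_option linter.unusedSectionVars false
set_option linter.style.haveILetI false

open HahnSeries ModularCurve Fermat.Agent.Igusa

noncomputable section

namespace Fermat.Agent.T1G

/-! ### `E₆` and the normaliser `E₄ E₆ / Δ` -/

/-- the Eisenstein series `E₆ = 1 - 504 Σ σ₅(n) qⁿ` -/
def tgE6 : PowerSeries ℤ :=
  PowerSeries.mk fun n => if n = 0 then 1 else -504 * ∑ d ∈ n.divisors, (d : ℤ) ^ 5

@[simp]
theorem constantCoeff_tgE6 : PowerSeries.constantCoeff tgE6 = 1 := by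
  rw [← PowerSeries.coeff_zero_eq_constantCoeff]
  simp [tgE6]

/-- `q · E₄ E₆ / Δ` as an integral power series -/
def tgNormNum : PowerSeries ℤ := eisenstein4 * tgE6 * dedekindEtaUnitInv

@[simp]
theorem constantCoeff_tgNormNum : PowerSeries.constantCoeff tgNormNum = 1 := by
  rw [tgNormNum, map_mul, map_mul, constantCoeff_eisenstein4, constantCoeff_tgE6,
    constantCoeff_dedekindEtaUnitInv, one_mul, one_mul]

section Ring

variable (R : Type*) [CommRing R]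

/-- the normaliser `E₄ E₆ / Δ ∈ R((q))` (weight `-2`, leading term `q⁻¹`) -/
def tgNorm : LaurentSeries R :=
  HahnSeries.single (-1 : ℤ) 1 *
    HahnSeries.ofPowerSeries ℤ R (tgNormNum.map (Int.castRingHom R))

/-- `w(u) = u / (1 - u)²` -/
def tgW (u : R) : R := u * Ring.inverse ((1 - u) ^ 2)

variable (M : ℕ) [NeZero M] (ζ : Rˣ)

/-- `ζ ^ a` for `a : ZMod M` -/
def tgZ (a : ZMod M) : Rˣ := ζ ^ a.val

/-- the coefficients of `tgS` -/
def tgSCoeff (v : ZMod M × ZMod M) (n : ℕ) : R :=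
  if n = 0 then (if v.1 = 0 then tgW R ((tgZ R M ζ v.2 : Rˣ) : R) else 0)
  else ∑ d ∈ n.divisors, (d : R) *
    ((if ((n / d : ℕ) : ZMod M) = v.1 then ((tgZ R M ζ v.2 ^ d : Rˣ) : R) else 0) +
     (if ((n / d : ℕ) : ZMod M) = -v.1 then (((tgZ R M ζ v.2 ^ d)⁻¹ : Rˣ) : R) else 0))

/-- the `t`-expansion of `Σ_m q^m u/(1 - q^m u)²` at `u = t^b ζ^a`, `v = (b, a)` -/
def tgS (v : ZMod M × ZMod M) : PowerSeries R := PowerSeries.mk (tgSCoeff R M ζ v)

@[simp]
theorem coeff_tgS (v : ZMod M × ZMod M) (n : ℕ) :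
    PowerSeries.coeff n (tgS R M ζ v) = tgSCoeff R M ζ v n := by
  rw [tgS, PowerSeries.coeff_mk]

theorem tgSCoeff_zero (v : ZMod M × ZMod M) :
    tgSCoeff R M ζ v 0 = if v.1 = 0 then tgW R ((tgZ R M ζ v.2 : Rˣ) : R) else 0 := by
  rw [tgSCoeff, if_pos rfl]

theorem tgSCoeff_of_ne_zero (v : ZMod M × ZMod M) {n : ℕ} (hn : n ≠ 0) :
    tgSCoeff R M ζ v n = ∑ d ∈ n.divisors, (d : R) *
    ((if ((n / d : ℕ) : ZMod M) = v.1 then ((tgZ R M ζ v.2 ^ d : Rˣ) : R) else 0) +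
     (if ((n / d : ℕ) : ZMod M) = -v.1 then (((tgZ R M ζ v.2 ^ d)⁻¹ : Rˣ) : R) else 0)) := by
  rw [tgSCoeff, if_neg hn]

/-- the difference of two Fricke–Weber functions, as a series in `t = q^{1/M}` -/
def tgNu (v w : ZMod M × ZMod M) : LaurentSeries R :=
  qExpand R M (tgNorm R) * HahnSeries.ofPowerSeries ℤ R (tgS R M ζ v - tgS R M ζ w)

/-- `j(ζ^c t^e)` -/
def tgJc (c e : ℕ) : LaurentSeries R :=
  if h : e = 0 then 0 else
    haveI : NeZero e := ⟨h⟩
    qExpand R e (lsTwist (ζ ^ c) (jqModC R))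

/-- the conjugates of the `j(q^d)`, `d ∣ M`, over `R(j)`: `j(ζ_{d'}^{b'} q^{a'/d'})`, `a'd' ∣ M`,
as series in `t`: `j(ζ^{(M/d') b'} t^{(M/d') a'})` -/
def tgJSet : Set (LaurentSeries R) :=
  {x | ∃ a' d' b' : ℕ, a' * d' ∣ M ∧ b' < d' ∧ x = tgJc R ζ (M / d' * b') (M / d' * a')}

/-- the generators `ν_{v,w}` of the full level field -/
def tgNuSet : Set (LaurentSeries R) :=
  {x | ∃ v w : ZMod M × ZMod M, v ≠ 0 ∧ w ≠ 0 ∧ x = tgNu R M ζ v w}

/-! ### the `q`-expansions for `Γ₁(M)` -/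

/-- the coefficients of `tgS1` -/
def tgS1Coeff (a : ZMod M) (n : ℕ) : R :=
  if n = 0 then tgW R ((tgZ R M ζ a : Rˣ) : R)
  else ∑ d ∈ n.divisors, (d : R) *
    (((tgZ R M ζ a ^ d : Rˣ) : R) + (((tgZ R M ζ a ^ d)⁻¹ : Rˣ) : R))

/-- the `q`-expansion of `Σ_m q^m u/(1 - q^m u)²` at `u = ζ^a` -/
def tgS1 (a : ZMod M) : PowerSeries R := PowerSeries.mk (tgS1Coeff R M ζ a)

@[simp]
theorem coeff_tgS1 (a : ZMod M) (n : ℕ) :
    PowerSeries.coeff n (tgS1 R M ζ a) = tgS1Coeff R M ζ a n := by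
  rw [tgS1, PowerSeries.coeff_mk]

/-- the difference of two Fricke–Weber functions of `Γ₁(M)`, as a series in `q` -/
def tgNu1 (a a' : ZMod M) : LaurentSeries R :=
  tgNorm R * HahnSeries.ofPowerSeries ℤ R (tgS1 R M ζ a - tgS1 R M ζ a')

/-- the generators `ν_{a,a'}` of the `Γ₁(M)`-field -/
def tgNu1Set : Set (LaurentSeries R) :=
  {x | ∃ a a' : ZMod M, a ≠ 0 ∧ a' ≠ 0 ∧ x = tgNu1 R M ζ a a'}


/-! ### Basic identities -/

theorem tgJc_eq_pzSub (c e : ℕ) [NeZero e] : tgJc R ζ c e = pzSub (ζ ^ c) e (jqModC R) := by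
  rw [tgJc, dif_neg (NeZero.ne e)]
  rfl

variable {R M ζ} in
theorem tgZ_natCast (hζ : ζ ^ M = 1) (m : ℕ) : tgZ R M ζ (m : ZMod M) = ζ ^ m := by
  rw [tgZ, ZMod.val_natCast]
  conv_rhs => rw [← Nat.mod_add_div m M, _root_.pow_add, pow_mul, hζ, one_pow, mul_one]

variable {R M ζ} in
theorem tgZ_add (hζ : ζ ^ M = 1) (a b : ZMod M) :
    tgZ R M ζ (a + b) = tgZ R M ζ a * tgZ R M ζ b := by
  have h := tgZ_natCast hζ (a.val + b.val)
  rw [Nat.cast_add, ZMod.natCast_zmod_val, ZMod.natCast_zmod_val] at h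
  rw [h, _root_.pow_add]
  rfl

theorem tgZ_zero : tgZ R M ζ 0 = 1 := by
  rw [tgZ, ZMod.val_zero, pow_zero]

variable {R M ζ} in
theorem tgZ_neg (hζ : ζ ^ M = 1) (a : ZMod M) : tgZ R M ζ (-a) = (tgZ R M ζ a)⁻¹ := by
  rw [eq_inv_iff_mul_eq_one, ← tgZ_add hζ, neg_add_cancel, tgZ_zero]

variable {R M ζ} in
theorem tgZ_mul_natCast (hζ : ζ ^ M = 1) (a : ZMod M) (m : ℕ) :
    tgZ R M ζ (a * m) = tgZ R M ζ a ^ m := by
  induction m with
  | zero => rw [Nat.cast_zero, mul_zero, tgZ_zero, pow_zero]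
  | succ m ih => rw [Nat.cast_succ, mul_add, mul_one, tgZ_add hζ, ih, pow_succ]

theorem tgW_inv (u : Rˣ) : tgW R ((u⁻¹ : Rˣ) : R) = tgW R (u : R) := by
  have h : ((u⁻¹ : Rˣ) : R) * (u : R) = 1 := by simp
  have h1 : (1 - ((u⁻¹ : Rˣ) : R)) ^ 2 = (((u⁻¹ ^ 2 : Rˣ)) : R) * (1 - (u : R)) ^ 2 := by
    have : (1 - ((u⁻¹ : Rˣ) : R)) = - ((u⁻¹ : Rˣ) : R) * (1 - (u : R)) := by
      linear_combination (-1 : R) * h
    rw [this, Units.val_pow_eq_pow_val]; ring
  rw [tgW, tgW, h1, Ring.inverse_mul (Or.inl ((u⁻¹ ^ 2).isUnit)), Ring.inverse_unit]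
  have h2 : (((u⁻¹ ^ 2)⁻¹ : Rˣ) : R) = (u : R) ^ 2 := by simp
  rw [h2]
  linear_combination (Ring.inverse ((1 - (u : R)) ^ 2) * (u:R)) * h

/-- **symmetry** `S_{-v} = S_v` -/
theorem tgS_neg (hζ : ζ ^ M = 1) (v : ZMod M × ZMod M) : tgS R M ζ (-v) = tgS R M ζ v := by
  ext n
  rw [coeff_tgS, coeff_tgS]
  rcases eq_or_ne n 0 with rfl | hn
  · rw [tgSCoeff_zero, tgSCoeff_zero, Prod.fst_neg, Prod.snd_neg, tgZ_neg hζ, tgW_inv]
    by_cases hb : v.1 = 0
    · rw [if_pos hb, if_pos (by rw [hb, neg_zero])]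
    · rw [if_neg hb, if_neg (by rwa [neg_eq_zero])]
  · rw [tgSCoeff_of_ne_zero _ _ _ _ hn, tgSCoeff_of_ne_zero _ _ _ _ hn]
    refine Finset.sum_congr rfl fun d _ => ?_
    rw [Prod.fst_neg, Prod.snd_neg, neg_neg, tgZ_neg hζ, inv_pow, inv_inv, add_comm]

/-- the twist `t ↦ ζ t` acts on the index by `(b, a) ↦ (b, a + b)` -/
theorem lsTwist_tgS (hζ : ζ ^ M = 1) (v : ZMod M × ZMod M) :
    lsTwist ζ (HahnSeries.ofPowerSeries ℤ R (tgS R M ζ v)) =
      HahnSeries.ofPowerSeries ℤ R (tgS R M ζ (v.1, v.2 + v.1)) := by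
  ext m
  rw [lsTwist_coeff]
  rcases lt_or_ge m 0 with hm | hm
  · rw [ofPowerSeries_coeff_of_neg _ hm, ofPowerSeries_coeff_of_neg _ hm, mul_zero]
  lift m to ℕ using hm
  rw [HahnSeries.ofPowerSeries_apply_coeff, HahnSeries.ofPowerSeries_apply_coeff, coeff_tgS,
    coeff_tgS, zpow_natCast]
  rcases eq_or_ne m 0 with rfl | hn
  · rw [tgSCoeff_zero, tgSCoeff_zero, pow_zero, Units.val_one, one_mul]
    by_cases hb : v.1 = 0
    · rw [if_pos hb, if_pos hb, hb, add_zero]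
    · rw [if_neg hb, if_neg hb]
  · rw [tgSCoeff_of_ne_zero _ _ _ _ hn, tgSCoeff_of_ne_zero _ _ _ _ hn, Finset.mul_sum]
    refine Finset.sum_congr rfl fun d hd => ?_
    have hdn : d ∣ m := (Nat.mem_divisors.mp hd).1
    have hmd : m / d * d = m := Nat.div_mul_cancel hdn
    rw [mul_left_comm]
    congr 1
    rw [mul_add]
    congr 1
    · by_cases h1 : ((m / d : ℕ) : ZMod M) = v.1
      · rw [if_pos h1, if_pos h1, tgZ_add hζ, mul_pow, ← h1, tgZ_natCast hζ, ← pow_mul, hmd,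
          Units.val_mul, mul_comm]
      · rw [if_neg h1, if_neg h1, mul_zero]
    · by_cases h1 : ((m / d : ℕ) : ZMod M) = -v.1
      · rw [if_pos h1, if_pos h1, tgZ_add hζ, mul_pow, mul_inv]
        have h2 : v.1 = -((m / d : ℕ) : ZMod M) := by rw [h1, neg_neg]
        rw [h2, tgZ_neg hζ, tgZ_natCast hζ, inv_pow, inv_inv, ← pow_mul, hmd, Units.val_mul,
          mul_comm]
      · rw [if_neg h1, if_neg h1, mul_zero]

/-- the twist `t ↦ ζ t` on the generators -/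
theorem lsTwist_tgNu (hζ : ζ ^ M = 1) (v w : ZMod M × ZMod M) :
    lsTwist ζ (tgNu R M ζ v w) = tgNu R M ζ (v.1, v.2 + v.1) (w.1, w.2 + w.1) := by
  rw [tgNu, tgNu, map_mul, lsTwist_qExpand M hζ, map_sub, map_sub, map_sub,
    lsTwist_tgS R M ζ hζ, lsTwist_tgS R M ζ hζ]

/-- the `t`-expansion of the `Γ₁(M)`-series -/
theorem qExpand_tgS1 (a : ZMod M) :
    qExpand R M (HahnSeries.ofPowerSeries ℤ R (tgS1 R M ζ a)) =
      HahnSeries.ofPowerSeries ℤ R (tgS R M ζ (0, a)) := by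
  ext m
  by_cases hd : (M : ℤ) ∣ m
  · obtain ⟨i, rfl⟩ := hd
    rw [qExpand_coeff_mul]
    rcases lt_or_ge i 0 with hi | hi
    · have hneg : (M : ℤ) * i < 0 :=
        mul_neg_of_pos_of_neg (by exact_mod_cast Nat.pos_of_ne_zero (NeZero.ne M)) hi
      rw [ofPowerSeries_coeff_of_neg _ hi, ofPowerSeries_coeff_of_neg _ hneg]
    lift i to ℕ using hi
    rw [show (M : ℤ) * (i : ℤ) = ((M * i : ℕ) : ℤ) by push_cast; ring,
      HahnSeries.ofPowerSeries_apply_coeff, HahnSeries.ofPowerSeries_apply_coeff, coeff_tgS,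
      coeff_tgS1]
    rcases eq_or_ne i 0 with rfl | hi0
    · rw [mul_zero, tgSCoeff_zero, tgS1Coeff, if_pos rfl, if_pos rfl]
    · have hMi : M * i ≠ 0 := mul_ne_zero (NeZero.ne M) hi0
      rw [tgSCoeff_of_ne_zero _ _ _ _ hMi, tgS1Coeff, if_neg hi0]
      -- the divisors `d` of `M i` with `M ∣ M i / d` are the divisors of `i`
      have hsub : i.divisors ⊆ (M * i).divisors := by
        intro d hd
        rw [Nat.mem_divisors] at hd ⊢
        exact ⟨hd.1.mul_left M, hMi⟩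
      rw [← Finset.sum_subset hsub]
      · refine Finset.sum_congr rfl fun d hd => ?_
        have hdi : d ∣ i := (Nat.mem_divisors.mp hd).1
        have h0 : ((M * i / d : ℕ) : ZMod M) = 0 := by
          rw [Nat.mul_div_assoc _ hdi, Nat.cast_mul, ZMod.natCast_self, zero_mul]
        simp only [neg_zero]
        rw [if_pos h0, if_pos h0]
      · intro d hd hdi
        have hdMi : d ∣ M * i := (Nat.mem_divisors.mp hd).1
        have h0 : ((M * i / d : ℕ) : ZMod M) ≠ 0 := by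
          intro h0
          apply hdi
          rw [ZMod.natCast_eq_zero_iff] at h0
          obtain ⟨c, hc⟩ := h0
          have h1 : M * i = d * (M * c) := by
            rw [← hc, Nat.mul_div_cancel' hdMi]
          have h2 : i = d * c := by
            have : M * i = M * (d * c) := by rw [h1]; ring
            exact Nat.eq_of_mul_eq_mul_left (Nat.pos_of_ne_zero (NeZero.ne M)) this
          rw [Nat.mem_divisors]
          exact ⟨⟨c, h2⟩, hi0⟩
        simp only [neg_zero]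
        rw [if_neg h0, if_neg h0, add_zero, mul_zero]
  · rw [qExpand_coeff_of_not_dvd M _ hd]
    rcases lt_or_ge m 0 with hm | hm
    · rw [ofPowerSeries_coeff_of_neg _ hm]
    lift m to ℕ using hm
    rw [HahnSeries.ofPowerSeries_apply_coeff, coeff_tgS]
    have hm0 : m ≠ 0 := by
      rintro rfl
      exact hd (by simp)
    rw [tgSCoeff_of_ne_zero _ _ _ _ hm0]
    symm
    refine Finset.sum_eq_zero fun d hdm => ?_
    have hdm' : d ∣ m := (Nat.mem_divisors.mp hdm).1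
    have h0 : ((m / d : ℕ) : ZMod M) ≠ 0 := by
      intro h0
      apply hd
      rw [ZMod.natCast_eq_zero_iff] at h0
      obtain ⟨c, hc⟩ := h0
      refine ⟨(c * d : ℕ), ?_⟩
      have : m = m / d * d := (Nat.div_mul_cancel hdm').symm
      rw [hc] at this
      rw [this]; push_cast; ring
    simp only [neg_zero]
    rw [if_neg h0, if_neg h0, add_zero, mul_zero]

theorem qExpand_tgNu1 (a a' : ZMod M) :
    qExpand R M (tgNu1 R M ζ a a') = tgNu R M ζ (0, a) (0, a') := by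
  rw [tgNu1, tgNu, map_mul, map_sub, map_sub, map_sub, qExpand_tgS1, qExpand_tgS1]


/-- replacing `ζ` by `ζ ^ c` multiplies the second index by `c` (the Galois action on coefficients,
the diamond operators) -/
theorem tgZ_pow (hζ : ζ ^ M = 1) (c : ℕ) (a : ZMod M) :
    tgZ R M (ζ ^ c) a = tgZ R M ζ (a * c) := by
  rw [tgZ_mul_natCast hζ, tgZ, tgZ, ← pow_mul, ← pow_mul, mul_comm]

theorem tgS_pow (hζ : ζ ^ M = 1) (c : ℕ) (v : ZMod M × ZMod M) :
    tgS R M (ζ ^ c) v = tgS R M ζ (v.1, v.2 * c) := by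
  ext n
  rw [coeff_tgS, coeff_tgS, tgSCoeff, tgSCoeff, tgZ_pow R M ζ hζ]

theorem tgNu_pow (hζ : ζ ^ M = 1) (c : ℕ) (v w : ZMod M × ZMod M) :
    tgNu R M (ζ ^ c) v w = tgNu R M ζ (v.1, v.2 * c) (w.1, w.2 * c) := by
  rw [tgNu, tgNu, tgS_pow R M ζ hζ, tgS_pow R M ζ hζ]

theorem tgS1_pow (hζ : ζ ^ M = 1) (c : ℕ) (a : ZMod M) :
    tgS1 R M (ζ ^ c) a = tgS1 R M ζ (a * c) := by
  ext n
  rw [coeff_tgS1, coeff_tgS1, tgS1Coeff, tgS1Coeff, tgZ_pow R M ζ hζ]

theorem tgNu1_pow (hζ : ζ ^ M = 1) (c : ℕ) (a a' : ZMod M) :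
    tgNu1 R M (ζ ^ c) a a' = tgNu1 R M ζ (a * c) (a' * c) := by
  rw [tgNu1, tgNu1, tgS1_pow R M ζ hζ, tgS1_pow R M ζ hζ]

end Ring

section Map
variable {R R' : Type*} [CommRing R] [CommRing R'] (f : R →+* R') (M : ℕ) [NeZero M] (ζ : Rˣ)

theorem coeffMap_tgNorm : coeffMap f (tgNorm R) = tgNorm R' := by
  rw [tgNorm, map_mul, coeffMap_single, map_one, coeffMap_ofPowerSeries,
    ← RingHom.comp_apply (PowerSeries.map f) (PowerSeries.map (Int.castRingHom R)),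
    ← PowerSeries.map_comp, RingHom.ext_int (f.comp (Int.castRingHom R)) (Int.castRingHom R')]
  rfl

theorem map_tgW {u : R} (hu : IsUnit (1 - u)) : f (tgW R u) = tgW R' (f u) := by
  obtain ⟨e, he⟩ := hu
  have h1 : (1 - u) ^ 2 = ((e ^ 2 : Rˣ) : R) := by rw [← he, Units.val_pow_eq_pow_val]
  have h2 : (1 - f u) ^ 2 = ((Units.map (f : R →* R') (e ^ 2) : R'ˣ) : R') := by
    rw [Units.coe_map, ← h1]
    simp
  rw [tgW, tgW, h1, h2, Ring.inverse_unit, Ring.inverse_unit, map_mul, ← map_inv, Units.coe_map]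
  rfl

theorem tgZ_map (a : ZMod M) : tgZ R' M (Units.map (f : R →* R') ζ) a =
    Units.map (f : R →* R') (tgZ R M ζ a) := by
  rw [tgZ, tgZ, map_pow]

theorem map_tgSCoeff (v : ZMod M × ZMod M) (n : ℕ)
    (hv : v.1 = 0 → IsUnit (1 - ((tgZ R M ζ v.2 : Rˣ) : R))) :
    f (tgSCoeff R M ζ v n) = tgSCoeff R' M (Units.map (f : R →* R') ζ) v n := by
  rcases eq_or_ne n 0 with rfl | hn
  · rw [tgSCoeff_zero, tgSCoeff_zero]
    by_cases hb : v.1 = 0
    · rw [if_pos hb, if_pos hb, map_tgW f (hv hb), tgZ_map, Units.coe_map]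
      rfl
    · rw [if_neg hb, if_neg hb, map_zero]
  · rw [tgSCoeff_of_ne_zero _ _ _ _ hn, tgSCoeff_of_ne_zero _ _ _ _ hn, map_sum]
    refine Finset.sum_congr rfl fun d _ => ?_
    rw [map_mul, map_natCast, map_add, apply_ite f, apply_ite f, map_zero, tgZ_map, ← map_pow,
      ← map_inv, Units.coe_map, Units.coe_map]
    rfl

theorem map_tgS (v : ZMod M × ZMod M)
    (hv : v.1 = 0 → IsUnit (1 - ((tgZ R M ζ v.2 : Rˣ) : R))) :
    (tgS R M ζ v).map f = tgS R' M (Units.map (f : R →* R') ζ) v := by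
  ext n
  rw [PowerSeries.coeff_map, coeff_tgS, coeff_tgS, map_tgSCoeff f M ζ v n hv]

/-- base change of the generators -/
theorem coeffMap_tgNu (v w : ZMod M × ZMod M)
    (hv : v.1 = 0 → IsUnit (1 - ((tgZ R M ζ v.2 : Rˣ) : R)))
    (hw : w.1 = 0 → IsUnit (1 - ((tgZ R M ζ w.2 : Rˣ) : R))) :
    coeffMap f (tgNu R M ζ v w) = tgNu R' M (Units.map (f : R →* R') ζ) v w := by
  rw [tgNu, tgNu, map_mul, coeffMap_qExpand, coeffMap_tgNorm, coeffMap_ofPowerSeries, map_sub,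
    map_tgS f M ζ v hv, map_tgS f M ζ w hw]

theorem map_tgS1Coeff (a : ZMod M) (n : ℕ) (ha : IsUnit (1 - ((tgZ R M ζ a : Rˣ) : R))) :
    f (tgS1Coeff R M ζ a n) = tgS1Coeff R' M (Units.map (f : R →* R') ζ) a n := by
  rw [tgS1Coeff, tgS1Coeff]
  rcases eq_or_ne n 0 with rfl | hn
  · rw [if_pos rfl, if_pos rfl, map_tgW f ha, tgZ_map, Units.coe_map]
    rfl
  · rw [if_neg hn, if_neg hn, map_sum]
    refine Finset.sum_congr rfl fun d _ => ?_
    rw [map_mul, map_natCast, map_add, tgZ_map, ← map_pow, ← map_inv, Units.coe_map, Units.coe_map]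
    rfl

theorem map_tgS1 (a : ZMod M) (ha : IsUnit (1 - ((tgZ R M ζ a : Rˣ) : R))) :
    (tgS1 R M ζ a).map f = tgS1 R' M (Units.map (f : R →* R') ζ) a := by
  ext n
  rw [PowerSeries.coeff_map, coeff_tgS1, coeff_tgS1, map_tgS1Coeff f M ζ a n ha]

theorem coeffMap_tgNu1 (a a' : ZMod M) (ha : IsUnit (1 - ((tgZ R M ζ a : Rˣ) : R)))
    (ha' : IsUnit (1 - ((tgZ R M ζ a' : Rˣ) : R))) :
    coeffMap f (tgNu1 R M ζ a a') = tgNu1 R' M (Units.map (f : R →* R') ζ) a a' := by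
  rw [tgNu1, tgNu1, map_mul, coeffMap_tgNorm, coeffMap_ofPowerSeries, map_sub,
    map_tgS1 f M ζ a ha, map_tgS1 f M ζ a' ha']

theorem coeffMap_lsTwist (ω : Rˣ) (x : LaurentSeries R) :
    coeffMap f (lsTwist ω x) = lsTwist (Units.map (f : R →* R') ω) (coeffMap f x) := by
  ext n
  rw [coeffMap_coeff, lsTwist_coeff, lsTwist_coeff, coeffMap_coeff, map_mul, ← map_zpow,
    Units.coe_map]
  rfl

theorem coeffMap_tgJc (c e : ℕ) :
    coeffMap f (tgJc R ζ c e) = tgJc R' (Units.map (f : R →* R') ζ) c e := by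
  rw [tgJc, tgJc]
  by_cases he : e = 0
  · rw [dif_pos he, dif_pos he, map_zero]
  · rw [dif_neg he, dif_neg he]
    haveI : NeZero e := ⟨he⟩
    rw [coeffMap_qExpand, coeffMap_lsTwist, coeffMap_jqModC, map_pow]

end Map


section Field

variable (k : Type*) [Field k] (M : ℕ) [NeZero M] (ζ : kˣ)

/-- **the full level field** `F(M) ⊆ k((t))`, `t = q^{1/M}` -/
def tgFull : IntermediateField k (LaurentSeries k) :=
  IntermediateField.adjoin k (tgJSet k M ζ ∪ tgNuSet k M ζ)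

/-- **the function field of `Γ₁(M)`** at the cusp `∞` of the `μ_M`-model, `⊆ k((q))` -/
def TgOne : IntermediateField k (LaurentSeries k) :=
  IntermediateField.adjoin k (divisorExpansionsC k M ∪ tgNu1Set k M ζ)

theorem full_le_tgOne : modularFunctionFieldFullC k M ≤ TgOne k M ζ :=
  IntermediateField.adjoin.mono k _ _ Set.subset_union_left

theorem tgNu1_mem_tgOne {a a' : ZMod M} (ha : a ≠ 0) (ha' : a' ≠ 0) :
    tgNu1 k M ζ a a' ∈ TgOne k M ζ :=
  IntermediateField.subset_adjoin k _ (Or.inr ⟨a, a', ha, ha', rfl⟩)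

theorem tgNu_mem_tgFull {v w : ZMod M × ZMod M} (hv : v ≠ 0) (hw : w ≠ 0) :
    tgNu k M ζ v w ∈ tgFull k M ζ :=
  IntermediateField.subset_adjoin k _ (Or.inr ⟨v, w, hv, hw, rfl⟩)

theorem tgJc_mem_tgFull {a' d' b' : ℕ} (h : a' * d' ∣ M) (hb : b' < d') :
    tgJc k ζ (M / d' * b') (M / d' * a') ∈ tgFull k M ζ :=
  IntermediateField.subset_adjoin k _ (Or.inl ⟨a', d', b', h, hb, rfl⟩)


/-- `j(t^M) = j(q)` -/
theorem tgJc_zero_eq (e : ℕ) [NeZero e] : tgJc k ζ 0 e = qExpand k e (jqModC k) := by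
  rw [tgJc_eq_pzSub, pow_zero, pzSub_one_left]

theorem qExpand_jqModC_mem_tgFull {d : ℕ} [NeZero d] (hd : d ∣ M) :
    qExpand k (M * d) (jqModC k) ∈ tgFull k M ζ := by
  have h := tgJc_mem_tgFull k M ζ (a' := d) (d' := 1) (b' := 0) (by rwa [mul_one]) Nat.one_pos
  rwa [Nat.div_one, mul_zero, tgJc_zero_eq] at h

/-- `ι_M : k((q)) → k((t))`, `q ↦ t^M`, maps the `Γ₁(M)`-field into the full level field -/
theorem qExpand_mem_tgFull {x : LaurentSeries k} (hx : x ∈ TgOne k M ζ) :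
    qExpand k M x ∈ tgFull k M ζ := by
  have h : (TgOne k M ζ).map (qExpandAlgHomC k M) ≤ tgFull k M ζ := by
    rw [TgOne, IntermediateField.adjoin_map, IntermediateField.adjoin_le_iff]
    rintro y ⟨x, hx, rfl⟩
    rw [qExpandAlgHomC_apply]
    rcases hx with ⟨d, hd0, hd, rfl⟩ | ⟨a, a', ha, ha', rfl⟩
    · haveI := hd0
      rw [qExpand_qExpand]
      exact qExpand_jqModC_mem_tgFull k M ζ hd
    · rw [qExpand_tgNu1]
      refine tgNu_mem_tgFull k M ζ ?_ ?_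
      · intro h0
        exact ha (congrArg Prod.snd h0)
      · intro h0
        exact ha' (congrArg Prod.snd h0)
  exact h ⟨x, hx, rfl⟩

end Field

end Fermat.Agent.T1G
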