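/-
T1G (helper6), the INTERFACE between the analytic and the algebraic side: the action of `SL₂(ℤ)` on
the full level field `tgFull K M ζ ⊆ K((t))` in characteristic `0`.

Index convention: `v = (b, a) ∈ (ℤ/M)²` is a ROW vector, `v ↔ (bτ + a)/M ↔ t^b ζ^a`,
`f_v(γ τ) = f_{v γ}(τ)`; `tgAct M γ v = v γ`.  With the S24Lib convention `(slAct γ f)(τ) = f(γ⁻¹ τ)`
the action on the generators is `ρ γ (ν v w) = ν (v γ⁻¹) (w γ⁻¹)`, and `ρ T⁻¹` is `t ↦ ζ t`.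
-/
import Fermat.Agent.Lib.T1G.Model.Series
import Mathlib.NumberTheory.ModularForms.CongruenceSubgroups

set_option autoImplicit false
set_option linter.unusedSectionVars false

open HahnSeries ModularCurve Fermat.Agent.Igusa Matrix MatrixGroups CongruenceSubgroup

noncomputable section

namespace Fermat.Agent.T1G

section Act

variable (M : ℕ) [NeZero M]

/-- the right action of `SL₂(ℤ)` on row vectors `(b, a) ∈ (ℤ/M)²` -/
def tgAct (γ : SL(2, ℤ)) (v : ZMod M × ZMod M) : ZMod M × ZMod M :=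
  (v.1 * ((γ 0 0 : ℤ) : ZMod M) + v.2 * ((γ 1 0 : ℤ) : ZMod M),
   v.1 * ((γ 0 1 : ℤ) : ZMod M) + v.2 * ((γ 1 1 : ℤ) : ZMod M))

theorem tgAct_one (v : ZMod M × ZMod M) : tgAct M 1 v = v := by
  simp [tgAct]

theorem tgAct_mul (γ δ : SL(2, ℤ)) (v : ZMod M × ZMod M) :
    tgAct M (γ * δ) v = tgAct M δ (tgAct M γ v) := by
  rw [tgAct, tgAct, tgAct]
  simp only [Matrix.SpecialLinearGroup.coe_mul, Matrix.mul_apply, Fin.sum_univ_two]
  push_cast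
  ext <;> simp only <;> ring

theorem tgAct_neg (γ : SL(2, ℤ)) (v : ZMod M × ZMod M) : tgAct M γ (-v) = -tgAct M γ v := by
  rw [tgAct, tgAct]
  ext <;> simp only [Prod.fst_neg, Prod.snd_neg] <;> ring

theorem tgAct_zero (γ : SL(2, ℤ)) : tgAct M γ 0 = 0 := by
  simp [tgAct]

theorem tgAct_ne_zero (γ : SL(2, ℤ)) {v : ZMod M × ZMod M} (hv : v ≠ 0) : tgAct M γ v ≠ 0 := by
  intro h
  apply hv
  have := congrArg (tgAct M γ⁻¹) h
  rwa [← tgAct_mul, mul_inv_cancel, tgAct_one, tgAct_zero] at this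

/-- `T = (1 1; 0 1)` acts by `(b, a) ↦ (b, a + b)` -/
theorem tgAct_T (v : ZMod M × ZMod M) : tgAct M ModularGroup.T v = (v.1, v.2 + v.1) := by
  rw [tgAct]
  simp [ModularGroup.T, add_comm]

end Act

section Interface

variable (K : Type*) [Field K] (M : ℕ) [NeZero M] (ζ : Kˣ)

/-- `j(q) = j(t^M)` in the full level field -/
def tgJ : ↥(tgFull K M ζ) :=
  ⟨qExpand K M (jqModC K), by
    have h := qExpand_jqModC_mem_tgFull K M ζ (d := 1) (one_dvd M)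
    rwa [qExpand_congr (mul_one M)] at h⟩

/-- `j(q^d) = j(t^{Md})` in the full level field, `d ∣ M` -/
def tgJd {d : ℕ} [NeZero d] (hd : d ∣ M) : ↥(tgFull K M ζ) :=
  ⟨qExpand K (M * d) (jqModC K), qExpand_jqModC_mem_tgFull K M ζ hd⟩

/-- the generators `ν_{v,w}` in the full level field -/
def tgNuE {v w : ZMod M × ZMod M} (hv : v ≠ 0) (hw : w ≠ 0) : ↥(tgFull K M ζ) :=
  ⟨tgNu K M ζ v w, tgNu_mem_tgFull K M ζ hv hw⟩

/-- **the Galois package at full level** (supplied by the analytic side in characteristic `0`):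
`SL₂(ℤ)` acts on `tgFull K M ζ` by `K`-automorphisms, permuting the generators through the index
action, `T⁻¹` acts as the twist `t ↦ ζ t`, the fixed field is `K(j)`, and the stabiliser of
`j(q^M)` is contained in `Γ₀(M)`. -/
structure TgGalois where
  /-- the action -/
  ρ : SL(2, ℤ) →* (↥(tgFull K M ζ) ≃ₐ[K] ↥(tgFull K M ζ))
  ρ_nu : ∀ (γ : SL(2, ℤ)) {v w : ZMod M × ZMod M} (hv : v ≠ 0) (hw : w ≠ 0),
    ρ γ (tgNuE K M ζ hv hw) =
      tgNuE K M ζ (tgAct_ne_zero M γ⁻¹ hv) (tgAct_ne_zero M γ⁻¹ hw)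
  ρ_jset : ∀ (γ : SL(2, ℤ)) (x : ↥(tgFull K M ζ)), (x : LaurentSeries K) ∈ tgJSet K M ζ →
    ((ρ γ x : ↥(tgFull K M ζ)) : LaurentSeries K) ∈ tgJSet K M ζ
  ρ_J : ∀ γ : SL(2, ℤ), ρ γ (tgJ K M ζ) = tgJ K M ζ
  ρ_T : ∀ x : ↥(tgFull K M ζ),
    ((ρ ModularGroup.T⁻¹ x : ↥(tgFull K M ζ)) : LaurentSeries K) = lsTwist ζ (x : LaurentSeries K)
  fixed : ∀ x : ↥(tgFull K M ζ), (∀ γ : SL(2, ℤ), ρ γ x = x) →
    x ∈ IntermediateField.adjoin K {tgJ K M ζ}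
  ρ_jd : ∀ γ ∈ Gamma0 M, ∀ {d : ℕ} [NeZero d] (hd : d ∣ M), ρ γ (tgJd K M ζ hd) = tgJd K M ζ hd
  stab_jM : ∀ γ : SL(2, ℤ), ρ γ (tgJd K M ζ (dvd_refl M)) = tgJd K M ζ (dvd_refl M) →
    γ ∈ Gamma0 M
  /-- `Γ(M)` acts trivially -/
  ρ_Gamma : ∀ γ ∈ Gamma M, ρ γ = 1
  /-- `-1` acts trivially -/
  ρ_neg_one : ρ (-1) = 1

end Interface

end Fermat.Agent.T1G
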