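/-
T1G leaf TG-GRP (helper7): pure SL(2,ℤ) matrix computations for the Igusa-at-full-level argument.
 (a) `T` and `S T S⁻¹` generate SL(2,ℤ);
 (b) Γ₀(M) normalises ⟨T⟩ modulo Γ(M);
 (c) a normal subgroup contained in Γ₀(M) consists of scalars mod M;
 (d) a subgroup D ∋ T, D ⊇ Γ(M), with D·Γ₀(M) = SL(2,ℤ), is everything.
-/
import Mathlib

set_option autoImplicit false

namespace Fermat.Agent.T1G

open Matrix Matrix.SpecialLinearGroup CongruenceSubgroup ModularGroup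
open scoped MatrixGroups

theorem tgg_det_eq (g : SL(2, ℤ)) : g 0 0 * g 1 1 - g 0 1 * g 1 0 = 1 := by
  have h := g.det_coe
  rwa [Matrix.det_fin_two] at h

theorem tgg_S_eq : (S : SL(2, ℤ)) = T⁻¹ * (S * T * S⁻¹)⁻¹ * T⁻¹ := by
  decide

/-- (a) `T` and `S T S⁻¹` generate `SL(2,ℤ)`. -/
theorem tgg_closure :
    Subgroup.closure ({T, S * T * S⁻¹} : Set SL(2, ℤ)) = ⊤ := by
  rw [eq_top_iff, ← SpecialLinearGroup.SL2Z_generators, Subgroup.closure_le]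
  have hT : (T : SL(2, ℤ)) ∈ Subgroup.closure ({T, S * T * S⁻¹} : Set SL(2, ℤ)) :=
    Subgroup.subset_closure (Set.mem_insert _ _)
  have hU : (S * T * S⁻¹ : SL(2, ℤ)) ∈ Subgroup.closure ({T, S * T * S⁻¹} : Set SL(2, ℤ)) :=
    Subgroup.subset_closure (Set.mem_insert_of_mem _ rfl)
  have hS : (T⁻¹ * (S * T * S⁻¹)⁻¹ * T⁻¹ : SL(2, ℤ)) ∈
      Subgroup.closure ({T, S * T * S⁻¹} : Set SL(2, ℤ)) :=
    Subgroup.mul_mem _ (Subgroup.mul_mem _ (Subgroup.inv_mem _ hT) (Subgroup.inv_mem _ hU))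
      (Subgroup.inv_mem _ hT)
  rw [← tgg_S_eq] at hS
  rintro x (rfl | rfl)
  · exact hS
  · exact hT

/-- Entries of `h T h⁻¹ T^{-k}`. -/
theorem tgg_conj_T_entries (h : SL(2, ℤ)) (k : ℤ) :
    (h * T * h⁻¹ * (T ^ k)⁻¹ : SL(2, ℤ)) 0 0 = 1 - h 0 0 * h 1 0 ∧
    (h * T * h⁻¹ * (T ^ k)⁻¹ : SL(2, ℤ)) 0 1 = -k * (1 - h 0 0 * h 1 0) + h 0 0 * h 0 0 ∧
    (h * T * h⁻¹ * (T ^ k)⁻¹ : SL(2, ℤ)) 1 0 = -(h 1 0 * h 1 0) ∧
    (h * T * h⁻¹ * (T ^ k)⁻¹ : SL(2, ℤ)) 1 1 = k * (h 1 0 * h 1 0) + 1 + h 0 0 * h 1 0 := by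
  have hdet := tgg_det_eq h
  simp only [coe_mul, Matrix.SpecialLinearGroup.coe_inv, coe_T_zpow, coe_T,
    Matrix.adjugate_fin_two, Matrix.mul_apply, Fin.sum_univ_two, Matrix.of_apply,
    Matrix.cons_val_zero, Matrix.cons_val_one, Matrix.cons_val', Matrix.cons_val_fin_one]
  refine ⟨?_, ?_, ?_, ?_⟩
  · linear_combination (1 : ℤ) * hdet
  · linear_combination (-k) * hdet
  · ring
  · linear_combination (1 : ℤ) * hdet

/-- (b) `Γ₀(M)` normalises `⟨T⟩` modulo `Γ(M)`. -/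
theorem tgg_conj_T (M : ℕ) {h : SL(2, ℤ)} (hh : h ∈ Gamma0 M) :
    ∃ k : ℤ, h * T * h⁻¹ * (T ^ k)⁻¹ ∈ Gamma M := by
  have hc : ((h 1 0 : ℤ) : ZMod M) = 0 := Gamma0_mem.mp hh
  refine ⟨h 0 0 * h 0 0, ?_⟩
  obtain ⟨e00, e01, e10, e11⟩ := tgg_conj_T_entries h (h 0 0 * h 0 0)
  rw [Gamma_mem, e00, e01, e10, e11]
  push_cast
  rw [hc]
  refine ⟨?_, ?_, ?_, ?_⟩ <;> ring

/-- The matrix `[1,0;1,1]`. -/
def tggL : SL(2, ℤ) := ⟨!![1, 0; 1, 1], by decide⟩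

theorem coe_tggL : (tggL : Matrix (Fin 2) (Fin 2) ℤ) = !![1, 0; 1, 1] := rfl

/-- (c) A normal subgroup of `SL(2,ℤ)` contained in `Γ₀(M)` consists of scalars modulo `M`. -/
theorem tgg_scalar_of_normal (M : ℕ) (N : Subgroup SL(2, ℤ)) [N.Normal] (h : N ≤ Gamma0 M)
    {γ : SL(2, ℤ)} (hγ : γ ∈ N) :
    ∃ α : ZMod M, α * α = 1 ∧ ((γ 0 0 : ℤ) : ZMod M) = α ∧ ((γ 1 1 : ℤ) : ZMod M) = α ∧
      ((γ 0 1 : ℤ) : ZMod M) = 0 ∧ ((γ 1 0 : ℤ) : ZMod M) = 0 := by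
  have hdet := congrArg (Int.cast : ℤ → ZMod M) (tgg_det_eq γ)
  push_cast at hdet
  have hc : ((γ 1 0 : ℤ) : ZMod M) = 0 := Gamma0_mem.mp (h hγ)
  -- conjugate by `S`
  have h1 : S * γ * S⁻¹ ∈ N := Subgroup.Normal.conj_mem inferInstance γ hγ S
  have hb : ((γ 0 1 : ℤ) : ZMod M) = 0 := by
    have h2 : (((S * γ * S⁻¹ : SL(2, ℤ)) 1 0 : ℤ) : ZMod M) = 0 := Gamma0_mem.mp (h h1)
    have h3 : (S * γ * S⁻¹ : SL(2, ℤ)) 1 0 = -(γ 0 1) := by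
      simp only [coe_mul, Matrix.SpecialLinearGroup.coe_inv, coe_S,
        Matrix.adjugate_fin_two, Matrix.mul_apply, Fin.sum_univ_two, Matrix.of_apply,
        Matrix.cons_val_zero, Matrix.cons_val_one, Matrix.cons_val', Matrix.cons_val_fin_one]
      ring
    rw [h3] at h2
    push_cast at h2
    exact neg_eq_zero.mp h2
  -- conjugate by `L = S T⁻¹ S⁻¹ = [1,0;1,1]`
  have h4 : tggL * γ * tggL⁻¹ ∈ N := Subgroup.Normal.conj_mem inferInstance γ hγ tggL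
  have had : ((γ 0 0 : ℤ) : ZMod M) = ((γ 1 1 : ℤ) : ZMod M) := by
    have h5 : (((tggL * γ * tggL⁻¹ : SL(2, ℤ)) 1 0 : ℤ) : ZMod M) = 0 := Gamma0_mem.mp (h h4)
    have h6 : (tggL * γ * tggL⁻¹ : SL(2, ℤ)) 1 0 = γ 0 0 + γ 1 0 - γ 0 1 - γ 1 1 := by
      simp only [coe_tggL, coe_mul, Matrix.SpecialLinearGroup.coe_inv,
        Matrix.adjugate_fin_two, Matrix.mul_apply, Fin.sum_univ_two, Matrix.of_apply,
        Matrix.cons_val_zero, Matrix.cons_val_one, Matrix.cons_val', Matrix.cons_val_fin_one]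
      ring
    rw [h6] at h5
    push_cast at h5
    rw [hb, hc] at h5
    linear_combination h5
  refine ⟨((γ 0 0 : ℤ) : ZMod M), ?_, rfl, had.symm, hb, hc⟩
  rw [hb, hc] at hdet
  nth_rewrite 2 [had]
  linear_combination hdet

/-- (d) A subgroup `D ∋ T` containing `Γ(M)` with `D · Γ₀(M) = SL(2,ℤ)` is all of `SL(2,ℤ)`. -/
theorem tgg_decomp {M : ℕ} (D : Subgroup SL(2, ℤ)) (hT : T ∈ D) (hΓ : Gamma M ≤ D)
    (hD : ∀ g : SL(2, ℤ), ∃ d ∈ D, ∃ h ∈ Gamma0 M, g = d * h) : D = ⊤ := by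
  have hconj : ∀ g : SL(2, ℤ), g * T * g⁻¹ ∈ D := by
    intro g
    obtain ⟨d, hd, h, hh, rfl⟩ := hD g
    obtain ⟨k, hk⟩ := tgg_conj_T M hh
    have h1 : h * T * h⁻¹ ∈ D := by
      have := D.mul_mem (hΓ hk) (D.zpow_mem hT k)
      rwa [inv_mul_cancel_right] at this
    have h2 : d * h * T * (d * h)⁻¹ = d * (h * T * h⁻¹) * d⁻¹ := by group
    rw [h2]
    exact D.mul_mem (D.mul_mem hd h1) (D.inv_mem hd)
  rw [eq_top_iff, ← tgg_closure, Subgroup.closure_le]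
  rintro x (rfl | rfl)
  · exact hT
  · exact hconj S

end Fermat.Agent.T1G
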