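/-
T1G (helper6), TG-LEAD: constant and leading terms of the series `tgS`, and what they force.

* `tgW_ne_zero`, `tgW_eq_iff`: `w(ζ^a) ≠ 0`, `w(ζ^a) = w(ζ^{a'}) ↔ a = ± a'`;
* `tg_fst_eq_zero_of_tgNu_eq` (Lemma A): an index transformation `v ↦ v γ` preserving the two
  generators `ν_{(0,1),(0,2)}`, `ν_{(0,1),(0,3)}` has `γ ∈ Γ₀(M)`;
* `tg_scalar_eq_of_tgNu_eq` (Lemma B): a scalar `α` preserving `ν_{(1,0),(0,1)}` is `± 1`;
* `tg_diamond_eq_of_tgNu1_eq` (Lemma C): a diamond operator preserving all `ν_{a,a'}` is `⟨± 1⟩`.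
-/
import Fermat.Agent.Lib.T1G.Model.Galois

set_option autoImplicit false
set_option linter.unusedSectionVars false

open HahnSeries ModularCurve Fermat.Agent.Igusa

noncomputable section

namespace Fermat.Agent.T1G

variable (k : Type*) [Field k] (M : ℕ) [NeZero M] (ζ : kˣ)

/-! ### The function `w` on roots of unity -/

theorem tgW_field (u : k) : tgW k u = u / (1 - u) ^ 2 := by
  rw [tgW, Ring.inverse_eq_inv, div_eq_mul_inv]

variable {k M ζ}

theorem tgZ_eq_one_iff (hζ : IsPrimitiveRoot ζ M) (a : ZMod M) : tgZ k M ζ a = 1 ↔ a = 0 := by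
  rw [tgZ, hζ.pow_eq_one_iff_dvd]
  constructor
  · intro h
    have := Nat.eq_zero_of_dvd_of_lt h (ZMod.val_lt a)
    exact (ZMod.val_eq_zero a).mp this
  · rintro rfl
    rw [ZMod.val_zero]
    exact dvd_zero M

theorem tgZ_injective (hζ : IsPrimitiveRoot ζ M) : Function.Injective (tgZ k M ζ) := by
  intro a b h
  have h1 : tgZ k M ζ (a - b) = 1 := by
    rw [sub_eq_add_neg, tgZ_add hζ.pow_eq_one, tgZ_neg hζ.pow_eq_one, h, mul_inv_cancel]
  exact sub_eq_zero.mp ((tgZ_eq_one_iff hζ _).mp h1)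

theorem tgZ_val_ne_one (hζ : IsPrimitiveRoot ζ M) {a : ZMod M} (ha : a ≠ 0) :
    ((tgZ k M ζ a : kˣ) : k) ≠ 1 := by
  intro h
  exact ha ((tgZ_eq_one_iff hζ a).mp (Units.ext h))

theorem tgW_ne_zero (hζ : IsPrimitiveRoot ζ M) {a : ZMod M} (ha : a ≠ 0) :
    tgW k ((tgZ k M ζ a : kˣ) : k) ≠ 0 := by
  rw [tgW_field]
  have h1 : (1 : k) - ((tgZ k M ζ a : kˣ) : k) ≠ 0 := sub_ne_zero.mpr (tgZ_val_ne_one hζ ha).symm
  exact div_ne_zero (Units.ne_zero _) (pow_ne_zero 2 h1)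

/-- `w(u) - w(u') = (u - u')(1 - u u') / ((1-u)²(1-u')²)` -/
theorem tgW_sub (u u' : k) (hu : u ≠ 1) (hu' : u' ≠ 1) :
    tgW k u - tgW k u' = (u - u') * (1 - u * u') / ((1 - u) ^ 2 * (1 - u') ^ 2) := by
  rw [tgW_field, tgW_field]
  have h1 : (1 : k) - u ≠ 0 := sub_ne_zero.mpr hu.symm
  have h2 : (1 : k) - u' ≠ 0 := sub_ne_zero.mpr hu'.symm
  field_simp
  ring

theorem tgW_eq_iff (hζ : IsPrimitiveRoot ζ M) {a a' : ZMod M} (ha : a ≠ 0) (ha' : a' ≠ 0) :
    tgW k ((tgZ k M ζ a : kˣ) : k) = tgW k ((tgZ k M ζ a' : kˣ) : k) ↔ a = a' ∨ a = -a' := by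
  have h1 := tgZ_val_ne_one hζ ha
  have h2 := tgZ_val_ne_one hζ ha'
  rw [← sub_eq_zero, tgW_sub _ _ h1 h2, div_eq_zero_iff, mul_eq_zero, sub_eq_zero, sub_eq_zero]
  have hden : ((1 : k) - ((tgZ k M ζ a : kˣ) : k)) ^ 2 * (1 - ((tgZ k M ζ a' : kˣ) : k)) ^ 2 ≠ 0 :=
    mul_ne_zero (pow_ne_zero 2 (sub_ne_zero.mpr h1.symm)) (pow_ne_zero 2 (sub_ne_zero.mpr h2.symm))
  constructor
  · rintro ((h | h) | h)
    · exact Or.inl (tgZ_injective hζ (Units.ext h))
    · right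
      apply tgZ_injective hζ
      rw [tgZ_neg hζ.pow_eq_one, eq_inv_iff_mul_eq_one]
      apply Units.ext
      rw [Units.val_mul, Units.val_one]
      exact h.symm
    · exact absurd h hden
  · rintro (rfl | rfl)
    · exact Or.inl (Or.inl rfl)
    · left; right
      rw [tgZ_neg hζ.pow_eq_one, ← Units.val_mul, inv_mul_cancel, Units.val_one]

/-! ### Cancelling the normaliser -/

variable (k M ζ)

theorem tgNorm_ne_zero : tgNorm k ≠ 0 := by
  intro h
  have h1 := congrArg (fun x : LaurentSeries k => x.coeff (-1)) h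
  simp only [tgNorm, HahnSeries.coeff_single_mul, sub_neg_eq_add, neg_add_cancel, one_mul,
    HahnSeries.coeff_zero] at h1
  rw [show (0 : ℤ) = ((0 : ℕ) : ℤ) from rfl, HahnSeries.ofPowerSeries_apply_coeff,
    PowerSeries.coeff_map, PowerSeries.coeff_zero_eq_constantCoeff, constantCoeff_tgNormNum] at h1
  simp at h1

variable {k M ζ}

/-- equality of two generators means equality of the differences of the `tgS` -/
theorem tgS_sub_eq_of_tgNu_eq {v w v' w' : ZMod M × ZMod M}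
    (h : tgNu k M ζ v w = tgNu k M ζ v' w') :
    tgS k M ζ v - tgS k M ζ w = tgS k M ζ v' - tgS k M ζ w' := by
  rw [tgNu, tgNu] at h
  have h0 : qExpand k M (tgNorm k) ≠ 0 := fun h0 =>
    tgNorm_ne_zero k ((map_eq_zero_iff _ (qExpand_injective M)).mp h0)
  exact HahnSeries.ofPowerSeries_injective (mul_left_cancel₀ h0 h)

theorem tgS1_sub_eq_of_tgNu1_eq {a b a' b' : ZMod M}
    (h : tgNu1 k M ζ a b = tgNu1 k M ζ a' b') :
    tgS1 k M ζ a - tgS1 k M ζ b = tgS1 k M ζ a' - tgS1 k M ζ b' := by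
  rw [tgNu1, tgNu1] at h
  exact HahnSeries.ofPowerSeries_injective (mul_left_cancel₀ (tgNorm_ne_zero k) h)

/-! ### Lemmas A and B -/

theorem tg_natCast_ne_zero {n : ℕ} (h0 : 0 < n) (hn : n < M) : ((n : ℕ) : ZMod M) ≠ 0 := by
  rw [Ne, ZMod.natCast_eq_zero_iff]
  exact Nat.not_dvd_of_pos_of_lt h0 hn

theorem tg_coeff_zero_tgS (v : ZMod M × ZMod M) :
    PowerSeries.coeff 0 (tgS k M ζ v) = if v.1 = 0 then tgW k ((tgZ k M ζ v.2 : kˣ) : k) else 0 := by
  rw [coeff_tgS, tgSCoeff_zero]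

/-- **Lemma A**: preserving `ν_{(0,1),(0,2)}` and `ν_{(0,1),(0,3)}` forces the bottom row `(0, *)`. -/
theorem tg_fst_eq_zero_of_tgNu_eq (hζ : IsPrimitiveRoot ζ M) (hM : 5 ≤ M) (β δ : ZMod M)
    (h2 : tgNu k M ζ (β, δ) (2 * β, 2 * δ) = tgNu k M ζ (0, 1) (0, 2))
    (h3 : tgNu k M ζ (β, δ) (3 * β, 3 * δ) = tgNu k M ζ (0, 1) (0, 3)) : β = 0 := by
  have e1 : (1 : ZMod M) ≠ 0 := by
    have := tg_natCast_ne_zero (M := M) (n := 1) (by norm_num) (by omega)
    simpa using this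
  have e2 : (2 : ZMod M) ≠ 0 := by
    have := tg_natCast_ne_zero (M := M) (n := 2) (by norm_num) (by omega)
    simpa using this
  have e3 : (3 : ZMod M) ≠ 0 := by
    have := tg_natCast_ne_zero (M := M) (n := 3) (by norm_num) (by omega)
    simpa using this
  have e4 : (4 : ZMod M) ≠ 0 := by
    have := tg_natCast_ne_zero (M := M) (n := 4) (by norm_num) (by omega)
    simpa using this
  have hw2 : tgW k ((tgZ k M ζ 1 : kˣ) : k) - tgW k ((tgZ k M ζ 2 : kˣ) : k) ≠ 0 := by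
    rw [sub_ne_zero, Ne, tgW_eq_iff hζ e1 e2]
    rintro (h | h)
    · apply e1
      have : (2 : ZMod M) - 1 = 0 := by rw [← h]; ring
      have h' : (1 : ZMod M) = 2 - 1 := by ring
      rw [h', this]
    · apply e3
      have : (3 : ZMod M) = 1 - (-2) := by ring
      rw [this, ← h]; ring
  have hw3 : tgW k ((tgZ k M ζ 1 : kˣ) : k) - tgW k ((tgZ k M ζ 3 : kˣ) : k) ≠ 0 := by
    rw [sub_ne_zero, Ne, tgW_eq_iff hζ e1 e3]
    rintro (h | h)
    · apply e2
      have : (2 : ZMod M) = 3 - 1 := by ring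
      rw [this, ← h]; ring
    · apply e4
      have : (4 : ZMod M) = 1 - (-3) := by ring
      rw [this, ← h]; ring
  have c2 := congrArg (PowerSeries.coeff 0) (tgS_sub_eq_of_tgNu_eq h2)
  have c3 := congrArg (PowerSeries.coeff 0) (tgS_sub_eq_of_tgNu_eq h3)
  rw [map_sub, map_sub, tg_coeff_zero_tgS, tg_coeff_zero_tgS, tg_coeff_zero_tgS,
    tg_coeff_zero_tgS] at c2 c3
  simp only [if_true] at c2 c3
  by_contra hβ
  rw [if_neg hβ] at c2 c3
  by_cases h2β : 2 * β = 0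
  · have h3β : 3 * β ≠ 0 := by
      have : 3 * β = 2 * β + β := by ring
      rw [this, h2β, zero_add]
      exact hβ
    rw [if_neg h3β, sub_zero] at c3
    exact hw3 c3.symm
  · rw [if_neg h2β, sub_zero] at c2
    exact hw2 c2.symm

theorem tg_coeff_one_tgS (v : ZMod M × ZMod M) :
    PowerSeries.coeff 1 (tgS k M ζ v) =
      (if (1 : ZMod M) = v.1 then ((tgZ k M ζ v.2 : kˣ) : k) else 0) +
      (if (1 : ZMod M) = -v.1 then (((tgZ k M ζ v.2)⁻¹ : kˣ) : k) else 0) := by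
  rw [coeff_tgS, tgSCoeff_of_ne_zero _ _ _ _ one_ne_zero]
  simp

/-- **Lemma B**: a scalar preserving `ν_{(1,0),(0,1)}` is `± 1`. -/
theorem tg_scalar_eq_of_tgNu_eq (hM : 3 ≤ M) (α : ZMod M)
    (h : tgNu k M ζ (α, 0) (0, α) = tgNu k M ζ (1, 0) (0, 1)) : α = 1 ∨ α = -1 := by
  have e1 : (1 : ZMod M) ≠ 0 := by
    have := tg_natCast_ne_zero (M := M) (n := 1) (by norm_num) (by omega)
    simpa using this
  have e2 : (2 : ZMod M) ≠ 0 := by
    have := tg_natCast_ne_zero (M := M) (n := 2) (by norm_num) (by omega)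
    simpa using this
  have e11 : (1 : ZMod M) ≠ -1 := by
    intro h1
    apply e2
    have : (2 : ZMod M) = 1 - (-1) := by ring
    rw [this, ← h1]; ring
  have c := congrArg (PowerSeries.coeff 1) (tgS_sub_eq_of_tgNu_eq h)
  rw [map_sub, map_sub, tg_coeff_one_tgS, tg_coeff_one_tgS, tg_coeff_one_tgS,
    tg_coeff_one_tgS] at c
  simp only [tgZ_zero, inv_one, Units.val_one, neg_zero, if_neg e1, if_true, add_zero,
    if_neg e11, sub_zero] at c
  by_contra hα
  push Not at hα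
  rw [if_neg (fun h1 => hα.1 h1.symm), if_neg (fun h1 => hα.2 (by rw [h1, neg_neg])), add_zero] at c
  exact one_ne_zero c.symm

/-! ### Lemma C -/

/-- orthogonality: `Σ_a ζ^{x a} = 0` for `x ≠ 0` -/
theorem tg_sum_tgZ_mul (hζ : IsPrimitiveRoot ζ M) {x : ZMod M} (hx : x ≠ 0) :
    ∑ a : ZMod M, ((tgZ k M ζ (x * a) : kˣ) : k) = 0 := by
  set μ : k := ((tgZ k M ζ x : kˣ) : k) with hμ
  have hμ1 : μ ≠ 1 := tgZ_val_ne_one hζ hx
  have hμM : μ ^ M = 1 := by
    rw [hμ, ← Units.val_pow_eq_pow_val, tgZ, ← pow_mul, mul_comm, pow_mul, hζ.pow_eq_one, one_pow,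
      Units.val_one]
  have h1 : ∑ a : ZMod M, ((tgZ k M ζ (x * a) : kˣ) : k) = ∑ i ∈ Finset.range M, μ ^ i := by
    refine Finset.sum_nbij' (fun a => a.val) (fun i => (i : ZMod M)) ?_ ?_ ?_ ?_ ?_
    · intro a _
      exact Finset.mem_range.mpr (ZMod.val_lt a)
    · intro i _
      exact Finset.mem_univ _
    · intro a _
      exact ZMod.natCast_zmod_val a
    · intro i hi
      exact ZMod.val_natCast_of_lt (Finset.mem_range.mp hi)
    · intro a _
      have : x * a = x * ((a.val : ℕ) : ZMod M) := by rw [ZMod.natCast_zmod_val]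
      rw [this, tgZ_mul_natCast hζ.pow_eq_one, Units.val_pow_eq_pow_val]
  rw [h1]
  have h2 := geom_sum_mul μ M
  rw [hμM, sub_self] at h2
  exact (mul_eq_zero.mp h2).resolve_right (sub_ne_zero.mpr hμ1)

theorem tg_coeff_one_tgS1 (a : ZMod M) :
    PowerSeries.coeff 1 (tgS1 k M ζ a) =
      ((tgZ k M ζ a : kˣ) : k) + (((tgZ k M ζ a)⁻¹ : kˣ) : k) := by
  rw [coeff_tgS1, tgS1Coeff, if_neg one_ne_zero]
  simp

/-- `x + x⁻¹ = y + y⁻¹ ↔ x = y ∨ x = y⁻¹` -/
theorem tg_add_inv_eq_iff (x y : kˣ) :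
    (x : k) + ((x⁻¹ : kˣ) : k) = (y : k) + ((y⁻¹ : kˣ) : k) ↔ x = y ∨ x = y⁻¹ := by
  constructor
  · intro h
    have hx : (x : k) ≠ 0 := x.ne_zero
    have hy : (y : k) ≠ 0 := y.ne_zero
    have h1 : ((x : k) - y) * ((x : k) * y - 1) = 0 := by
      have hx' : (x : k) * ((x⁻¹ : kˣ) : k) = 1 := by simp
      have hy' : (y : k) * ((y⁻¹ : kˣ) : k) = 1 := by simp
      have : ((x : k) - y) * ((x : k) * y - 1) =
          (x : k) * y * ((x : k) + ((x⁻¹ : kˣ) : k) - ((y : k) + ((y⁻¹ : kˣ) : k))) +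
          ((y : k) * (1 - (x : k) * ((x⁻¹ : kˣ) : k))) -
          ((x : k) * (1 - (y : k) * ((y⁻¹ : kˣ) : k))) := by ring
      rw [this, h, sub_self, mul_zero, hx', hy']
      ring
    rcases mul_eq_zero.mp h1 with h2 | h2
    · exact Or.inl (Units.ext (sub_eq_zero.mp h2))
    · right
      rw [eq_inv_iff_mul_eq_one]
      apply Units.ext
      rw [Units.val_mul, Units.val_one]
      exact sub_eq_zero.mp h2
  · rintro (rfl | rfl)
    · rfl
    · rw [inv_inv, add_comm]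

/-- **Lemma C**: a diamond operator preserving all the generators `ν_{a,a'}` of the
`Γ₁(M)`-field is `⟨± 1⟩`. -/
theorem tg_diamond_eq_of_tgNu1_eq (hζ : IsPrimitiveRoot ζ M) (hM : 6 ≤ M) (δ : ZMod M)
    (h : ∀ a a' : ZMod M, a ≠ 0 → a' ≠ 0 →
      tgNu1 k M ζ (δ * a) (δ * a') = tgNu1 k M ζ a a') : δ = 1 ∨ δ = -1 := by
  classical
  have e1 : (1 : ZMod M) ≠ 0 := by
    have := tg_natCast_ne_zero (M := M) (n := 1) (by norm_num) (by omega)
    simpa using this
  -- `τ a = ζ^a + ζ^{-a}`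
  set τ : ZMod M → k := fun a => ((tgZ k M ζ a : kˣ) : k) + (((tgZ k M ζ a)⁻¹ : kˣ) : k) with hτ
  have hτeq : ∀ a a' : ZMod M, a ≠ 0 → a' ≠ 0 → τ (δ * a) - τ (δ * a') = τ a - τ a' := by
    intro a a' ha ha'
    have c := congrArg (PowerSeries.coeff 1) (tgS1_sub_eq_of_tgNu1_eq (h a a' ha ha'))
    rwa [map_sub, map_sub, tg_coeff_one_tgS1, tg_coeff_one_tgS1, tg_coeff_one_tgS1,
      tg_coeff_one_tgS1] at c
  set C : k := τ δ - τ 1 with hC
  have hf : ∀ a : ZMod M, a ≠ 0 → τ (δ * a) - τ a = C := by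
    intro a ha
    have := hτeq a 1 ha e1
    rw [mul_one] at this
    rw [hC]
    linear_combination this
  -- a frequency `c₀` outside `{0, ±1, ±δ}`
  obtain ⟨c₀, -, hc₀⟩ : ∃ c₀ ∈ (Finset.univ : Finset (ZMod M)),
      c₀ ∉ ({0, 1, -1, δ, -δ} : Finset (ZMod M)) := by
    apply Finset.exists_mem_notMem_of_card_lt_card
    rw [Finset.card_univ, ZMod.card]
    calc ({0, 1, -1, δ, -δ} : Finset (ZMod M)).card ≤ 5 := by
          refine (Finset.card_insert_le _ _).trans ?_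
          refine Nat.succ_le_succ ((Finset.card_insert_le _ _).trans ?_)
          refine Nat.succ_le_succ ((Finset.card_insert_le _ _).trans ?_)
          refine Nat.succ_le_succ ((Finset.card_insert_le _ _).trans ?_)
          simp
      _ < M := by omega
  simp only [Finset.mem_insert, Finset.mem_singleton, not_or] at hc₀
  obtain ⟨hc0, hc1, hc1', hcδ, hcδ'⟩ := hc₀
  -- the Fourier coefficient at `c₀`, computed in two ways
  have hsum1 : ∑ a : ZMod M, ((tgZ k M ζ (-c₀ * a) : kˣ) : k) * (τ (δ * a) - τ a) = 0 := by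
    have hexp : ∀ a : ZMod M, ((tgZ k M ζ (-c₀ * a) : kˣ) : k) * (τ (δ * a) - τ a) =
        ((tgZ k M ζ ((δ - c₀) * a) : kˣ) : k) + ((tgZ k M ζ ((-δ - c₀) * a) : kˣ) : k) -
        ((tgZ k M ζ ((1 - c₀) * a) : kˣ) : k) - ((tgZ k M ζ ((-1 - c₀) * a) : kˣ) : k) := by
      intro a
      have r1 : (δ - c₀) * a = -c₀ * a + δ * a := by ring
      have r2 : (-δ - c₀) * a = -c₀ * a + -(δ * a) := by ring
      have r3 : (1 - c₀) * a = -c₀ * a + a := by ring
      have r4 : (-1 - c₀) * a = -c₀ * a + -a := by ring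
      rw [r1, r2, r3, r4, tgZ_add hζ.pow_eq_one, tgZ_add hζ.pow_eq_one, tgZ_add hζ.pow_eq_one,
        tgZ_add hζ.pow_eq_one, tgZ_neg hζ.pow_eq_one, tgZ_neg hζ.pow_eq_one]
      simp only [hτ, Units.val_mul]
      ring
    simp only [hexp]
    rw [Finset.sum_sub_distrib, Finset.sum_sub_distrib, Finset.sum_add_distrib,
      tg_sum_tgZ_mul hζ (sub_ne_zero.mpr (Ne.symm hcδ)),
      tg_sum_tgZ_mul hζ (x := -δ - c₀) (by
        intro h0
        apply hcδ'
        have : c₀ = -δ - (-δ - c₀) := by ring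
        rw [this, h0, sub_zero]),
      tg_sum_tgZ_mul hζ (sub_ne_zero.mpr (Ne.symm hc1)),
      tg_sum_tgZ_mul hζ (x := -1 - c₀) (by
        intro h0
        apply hc1'
        have : c₀ = -1 - (-1 - c₀) := by ring
        rw [this, h0, sub_zero])]
    ring
  have hsum2 : ∑ a : ZMod M, ((tgZ k M ζ (-c₀ * a) : kˣ) : k) * (τ (δ * a) - τ a) = -C := by
    have hterm : ∀ a : ZMod M, ((tgZ k M ζ (-c₀ * a) : kˣ) : k) * (τ (δ * a) - τ a) =
        C * ((tgZ k M ζ (-c₀ * a) : kˣ) : k) - (if a = 0 then C else 0) := by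
      intro a
      by_cases ha : a = 0
      · subst ha
        rw [if_pos rfl, mul_zero, mul_zero, sub_self, mul_zero, tgZ_zero, Units.val_one, mul_one,
          sub_self]
      · rw [if_neg ha, sub_zero, hf a ha, mul_comm]
    simp only [hterm]
    rw [Finset.sum_sub_distrib, ← Finset.mul_sum,
      tg_sum_tgZ_mul hζ (neg_ne_zero.mpr hc0), mul_zero, zero_sub, Finset.sum_ite_eq']
    simp
  have hC0 : C = 0 := by
    have := hsum1.symm.trans hsum2
    exact neg_eq_zero.mp this.symm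
  -- so `τ δ = τ 1`
  have h1 : τ δ = τ 1 := sub_eq_zero.mp (hC.symm.trans hC0)
  rcases (tg_add_inv_eq_iff _ _).mp h1 with h2 | h2
  · exact Or.inl (tgZ_injective hζ h2)
  · right
    apply tgZ_injective hζ
    rw [tgZ_neg hζ.pow_eq_one]
    exact h2

end Fermat.Agent.T1G
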