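/-
T1G leaf TG-GEN (helper5): generic consequences of a Galois package `G : TgGalois K M ζ` at full
level (any field `K`, `ζ` a primitive `M`-th root of unity):

* `G.finite_range`, `G.fixedField_range`: `tgFull / K(J)` is finite Galois with group `ρ(SL₂(ℤ))`;
* `G.mem_Gamma_or_neg_of_ρ_eq_one`: the kernel of `ρ` is `±Γ(M)` (`5 ≤ M`);
* `tgPm Γ` : the subgroup `±Γ`.

The lemmas `tgn_adjoin_eq_fixedField_map`, `tgn_relfinrank_fixedField_map` are the Galois
correspondence in the form used here, over an arbitrary base field.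
-/
import Fermat.Agent.Lib.T1G.Model.Galois
import Fermat.Agent.Lib.T1G.Model.Lead
import Fermat.Agent.Lib.T1G.Model.Group
import Fermat.Agent.Lib.Curve.GaloisPlaces

set_option autoImplicit false
set_option linter.unusedSectionVars false
set_option linter.style.haveILetI false

open HahnSeries ModularCurve Fermat.Agent.Igusa Matrix MatrixGroups CongruenceSubgroup
open IntermediateField Fermat.Agent.Curve

noncomputable section

namespace Fermat.Agent.T1G

/-! ### The Galois correspondence, in the form used here -/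

section Generic

variable {K : Type*} [Field K] {L : Type*} [Field L] [Algebra K L] {Γ : Type*} [Group Γ]

/-- `Γ` acts on `L/K` through `ρ` with finite image.  If `S ⊆ L` is fixed by `H`, every `γ` fixing
`S` pointwise lies in `H`, and `K(S)` contains the fixed field of the whole image, then
`K(S)` is the fixed field of `ρ(H)`. -/
theorem tgn_adjoin_eq_fixedField_map (ρ : Γ →* (L ≃ₐ[K] L)) (hfin : Finite ρ.range)
    (H : Subgroup Γ) (S : Set L)
    (hS : ∀ γ ∈ H, ∀ s ∈ S, ρ γ s = s)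
    (hH : ∀ γ : Γ, (∀ s ∈ S, ρ γ s = s) → γ ∈ H)
    (hfix : IntermediateField.fixedField ρ.range ≤ IntermediateField.adjoin K S) :
    IntermediateField.adjoin K S = IntermediateField.fixedField (H.map ρ) := by
  apply le_antisymm
  · rw [IntermediateField.adjoin_le_iff]
    intro s hs
    rintro ⟨g, γ, hγ, rfl⟩
    exact hS γ hγ s hs
  · intro x hx
    have : IsGaloisGroup ρ.range (IntermediateField.fixedField ρ.range) L :=
      GaloisAux.isGaloisGroup_fixedField ρ.range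
    have key := IsGaloisGroup.fixedPoints_fixingSubgroup ρ.range
      (IntermediateField.fixedField ρ.range) L (IntermediateField.extendScalars hfix)
    have hx' : x ∈ FixedPoints.intermediateField (F := IntermediateField.fixedField ρ.range)
        (fixingSubgroup ρ.range
          ((IntermediateField.extendScalars hfix :
            IntermediateField (IntermediateField.fixedField ρ.range) L) : Set L)) := by
      rintro ⟨⟨g, γ, rfl⟩, hg⟩
      show ρ γ x = x
      have hγS : ∀ s ∈ S, ρ γ s = s := by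
        intro s hs
        have := (_root_.mem_fixingSubgroup_iff _).mp hg s
          (show s ∈ IntermediateField.adjoin K S from IntermediateField.subset_adjoin K S hs)
        exact this
      exact hx ⟨ρ γ, γ, hH γ hγS, rfl⟩
    rw [key] at hx'
    exact hx'

/-- the degree of the fixed field of `ρ(H)` over the fixed field of `ρ(Γ)` is the index of `H`
(for `ker ρ ≤ H`) -/
theorem tgn_relfinrank_fixedField_map (ρ : Γ →* (L ≃ₐ[K] L)) (hfin : Finite ρ.range)
    (H : Subgroup Γ) (hker : ρ.ker ≤ H) :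
    IntermediateField.relfinrank (IntermediateField.fixedField ρ.range)
      (IntermediateField.fixedField (H.map ρ)) = H.index := by
  set G := ρ.range with hG
  set H' := H.map ρ with hH'
  set B := IntermediateField.fixedField H' with hB
  set E0 := IntermediateField.fixedField G with hE0
  have hle : H' ≤ G := Subgroup.map_le_range ρ H
  have : Finite H' :=
    Finite.of_injective (Subgroup.inclusion hle) (Subgroup.inclusion_injective _)
  have hE0B : E0 ≤ B := fun x hx g => hx ⟨g.1, hle g.2⟩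
  have h1 := IntermediateField.relfinrank_mul_finrank_top hE0B
  rw [← GaloisAux.card_eq_finrank_fixedField H', ← GaloisAux.card_eq_finrank_fixedField G] at h1
  have h2 : Nat.card (H'.subgroupOf G) * (H'.subgroupOf G).index = Nat.card G :=
    Subgroup.card_mul_index _
  have h3 : Nat.card (H'.subgroupOf G) = Nat.card H' :=
    Nat.card_congr (Subgroup.subgroupOfEquivOfLe hle).toEquiv
  have h4 : H'.subgroupOf G = H.map ρ.rangeRestrict := by
    ext ⟨g, hg⟩
    rw [Subgroup.mem_subgroupOf, Subgroup.mem_map]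
    constructor
    · rintro ⟨γ, hγ, hγg⟩
      exact ⟨γ, hγ, Subtype.ext hγg⟩
    · rintro ⟨γ, hγ, hγg⟩
      exact ⟨γ, hγ, congrArg Subtype.val hγg⟩
  have h5 : (H.map ρ.rangeRestrict).index = H.index :=
    Subgroup.index_map_eq H ρ.rangeRestrict_surjective
      (by rw [MonoidHom.ker_rangeRestrict]; exact hker)
  rw [h4, h5] at h2
  rw [h4] at h3
  rw [h3] at h2
  have hpos : 0 < Nat.card H' := Nat.card_pos
  have : IntermediateField.relfinrank E0 B * Nat.card H' = H.index * Nat.card H' := by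
    rw [h1, ← h2, mul_comm]
  exact Nat.eq_of_mul_eq_mul_right hpos this

end Generic

/-! ### The subgroup `±Γ` -/

/-- the subgroup `±Γ` of `SL₂(ℤ)` -/
def tgPm (Γ : Subgroup SL(2, ℤ)) : Subgroup SL(2, ℤ) where
  carrier := {γ | γ ∈ Γ ∨ -γ ∈ Γ}
  one_mem' := Or.inl Γ.one_mem
  mul_mem' := by
    rintro a b (ha | ha) (hb | hb)
    · exact Or.inl (Γ.mul_mem ha hb)
    · refine Or.inr ?_
      rw [← mul_neg]
      exact Γ.mul_mem ha hb
    · refine Or.inr ?_
      rw [← neg_mul]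
      exact Γ.mul_mem ha hb
    · refine Or.inl ?_
      rw [← neg_mul_neg]
      exact Γ.mul_mem ha hb
  inv_mem' := by
    rintro a (ha | ha)
    · exact Or.inl (Γ.inv_mem ha)
    · refine Or.inr ?_
      rw [← inv_neg]
      exact Γ.inv_mem ha

theorem mem_tgPm {Γ : Subgroup SL(2, ℤ)} {γ : SL(2, ℤ)} : γ ∈ tgPm Γ ↔ γ ∈ Γ ∨ -γ ∈ Γ := Iff.rfl

theorem le_tgPm (Γ : Subgroup SL(2, ℤ)) : Γ ≤ tgPm Γ := fun _ h => Or.inl h

theorem neg_one_mem_tgPm (Γ : Subgroup SL(2, ℤ)) : (-1 : SL(2, ℤ)) ∈ tgPm Γ :=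
  Or.inr (by rw [neg_neg]; exact Γ.one_mem)

theorem tgPm_mono {Γ Γ' : Subgroup SL(2, ℤ)} (h : Γ ≤ Γ') : tgPm Γ ≤ tgPm Γ' := by
  rintro γ (hγ | hγ)
  · exact Or.inl (h hγ)
  · exact Or.inr (h hγ)

/-! ### Consequences of a Galois package -/

namespace TgGalois

variable {K : Type*} [Field K] {M : ℕ} [NeZero M] {ζ : Kˣ} (G : TgGalois K M ζ)

theorem Gamma_le_ker : Gamma M ≤ G.ρ.ker := fun γ hγ => MonoidHom.mem_ker.mpr (G.ρ_Gamma γ hγ)

theorem ρ_neg (γ : SL(2, ℤ)) : G.ρ (-γ) = G.ρ γ := by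
  rw [← neg_one_mul, map_mul, G.ρ_neg_one, one_mul]

theorem tgPm_Gamma_le_ker : tgPm (Gamma M) ≤ G.ρ.ker := by
  rintro γ (hγ | hγ)
  · exact G.Gamma_le_ker hγ
  · rw [MonoidHom.mem_ker, ← G.ρ_neg]
    exact G.ρ_Gamma _ hγ

theorem finite_range : Finite G.ρ.range := by
  haveI : G.ρ.ker.FiniteIndex := Subgroup.finiteIndex_of_le G.Gamma_le_ker
  exact Finite.of_equiv _ (QuotientGroup.quotientKerEquivRange G.ρ).toEquiv

theorem fixedField_range :
    IntermediateField.fixedField G.ρ.range = IntermediateField.adjoin K {tgJ K M ζ} := by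
  apply le_antisymm
  · intro x hx
    exact G.fixed x fun γ => hx ⟨G.ρ γ, γ, rfl⟩
  · rw [IntermediateField.adjoin_le_iff]
    rintro _ rfl ⟨g, γ, rfl⟩
    exact G.ρ_J γ

/-- the action on the generators, as an identity of Laurent series -/
theorem ρ_nu_val (γ : SL(2, ℤ)) {v w : ZMod M × ZMod M} (hv : v ≠ 0) (hw : w ≠ 0) :
    ((G.ρ γ (tgNuE K M ζ hv hw) : ↥(tgFull K M ζ)) : LaurentSeries K) =
      tgNu K M ζ (tgAct M γ⁻¹ v) (tgAct M γ⁻¹ w) := by
  rw [G.ρ_nu γ hv hw]
  rfl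

/-- an element of `SL₂(ℤ)` fixing `ν_{(0,1),(0,2)}` and `ν_{(0,1),(0,3)}` lies in `Γ₀(M)` -/
theorem mem_Gamma0_of_fixes (hζ : IsPrimitiveRoot ζ M) (hM : 5 ≤ M) {γ : SL(2, ℤ)}
    (h2 : tgNu K M ζ (tgAct M γ (0, 1)) (tgAct M γ (0, 2)) = tgNu K M ζ (0, 1) (0, 2))
    (h3 : tgNu K M ζ (tgAct M γ (0, 1)) (tgAct M γ (0, 3)) = tgNu K M ζ (0, 1) (0, 3)) :
    γ ∈ Gamma0 M := by
  rw [Gamma0_mem]
  have e1 : tgAct M γ (0, 1) = (((γ 1 0 : ℤ) : ZMod M), ((γ 1 1 : ℤ) : ZMod M)) := by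
    simp [tgAct]
  have e2 : tgAct M γ (0, 2) =
      (2 * ((γ 1 0 : ℤ) : ZMod M), 2 * ((γ 1 1 : ℤ) : ZMod M)) := by
    simp [tgAct]
  have e3 : tgAct M γ (0, 3) =
      (3 * ((γ 1 0 : ℤ) : ZMod M), 3 * ((γ 1 1 : ℤ) : ZMod M)) := by
    simp [tgAct]
  rw [e1, e2] at h2
  rw [e1, e3] at h3
  exact tg_fst_eq_zero_of_tgNu_eq hζ hM _ _ h2 h3

theorem tg_zero_natCast_ne_zero {n : ℕ} (h0 : 0 < n) (hn : n < M) :
    ((0 : ZMod M), ((n : ℕ) : ZMod M)) ≠ 0 := fun h =>
  tg_natCast_ne_zero h0 hn (congrArg Prod.snd h)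

/-- the elements of the kernel fix all the generators -/
theorem tgNu_tgAct_of_mem_ker {γ : SL(2, ℤ)} (hγ : γ ∈ G.ρ.ker) {v w : ZMod M × ZMod M}
    (hv : v ≠ 0) (hw : w ≠ 0) :
    tgNu K M ζ (tgAct M γ v) (tgAct M γ w) = tgNu K M ζ v w := by
  have hinv : G.ρ γ⁻¹ = 1 := by rw [map_inv, MonoidHom.mem_ker.mp hγ, inv_one]
  have := G.ρ_nu_val γ⁻¹ hv hw
  rw [hinv, inv_inv] at this
  exact this.symm

theorem ker_le_Gamma0 (hζ : IsPrimitiveRoot ζ M) (hM : 5 ≤ M) : G.ρ.ker ≤ Gamma0 M := by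
  intro γ hγ
  have h1 := tg_zero_natCast_ne_zero (M := M) (n := 1) (by norm_num) (by omega)
  have h2 := tg_zero_natCast_ne_zero (M := M) (n := 2) (by norm_num) (by omega)
  have h3 := tg_zero_natCast_ne_zero (M := M) (n := 3) (by norm_num) (by omega)
  simp only [Nat.cast_one, Nat.cast_ofNat] at h1 h2 h3
  exact mem_Gamma0_of_fixes hζ hM (G.tgNu_tgAct_of_mem_ker hγ h1 h2)
    (G.tgNu_tgAct_of_mem_ker hγ h1 h3)

/-- **the kernel of `ρ` is `±Γ(M)`** -/
theorem ker_eq (hζ : IsPrimitiveRoot ζ M) (hM : 5 ≤ M) : G.ρ.ker = tgPm (Gamma M) := by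
  apply le_antisymm _ G.tgPm_Gamma_le_ker
  intro γ hγ
  haveI : G.ρ.ker.Normal := MonoidHom.normal_ker _
  obtain ⟨α, -, h00, h11, h01, h10⟩ :=
    tgg_scalar_of_normal M G.ρ.ker (G.ker_le_Gamma0 hζ hM) hγ
  have e1 : (1 : ZMod M) ≠ 0 := by
    have := tg_natCast_ne_zero (M := M) (n := 1) (by norm_num) (by omega)
    simpa using this
  have hv : ((1 : ZMod M), (0 : ZMod M)) ≠ 0 := fun h => e1 (congrArg Prod.fst h)
  have hw : ((0 : ZMod M), (1 : ZMod M)) ≠ 0 := fun h => e1 (congrArg Prod.snd h)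
  have hB := G.tgNu_tgAct_of_mem_ker hγ hv hw
  have a1 : tgAct M γ (1, 0) = (α, 0) := by
    rw [tgAct, h00, h01]
    simp
  have a2 : tgAct M γ (0, 1) = (0, α) := by
    rw [tgAct, h10, h11]
    simp
  rw [a1, a2] at hB
  rcases tg_scalar_eq_of_tgNu_eq (by omega) α hB with rfl | rfl
  · left
    rw [Gamma_mem]
    exact ⟨h00, h01, h10, h11⟩
  · right
    rw [Gamma_mem, SpecialLinearGroup.coe_neg]
    simp only [Matrix.neg_apply, Int.cast_neg, h00, h01, h10, h11, neg_neg, neg_zero, and_self]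

theorem mem_Gamma_or_neg_of_ρ_eq_one (hζ : IsPrimitiveRoot ζ M) (hM : 5 ≤ M) {γ : SL(2, ℤ)}
    (h : G.ρ γ = 1) : γ ∈ Gamma M ∨ -γ ∈ Gamma M := by
  have : γ ∈ G.ρ.ker := h
  rw [G.ker_eq hζ hM] at this
  exact this

end TgGalois

end Fermat.Agent.T1G
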