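/-
T1G, TG-RAT (helper7): generic Galois descent for subfields of `L((q))`.

For a field `L ⊇ ℚ` and a subfield `F` of `L((q))` containing `L`, `tgrComap L F` is the field of
all rational Laurent series whose image in `L((q))` lies in `F`.  If `L/ℚ` is finite Galois and `F`
is stable under the coefficientwise action of `Gal(L/ℚ)`, then `F` is the base change of
`tgrComap L F` (`tgr_descent`).  Also: functoriality of `laurentBaseChange` under `L →ₐ[ℚ] K`.
-/
import Fermat.Agent.Lib.T1.Inst.FullC

set_option autoImplicit false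
set_option linter.unusedSectionVars false

open HahnSeries ModularCurve

noncomputable section

namespace Fermat.Agent.T1G

section Comap

variable (L : Type*) [Field L] [Algebra ℚ L]

/-- the rational Laurent series whose image in `L((q))` lies in `F` -/
def tgrComap (F : IntermediateField L (LaurentSeries L)) :
    IntermediateField ℚ (LaurentSeries ℚ) :=
  (F.toSubfield.comap (coeffEmb L)).toIntermediateField fun c => by
    show coeffEmb L (algebraMap ℚ (LaurentSeries ℚ) c) ∈ F
    rw [T1.tbi_coeffEmb_algebraMap]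
    exact F.algebraMap_mem _

variable {L} in
theorem mem_tgrComap {F : IntermediateField L (LaurentSeries L)} {x : LaurentSeries ℚ} :
    x ∈ tgrComap L F ↔ coeffEmb L x ∈ F :=
  Iff.rfl

theorem tgr_baseChange_comap_le (F : IntermediateField L (LaurentSeries L)) :
    laurentBaseChange L (tgrComap L F) ≤ F := by
  rw [laurentBaseChange, IntermediateField.adjoin_le_iff]
  rintro _ ⟨x, hx, rfl⟩
  exact hx

end Comap

section Functorial

variable {L K : Type*} [Field L] [Field K] [Algebra ℚ L] [Algebra ℚ K]

theorem tgr_coeffMap_coeffEmb (ι : L →ₐ[ℚ] K) (x : LaurentSeries ℚ) :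
    coeffMap (ι : L →+* K) (coeffEmb L x) = coeffEmb K x := by
  rw [coeffEmb, coeffMap_coeffMap]
  exact coeffMap_congr (RingHom.ext fun c => ι.commutes c) x

/-- functoriality of the base change in the coefficient field -/
theorem tgr_coeffMap_mem_baseChange (ι : L →ₐ[ℚ] K) (F₀ : IntermediateField ℚ (LaurentSeries ℚ))
    {x : LaurentSeries L} (hx : x ∈ laurentBaseChange L F₀) :
    coeffMap (ι : L →+* K) x ∈ laurentBaseChange K F₀ := by
  have hx' : x ∈ IntermediateField.adjoin L (⇑(coeffEmb L) '' (F₀ : Set (LaurentSeries ℚ))) := hx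
  clear hx
  induction hx' using IntermediateField.adjoin_induction with
  | mem y hy =>
    obtain ⟨z, hz, rfl⟩ := hy
    rw [tgr_coeffMap_coeffEmb]
    exact coeffEmb_mem_laurentBaseChange K hz
  | algebraMap c =>
    rw [T1.tbi_coeffMap_algebraMap]
    exact (laurentBaseChange K F₀).algebraMap_mem _
  | add x y _ _ hx hy =>
    rw [map_add]
    exact add_mem hx hy
  | inv x _ hx =>
    rw [map_inv₀]
    exact inv_mem hx
  | mul x y _ _ hx hy =>
    rw [map_mul]
    exact mul_mem hx hy

end Functorial

section Descent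

variable {L : Type*} [Field L] [Algebra ℚ L]

/-- a `ℚ`-linear form applied coefficientwise -/
def tgrLin (φ : L →ₗ[ℚ] ℚ) (x : LaurentSeries L) : LaurentSeries ℚ := x.map φ

@[simp]
theorem tgrLin_coeff (φ : L →ₗ[ℚ] ℚ) (x : LaurentSeries L) (k : ℤ) :
    (tgrLin φ x).coeff k = φ (x.coeff k) :=
  rfl

theorem tgr_coeff_algebraMap_mul (c : L) (x : LaurentSeries L) (k : ℤ) :
    (algebraMap L (LaurentSeries L) c * x).coeff k = c * x.coeff k := by
  rw [algebraMap_laurentSeries_eq_single, HahnSeries.coeff_single_zero_mul]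

variable [FiniteDimensional ℚ L] [IsGalois ℚ L]

/-- the trace of `c • x`, coefficientwise, as a sum over the Galois group -/
theorem tgr_coeffEmb_trace (c : L) (x : LaurentSeries L) :
    coeffEmb L (tgrLin ((Algebra.trace ℚ L).comp (LinearMap.mulLeft ℚ c)) x) =
      ∑ σ : L ≃ₐ[ℚ] L, algebraMap L (LaurentSeries L) (σ c) *
        coeffMap ((σ : L ≃ₐ[ℚ] L) : L →+* L) x := by
  ext k
  rw [coeffEmb_coeff, tgrLin_coeff, LinearMap.comp_apply, LinearMap.mulLeft_apply,
    trace_eq_sum_automorphisms, HahnSeries.coeff_sum]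
  refine Finset.sum_congr rfl fun σ _ => ?_
  rw [tgr_coeff_algebraMap_mul, coeffMap_coeff, map_mul]
  rfl

/-- **Galois descent**: a subfield of `L((q))` containing `L` and stable under `Gal(L/ℚ)` is the
base change of its field of rational elements -/
theorem tgr_descent (F : IntermediateField L (LaurentSeries L))
    (hF : ∀ (σ : L ≃ₐ[ℚ] L) (x : LaurentSeries L), x ∈ F →
      coeffMap ((σ : L ≃ₐ[ℚ] L) : L →+* L) x ∈ F) :
    laurentBaseChange L (tgrComap L F) = F := by
  refine le_antisymm (tgr_baseChange_comap_le L F) fun x hx => ?_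
  -- the traces of `b i • x`
  have htr : ∀ c : L, tgrLin ((Algebra.trace ℚ L).comp (LinearMap.mulLeft ℚ c)) x ∈
      tgrComap L F := by
    intro c
    rw [mem_tgrComap, tgr_coeffEmb_trace]
    exact sum_mem fun σ _ => mul_mem (F.algebraMap_mem _) (hF σ x hx)
  set b := Module.finBasis ℚ L with hb
  set d := (Algebra.traceForm ℚ L).dualBasis (traceForm_nondegenerate ℚ L) b with hd
  have hx_eq : x = ∑ i, algebraMap L (LaurentSeries L) (d i) *
      coeffEmb L (tgrLin ((Algebra.trace ℚ L).comp (LinearMap.mulLeft ℚ (b i))) x) := by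
    ext k
    rw [HahnSeries.coeff_sum]
    conv_lhs => rw [← d.sum_repr (x.coeff k)]
    refine Finset.sum_congr rfl fun i _ => ?_
    rw [tgr_coeff_algebraMap_mul, coeffEmb_coeff, tgrLin_coeff, LinearMap.comp_apply,
      LinearMap.mulLeft_apply, hd, LinearMap.BilinForm.dualBasis_repr_apply,
      Algebra.traceForm_apply, Algebra.smul_def, mul_comm (x.coeff k) (b i), mul_comm]
  rw [hx_eq]
  exact sum_mem fun i _ => mul_mem ((laurentBaseChange L _).algebraMap_mem _)
    (coeffEmb_mem_laurentBaseChange L (htr (b i)))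

end Descent

end Fermat.Agent.T1G
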