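/-
T1G, TG-RAT (helper7): the rational model `tgOneQ M ⊆ ℚ((q))` of the function field of `Γ₁(M)`
(the `μ_M`-model at the cusp `∞`), and its base change:

  `tg_baseChange_oneQ : laurentBaseChange K (tgOneQ M) = TgOne K M ζ`

for every field `K ⊇ ℚ` and every primitive `M`-th root of unity `ζ ∈ K`.

`tgOneQ M` is the field of all rational Laurent series lying in `TgOne L₀ M ζ₀`,
`L₀ = ℚ(ζ_M)`; the statement over `L₀` is Galois descent (`tgr_descent`: `σ ζ₀ = ζ₀^c` permutes the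
generators `ν_{a,a'} ↦ ν_{ca,ca'}`), and the general case follows by functoriality along the
embedding `L₀ → K`, `ζ₀ ↦ ζ`.
-/
import Fermat.Agent.Lib.T1G.Model.RatDescent
import Fermat.Agent.Lib.T1G.Model.Lead

set_option autoImplicit false
set_option linter.unusedSectionVars false

open HahnSeries ModularCurve

noncomputable section

namespace Fermat.Agent.T1G

section Functorial

variable {k k' : Type*} [Field k] [Field k'] (f : k →+* k') {M : ℕ} [NeZero M] {ζ : kˣ}

theorem tgr_isUnit_one_sub (hζ : IsPrimitiveRoot ζ M) {a : ZMod M} (ha : a ≠ 0) :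
    IsUnit (1 - ((tgZ k M ζ a : kˣ) : k)) :=
  IsUnit.mk0 _ (sub_ne_zero.mpr (tgZ_val_ne_one hζ ha).symm)

/-- functoriality of `TgOne` in the coefficient field -/
theorem tgr_coeffMap_mem_tgOne (hζ : IsPrimitiveRoot ζ M) {x : LaurentSeries k}
    (hx : x ∈ TgOne k M ζ) :
    coeffMap f x ∈ TgOne k' M (Units.map (f : k →* k') ζ) := by
  have hx' : x ∈ IntermediateField.adjoin k (divisorExpansionsC k M ∪ tgNu1Set k M ζ) := hx
  clear hx
  induction hx' using IntermediateField.adjoin_induction with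
  | mem y hy =>
    rcases hy with ⟨d, hd0, hd, rfl⟩ | ⟨a, a', ha, ha', rfl⟩
    · rw [coeffMap_qExpand, coeffMap_jqModC]
      exact full_le_tgOne k' M _ (jqModCd_mem_full k' M hd)
    · rw [coeffMap_tgNu1 f M ζ a a' (tgr_isUnit_one_sub hζ ha) (tgr_isUnit_one_sub hζ ha')]
      exact tgNu1_mem_tgOne k' M _ ha ha'
  | algebraMap c =>
    rw [T1.tbi_coeffMap_algebraMap]
    exact (TgOne k' M _).algebraMap_mem _
  | add x y _ _ hx hy =>
    rw [map_add]
    exact add_mem hx hy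
  | inv x _ hx =>
    rw [map_inv₀]
    exact inv_mem hx
  | mul x y _ _ hx hy =>
    rw [map_mul]
    exact mul_mem hx hy

/-- `TgOne` for `ζ ^ c`, `c` prime to `M` -/
theorem tgr_tgOne_pow_le (hζ : ζ ^ M = 1) {c : ℕ} (hc : c.Coprime M) :
    TgOne k M (ζ ^ c) ≤ TgOne k M ζ := by
  rw [TgOne, IntermediateField.adjoin_le_iff]
  rintro y (hy | ⟨a, a', ha, ha', rfl⟩)
  · exact IntermediateField.subset_adjoin k _ (Or.inl hy)
  · have hu : IsUnit (c : ZMod M) := (ZMod.isUnit_iff_coprime c M).mpr hc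
    rw [tgNu1_pow k M ζ hζ]
    refine tgNu1_mem_tgOne k M ζ ?_ ?_
    · rwa [Ne, hu.mul_left_eq_zero]
    · rwa [Ne, hu.mul_left_eq_zero]

/-- `TgOne` does not depend on the choice of the primitive root of unity -/
theorem tgr_tgOne_eq_of_primitive {ζ' : kˣ} (hζ : IsPrimitiveRoot ζ M)
    (hζ' : IsPrimitiveRoot ζ' M) : TgOne k M ζ' = TgOne k M ζ := by
  have key : ∀ {ξ ξ' : kˣ}, IsPrimitiveRoot ξ M → IsPrimitiveRoot ξ' M →
      TgOne k M ξ' ≤ TgOne k M ξ := by
    intro ξ ξ' hξ hξ'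
    have h1 : IsPrimitiveRoot ((ξ : kˣ) : k) M := IsPrimitiveRoot.coe_units_iff.mpr hξ
    have h2 : ((ξ' : kˣ) : k) ^ M = 1 := by
      rw [← Units.val_pow_eq_pow_val, hξ'.pow_eq_one, Units.val_one]
    obtain ⟨c, -, hc⟩ := h1.eq_pow_of_pow_eq_one h2
    have hc' : ξ ^ c = ξ' := Units.ext (by rw [Units.val_pow_eq_pow_val, hc])
    have hcop : c.Coprime M := by
      rw [← hξ.pow_iff_coprime (Nat.pos_of_ne_zero (NeZero.ne M)), hc']
      exact hξ'
    rw [← hc']
    exact tgr_tgOne_pow_le hξ.pow_eq_one hcop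
  exact le_antisymm (key hζ hζ') (key hζ' hζ)

end Functorial

section Cyclotomic

variable (M : ℕ) [NeZero M]

/-- `ℚ(ζ_M)` is a cyclotomic extension of `ℚ` for the `ℚ`-algebra structure found by instance
resolution (`DivisionRing.toRatAlgebra`) -/
theorem tgr_isCyclotomicExtension : IsCyclotomicExtension {M} ℚ (CyclotomicField M ℚ) := by
  have h : (DivisionRing.toRatAlgebra : Algebra ℚ (CyclotomicField M ℚ)) =
      CyclotomicField.algebra M ℚ := Subsingleton.elim _ _
  rw [h]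
  infer_instance

/-- a primitive `M`-th root of unity in `ℚ(ζ_M)` -/
def tgrZeta : (CyclotomicField M ℚ)ˣ :=
  haveI := tgr_isCyclotomicExtension M
  Units.mk0 (IsCyclotomicExtension.zeta M ℚ (CyclotomicField M ℚ))
    ((IsCyclotomicExtension.zeta_spec M ℚ (CyclotomicField M ℚ)).ne_zero (NeZero.ne M))

theorem tgrZeta_spec : IsPrimitiveRoot (tgrZeta M) M :=
  haveI := tgr_isCyclotomicExtension M
  IsPrimitiveRoot.coe_units_iff.mp (IsCyclotomicExtension.zeta_spec M ℚ (CyclotomicField M ℚ))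

/-- **the rational model of the function field of `Γ₁(M)`** (`μ_M`-model at `∞`) -/
def tgOneQ : IntermediateField ℚ (LaurentSeries ℚ) :=
  tgrComap (CyclotomicField M ℚ) (TgOne (CyclotomicField M ℚ) M (tgrZeta M))

theorem mem_tgOneQ {x : LaurentSeries ℚ} :
    x ∈ tgOneQ M ↔
      coeffEmb (CyclotomicField M ℚ) x ∈ TgOne (CyclotomicField M ℚ) M (tgrZeta M) :=
  Iff.rfl

/-- the rational function field of `X₀(M)` (all `j(q^d)`, `d ∣ M`) is contained in `tgOneQ M` -/
theorem tgr_full_le_tgOneQ : modularFunctionFieldFull M ≤ tgOneQ M := by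
  rw [modularFunctionFieldFull, IntermediateField.adjoin_le_iff]
  rintro _ ⟨d, hd0, hd, rfl⟩
  haveI := hd0
  rw [SetLike.mem_coe, mem_tgOneQ, T1.tbi_coeffEmb_jqd]
  exact full_le_tgOne _ M _ (jqModCd_mem_full _ M hd)

theorem tgr_jqd_mem_tgOneQ {d : ℕ} [NeZero d] (hd : d ∣ M) : qExpand ℚ d jq ∈ tgOneQ M :=
  tgr_full_le_tgOneQ M (jqd_mem_full M hd)

/-- the base change to `ℚ(ζ_M)` (Galois descent) -/
theorem tgr_baseChange_cyclotomic :
    laurentBaseChange (CyclotomicField M ℚ) (tgOneQ M) =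
      TgOne (CyclotomicField M ℚ) M (tgrZeta M) := by
  haveI := tgr_isCyclotomicExtension M
  haveI : FiniteDimensional ℚ (CyclotomicField M ℚ) :=
    IsCyclotomicExtension.finiteDimensional {M} ℚ (CyclotomicField M ℚ)
  haveI : IsGalois ℚ (CyclotomicField M ℚ) :=
    IsCyclotomicExtension.isGalois {M} ℚ (CyclotomicField M ℚ)
  refine tgr_descent _ fun σ x hx => ?_
  have h1 := tgr_coeffMap_mem_tgOne ((σ : CyclotomicField M ℚ ≃ₐ[ℚ] CyclotomicField M ℚ) :
    CyclotomicField M ℚ →+* CyclotomicField M ℚ) (tgrZeta_spec M) hx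
  have h2 : IsPrimitiveRoot (Units.map ((((σ : CyclotomicField M ℚ ≃ₐ[ℚ] CyclotomicField M ℚ) :
      CyclotomicField M ℚ →+* CyclotomicField M ℚ)) :
      CyclotomicField M ℚ →* CyclotomicField M ℚ) (tgrZeta M)) M := by
    refine (tgrZeta_spec M).map_of_injective ?_
    exact Units.map_injective σ.injective
  rwa [tgr_tgOne_eq_of_primitive (tgrZeta_spec M) h2] at h1

end Cyclotomic

section Main

variable (M : ℕ) [NeZero M] (K : Type*) [Field K] [Algebra ℚ K] (ζ : Kˣ)

/-- the embedding `ℚ(ζ_M) → K`, `ζ_M ↦ ζ` -/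
theorem tgr_exists_emb (hζ : IsPrimitiveRoot ζ M) :
    ∃ ι : CyclotomicField M ℚ →ₐ[ℚ] K,
      Units.map ((ι : CyclotomicField M ℚ →+* K) : CyclotomicField M ℚ →* K) (tgrZeta M) = ζ := by
  haveI := tgr_isCyclotomicExtension M
  have hirr : Irreducible (Polynomial.cyclotomic M ℚ) :=
    Polynomial.cyclotomic.irreducible_rat (Nat.pos_of_ne_zero (NeZero.ne M))
  have h0 : IsPrimitiveRoot (IsCyclotomicExtension.zeta M ℚ (CyclotomicField M ℚ)) M :=
    IsCyclotomicExtension.zeta_spec M ℚ (CyclotomicField M ℚ)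
  have hζ' : ((ζ : Kˣ) : K) ∈ primitiveRoots M K := by
    rw [mem_primitiveRoots (Nat.pos_of_ne_zero (NeZero.ne M))]
    exact IsPrimitiveRoot.coe_units_iff.mpr hζ
  refine ⟨(h0.embeddingsEquivPrimitiveRoots K hirr).symm ⟨_, hζ'⟩, Units.ext ?_⟩
  have h := congrArg Subtype.val
    ((h0.embeddingsEquivPrimitiveRoots K hirr).apply_symm_apply ⟨_, hζ'⟩)
  rw [IsPrimitiveRoot.embeddingsEquivPrimitiveRoots_apply_coe] at h
  exact h

/-- **TG-RAT**: the base change of `tgOneQ M` to any field with a primitive `M`-th root of unity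
`ζ` is `TgOne K M ζ` -/
theorem tg_baseChange_oneQ (hζ : IsPrimitiveRoot ζ M) :
    laurentBaseChange K (tgOneQ M) = TgOne K M ζ := by
  obtain ⟨ι, hι⟩ := tgr_exists_emb M K ζ hζ
  apply le_antisymm
  · rw [laurentBaseChange, IntermediateField.adjoin_le_iff]
    rintro _ ⟨x, hx, rfl⟩
    have h := tgr_coeffMap_mem_tgOne (ι : CyclotomicField M ℚ →+* K) (tgrZeta_spec M)
      ((mem_tgOneQ M).mp hx)
    rwa [tgr_coeffMap_coeffEmb, hι] at h
  · rw [TgOne, IntermediateField.adjoin_le_iff]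
    rintro y (⟨d, hd0, hd, rfl⟩ | ⟨a, a', ha, ha', rfl⟩)
    · haveI := hd0
      rw [SetLike.mem_coe, ← T1.tbi_coeffEmb_jqd]
      exact coeffEmb_mem_laurentBaseChange K (tgr_jqd_mem_tgOneQ M hd)
    · have h1 : tgNu1 (CyclotomicField M ℚ) M (tgrZeta M) a a' ∈
          laurentBaseChange (CyclotomicField M ℚ) (tgOneQ M) := by
        rw [tgr_baseChange_cyclotomic]
        exact tgNu1_mem_tgOne _ M _ ha ha'
      have h2 := tgr_coeffMap_mem_baseChange ι (tgOneQ M) h1
      rwa [coeffMap_tgNu1 (ι : CyclotomicField M ℚ →+* K) M (tgrZeta M) a a'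
        (tgr_isUnit_one_sub (tgrZeta_spec M) ha) (tgr_isUnit_one_sub (tgrZeta_spec M) ha'),
        hι] at h2

end Main

end Fermat.Agent.T1G
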