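/-
T1G leaf TG-GEN (helper5), part 2: the `Γ₁(M)`-field inside the full level field.

For a Galois package `G : TgGalois K M ζ` (`ζ` primitive, `6 ≤ M`): `ι_M (TgOne K M ζ)`
(`ι_M : q ↦ t^M`) is the fixed field of `ρ(Γ₁(M))` (`G.map_tgOne_eq`, `G.mem_tgOne_iff`), and
`[TgOne K M ζ : K(j)] = [SL₂(ℤ) : ±Γ₁(M)]` (`G.finrank_tgOne`).
-/
import Fermat.Agent.Lib.T1G.Model.GaloisGen

set_option autoImplicit false
set_option linter.unusedSectionVars false
set_option linter.style.haveILetI false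

open HahnSeries ModularCurve Fermat.Agent.Igusa Matrix MatrixGroups CongruenceSubgroup
open IntermediateField Fermat.Agent.Curve

noncomputable section

namespace Fermat.Agent.T1G

section Gens

variable (K : Type*) [Field K] (M : ℕ) [NeZero M] (ζ : Kˣ)

theorem tg_zero_ne_zero {a : ZMod M} (ha : a ≠ 0) : ((0 : ZMod M), a) ≠ 0 := fun h =>
  ha (congrArg Prod.snd h)

/-- the generators of `ι_M (TgOne K M ζ)` inside the full level field -/
def tgOneGens : Set ↥(tgFull K M ζ) :=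
  {x | ∃ (d : ℕ) (_ : NeZero d) (hd : d ∣ M), x = tgJd K M ζ hd} ∪
  {x | ∃ (a a' : ZMod M) (ha : a ≠ 0) (ha' : a' ≠ 0),
    x = tgNuE K M ζ (tg_zero_ne_zero M ha) (tg_zero_ne_zero M ha')}

theorem tgJ_eq_tgJd : tgJ K M ζ = tgJd K M ζ (one_dvd M) := by
  apply Subtype.ext
  show qExpand K M (jqModC K) = qExpand K (M * 1) (jqModC K)
  rw [qExpand_congr (mul_one M)]

theorem tgJ_mem_tgOneGens : tgJ K M ζ ∈ tgOneGens K M ζ :=
  Or.inl ⟨1, inferInstance, one_dvd M, tgJ_eq_tgJd K M ζ⟩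

/-- `ι_M (TgOne) = K(generators)` as subfields of `K((t))` -/
theorem map_tgOne_eq_map_adjoin :
    (TgOne K M ζ).map (qExpandAlgHomC K M) =
      (IntermediateField.adjoin K (tgOneGens K M ζ)).map (tgFull K M ζ).val := by
  rw [TgOne, IntermediateField.adjoin_map, IntermediateField.adjoin_map]
  congr 1
  ext y
  constructor
  · rintro ⟨x, hx, rfl⟩
    rw [qExpandAlgHomC_apply]
    rcases hx with ⟨d, hd0, hd, rfl⟩ | ⟨a, a', ha, ha', rfl⟩
    · haveI := hd0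
      refine ⟨tgJd K M ζ hd, Or.inl ⟨d, hd0, hd, rfl⟩, ?_⟩
      rw [qExpand_qExpand]
      rfl
    · refine ⟨tgNuE K M ζ (tg_zero_ne_zero M ha) (tg_zero_ne_zero M ha'),
        Or.inr ⟨a, a', ha, ha', rfl⟩, ?_⟩
      rw [qExpand_tgNu1]
      rfl
  · rintro ⟨x, hx, rfl⟩
    rcases hx with ⟨d, hd0, hd, rfl⟩ | ⟨a, a', ha, ha', rfl⟩
    · haveI := hd0
      refine ⟨qExpand K d (jqModC K), Or.inl ⟨d, hd0, hd, rfl⟩, ?_⟩
      rw [qExpandAlgHomC_apply, qExpand_qExpand]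
      rfl
    · refine ⟨tgNu1 K M ζ a a', Or.inr ⟨a, a', ha, ha', rfl⟩, ?_⟩
      rw [qExpandAlgHomC_apply, qExpand_tgNu1]
      rfl

end Gens

section Group

variable (M : ℕ) [NeZero M]

/-- bottom row `(0, 1)` modulo `M` means `Γ₁(M)` -/
theorem tg_mem_Gamma1_of {A : SL(2, ℤ)} (h10 : ((A 1 0 : ℤ) : ZMod M) = 0)
    (h11 : ((A 1 1 : ℤ) : ZMod M) = 1) : A ∈ Gamma1 M := by
  rw [Gamma1_mem]
  refine ⟨?_, h11, h10⟩
  have hdet := congrArg (Int.cast : ℤ → ZMod M) (tgg_det_eq A)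
  push_cast at hdet
  rw [h10, h11, mul_zero, sub_zero, mul_one] at hdet
  exact hdet

theorem tg_Gamma_le_Gamma1 : Gamma M ≤ Gamma1 M := by
  intro γ hγ
  rw [Gamma_mem] at hγ
  rw [Gamma1_mem]
  exact ⟨hγ.1, hγ.2.2.2, hγ.2.2.1⟩

/-- the action of `Γ₀(M)` on the vectors `(0, a)` -/
theorem tgAct_zero_of_mem_Gamma0 {γ : SL(2, ℤ)} (hγ : γ ∈ Gamma0 M) (a : ZMod M) :
    tgAct M γ (0, a) = (0, a * ((γ 1 1 : ℤ) : ZMod M)) := by
  rw [tgAct, Gamma0_mem.mp hγ]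
  simp

end Group

namespace TgGalois

variable {K : Type*} [Field K] {M : ℕ} [NeZero M] {ζ : Kˣ} (G : TgGalois K M ζ)

/-- `±Γ₁(M)` fixes the generators of the `Γ₁(M)`-field -/
theorem ρ_tgOneGens {γ : SL(2, ℤ)} (hγ : γ ∈ tgPm (Gamma1 M)) {x : ↥(tgFull K M ζ)}
    (hx : x ∈ tgOneGens K M ζ) : G.ρ γ x = x := by
  have key : ∀ γ ∈ Gamma1 M, G.ρ γ x = x := by
    intro γ hγ
    rcases hx with ⟨d, hd0, hd, rfl⟩ | ⟨a, a', ha, ha', rfl⟩
    · haveI := hd0
      exact G.ρ_jd γ (Gamma1_in_Gamma0 M hγ) hd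
    · have hinv : γ⁻¹ ∈ Gamma1 M := (Gamma1 M).inv_mem hγ
      have h11 : (((γ⁻¹ : SL(2, ℤ)) 1 1 : ℤ) : ZMod M) = 1 := ((Gamma1_mem M _).mp hinv).2.1
      have hact : ∀ b : ZMod M, tgAct M γ⁻¹ (0, b) = (0, b) := by
        intro b
        rw [tgAct_zero_of_mem_Gamma0 M (Gamma1_in_Gamma0 M hinv), h11, mul_one]
      apply Subtype.ext
      rw [G.ρ_nu_val γ, hact, hact]
      rfl
  rcases hγ with hγ | hγ
  · exact key γ hγ
  · rw [← G.ρ_neg]
    exact key _ hγ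

/-- an element fixing the generators of the `Γ₁(M)`-field lies in `±Γ₁(M)` -/
theorem mem_tgPm_Gamma1_of_fixes (hζ : IsPrimitiveRoot ζ M) (hM : 6 ≤ M) {γ : SL(2, ℤ)}
    (h : ∀ x ∈ tgOneGens K M ζ, G.ρ γ x = x) : γ ∈ tgPm (Gamma1 M) := by
  have h0 : γ ∈ Gamma0 M :=
    G.stab_jM γ (h _ (Or.inl ⟨M, inferInstance, dvd_refl M, rfl⟩))
  have hinv : γ⁻¹ ∈ Gamma0 M := (Gamma0 M).inv_mem h0
  set δ : ZMod M := (((γ⁻¹ : SL(2, ℤ)) 1 1 : ℤ) : ZMod M) with hδ
  have hC : ∀ a a' : ZMod M, a ≠ 0 → a' ≠ 0 →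
      tgNu1 K M ζ (δ * a) (δ * a') = tgNu1 K M ζ a a' := by
    intro a a' ha ha'
    have h1 := h _ (Or.inr ⟨a, a', ha, ha', rfl⟩)
    have h2 : ((G.ρ γ (tgNuE K M ζ (tg_zero_ne_zero M ha) (tg_zero_ne_zero M ha')) :
        ↥(tgFull K M ζ)) : LaurentSeries K) = tgNu K M ζ (0, a) (0, a') := by
      rw [h1]
      rfl
    rw [G.ρ_nu_val γ, tgAct_zero_of_mem_Gamma0 M hinv, tgAct_zero_of_mem_Gamma0 M hinv] at h2
    apply qExpand_injective (R := K) M
    rw [qExpand_tgNu1, qExpand_tgNu1, mul_comm δ a, mul_comm δ a']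
    exact h2
  rcases tg_diamond_eq_of_tgNu1_eq hζ hM δ hC with h1 | h1
  · left
    have : γ⁻¹ ∈ Gamma1 M := tg_mem_Gamma1_of M (Gamma0_mem.mp hinv) h1
    simpa using (Gamma1 M).inv_mem this
  · right
    have : -γ⁻¹ ∈ Gamma1 M := by
      apply tg_mem_Gamma1_of M
      · rw [SpecialLinearGroup.coe_neg, Matrix.neg_apply, Int.cast_neg, Gamma0_mem.mp hinv,
          neg_zero]
      · rw [SpecialLinearGroup.coe_neg, Matrix.neg_apply, Int.cast_neg, ← hδ, h1, neg_neg]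
    have h3 := (Gamma1 M).inv_mem this
    rwa [inv_neg, inv_inv] at h3

theorem map_tgPm (Γ : Subgroup SL(2, ℤ)) : (tgPm Γ).map G.ρ = Γ.map G.ρ := by
  apply le_antisymm
  · rintro _ ⟨γ, hγ | hγ, rfl⟩
    · exact ⟨γ, hγ, rfl⟩
    · exact ⟨-γ, hγ, G.ρ_neg γ⟩
  · exact Subgroup.map_mono (le_tgPm Γ)

/-- **the `Γ₁(M)`-field is the fixed field of `Γ₁(M)`** (inside the full level field) -/
theorem adjoin_tgOneGens_eq (hζ : IsPrimitiveRoot ζ M) (hM : 6 ≤ M) :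
    IntermediateField.adjoin K (tgOneGens K M ζ) =
      IntermediateField.fixedField ((Gamma1 M).map G.ρ) := by
  rw [← G.map_tgPm]
  refine tgn_adjoin_eq_fixedField_map G.ρ G.finite_range (tgPm (Gamma1 M)) _
    (fun γ hγ s hs => G.ρ_tgOneGens hγ hs) (fun γ hγ => G.mem_tgPm_Gamma1_of_fixes hζ hM hγ) ?_
  rw [G.fixedField_range]
  exact IntermediateField.adjoin.mono K _ _
    (Set.singleton_subset_iff.mpr (tgJ_mem_tgOneGens K M ζ))

/-- membership in `ι_M (TgOne K M ζ)` is invariance under `Γ₁(M)` -/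
theorem mem_tgOne_iff (hζ : IsPrimitiveRoot ζ M) (hM : 6 ≤ M) (x : ↥(tgFull K M ζ)) :
    (∀ γ ∈ Gamma1 M, G.ρ γ x = x) ↔
      ∃ y ∈ TgOne K M ζ, qExpand K M y = (x : LaurentSeries K) := by
  have h1 : (∀ γ ∈ Gamma1 M, G.ρ γ x = x) ↔
      x ∈ IntermediateField.fixedField ((Gamma1 M).map G.ρ) := by
    rw [IntermediateField.mem_fixedField_iff]
    constructor
    · rintro h _ ⟨γ, hγ, rfl⟩
      exact h γ hγ
    · intro h γ hγ
      exact h _ ⟨γ, hγ, rfl⟩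
  rw [h1, ← G.adjoin_tgOneGens_eq hζ hM]
  have h2 : x ∈ IntermediateField.adjoin K (tgOneGens K M ζ) ↔
      (x : LaurentSeries K) ∈
        (IntermediateField.adjoin K (tgOneGens K M ζ)).map (tgFull K M ζ).val := by
    constructor
    · intro hx
      exact ⟨x, hx, rfl⟩
    · rintro ⟨x', hx', hxx⟩
      have : x' = x := Subtype.ext hxx
      rwa [← this]
  rw [h2, ← map_tgOne_eq_map_adjoin]
  constructor
  · rintro ⟨y, hy, hyx⟩
    exact ⟨y, hy, hyx⟩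
  · rintro ⟨y, hy, hyx⟩
    exact ⟨y, hy, hyx⟩

end TgGalois

section Degree

variable (K : Type*) [Field K] (M : ℕ) [NeZero M] (ζ : Kˣ)

theorem jqModC_mem_tgOne : jqModC K ∈ TgOne K M ζ := by
  have h : qExpand K 1 (jqModC K) ∈ divisorExpansionsC K M :=
    mem_divisorExpansionsC K M (one_dvd M)
  rw [qExpand_one_apply] at h
  exact IntermediateField.subset_adjoin K _ (Or.inl h)

/-- `j` as an element of the `Γ₁(M)`-field -/
def tgOneJ : ↥(TgOne K M ζ) := ⟨jqModC K, jqModC_mem_tgOne K M ζ⟩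

end Degree

namespace TgGalois

variable {K : Type*} [Field K] {M : ℕ} [NeZero M] {ζ : Kˣ} (G : TgGalois K M ζ)

include G in
/-- **`[TgOne : K(j)] = [SL₂(ℤ) : ±Γ₁(M)]`**, relative form inside `K((q))` -/
theorem relfinrank_tgOne (hζ : IsPrimitiveRoot ζ M) (hM : 6 ≤ M) :
    IntermediateField.relfinrank (IntermediateField.adjoin K {jqModC K}) (TgOne K M ζ) =
      (tgPm (Gamma1 M)).index := by
  rw [← IntermediateField.relfinrank_map_map _ _ (qExpandAlgHomC K M), map_tgOne_eq_map_adjoin,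
    IntermediateField.adjoin_map, Set.image_singleton]
  have h1 : ({qExpandAlgHomC K M (jqModC K)} : Set (LaurentSeries K)) =
      (tgFull K M ζ).val '' {tgJ K M ζ} := by
    rw [Set.image_singleton]
    rfl
  rw [h1, ← IntermediateField.adjoin_map, IntermediateField.relfinrank_map_map,
    ← G.fixedField_range, G.adjoin_tgOneGens_eq hζ hM, ← G.map_tgPm]
  refine tgn_relfinrank_fixedField_map G.ρ G.finite_range _ ?_
  rw [G.ker_eq hζ (by omega)]
  exact tgPm_mono (tg_Gamma_le_Gamma1 M)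

include G in
/-- **`[TgOne : K(j)] = [SL₂(ℤ) : ±Γ₁(M)]`** -/
theorem finrank_tgOne (hζ : IsPrimitiveRoot ζ M) (hM : 6 ≤ M) :
    Module.finrank ↥(K⟮tgOneJ K M ζ⟯) ↥(TgOne K M ζ) = (tgPm (Gamma1 M)).index := by
  have hcomap : K⟮tgOneJ K M ζ⟯ =
      (IntermediateField.adjoin K {jqModC K}).comap (TgOne K M ζ).val := by
    have h1 : (K⟮tgOneJ K M ζ⟯).map (TgOne K M ζ).val =
        IntermediateField.adjoin K {jqModC K} := by
      rw [IntermediateField.adjoin_map, Set.image_singleton]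
      rfl
    rw [← h1, IntermediateField.comap_map]
  rw [hcomap, IntermediateField.finrank_comap, IntermediateField.fieldRange_val]
  exact G.relfinrank_tgOne hζ hM

end TgGalois

end Fermat.Agent.T1G
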