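/-
T1G leaf TG-CUSP (helper5): the poles of `j` in the `Γ₁(M)`-field.

For a Galois package `G : TgGalois K M ζ` over an algebraically closed field `K` (`ζ` primitive,
`6 ≤ M`): the `n = [SL₂(ℤ) : ±Γ₁(M)]` embeddings of `TgOne K M ζ` into `K((t))` over
`j ↦ j(t^M)` are the restrictions of the `ρ(γ)`, `γ ∈ SL₂(ℤ)/±Γ₁(M)` (`tgEmb`), two cosets in the same
`⟨T⟩`-orbit give the same valuation (`ρ(T⁻¹)` is the twist `t ↦ ζ t`), hence
`#{poles of j} ≤ tgnCusps M` := the number of `⟨T⟩`-orbits on `SL₂(ℤ)/±Γ₁(M)` (`G.ncard_poles_le`).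
Also: `j` is a separating transcendental generator of `TgOne K M ζ` (`G.isFunctionFieldGen_tgOneJ`,
`G.isSeparable_tgOne`).
-/
import Fermat.Agent.Lib.T1G.Model.GaloisOne
import Fermat.Agent.Lib.T1.GoodRed.BarUpper

set_option autoImplicit false
set_option linter.unusedSectionVars false
set_option linter.style.haveILetI false

open HahnSeries ModularCurve Fermat.Agent.Igusa Matrix MatrixGroups CongruenceSubgroup
open IntermediateField Fermat.Agent.Curve AlgebraicCurve Fermat.Agent.T1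

noncomputable section

namespace Fermat.Agent.T1G

/-! ### Numerics -/

section Numerics

variable (M : ℕ) [NeZero M]

/-- the coset space `SL₂(ℤ) / ±Γ₁(M)` -/
abbrev TgnCosets : Type := SL(2, ℤ) ⧸ tgPm (Gamma1 M)

instance tgPm_Gamma1_finiteIndex : (tgPm (Gamma1 M)).FiniteIndex :=
  Subgroup.finiteIndex_of_le (le_tgPm (Gamma1 M))

instance tgnCosets_finite : Finite (TgnCosets M) :=
  Subgroup.finite_quotient_of_finiteIndex

/-- the degree `n = [SL₂(ℤ) : ±Γ₁(M)]` of the `Γ₁(M)`-field over `K(j)` -/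
def tgnDeg : ℕ := (tgPm (Gamma1 M)).index

/-- the number of `⟨T⟩`-orbits on `SL₂(ℤ) / ±Γ₁(M)` (= the number of cusps of `X₁(M)`) -/
def tgnCusps : ℕ :=
  Nat.card (MulAction.orbitRel.Quotient (Subgroup.zpowers (ModularGroup.T)) (TgnCosets M))

theorem tgnDeg_eq_card : tgnDeg M = Nat.card (TgnCosets M) :=
  Subgroup.index_eq_card _

theorem tgnDeg_pos : 0 < tgnDeg M :=
  Nat.pos_of_ne_zero Subgroup.FiniteIndex.index_ne_zero

end Numerics

/-! ### An abstract separability transport -/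

section Sep

variable {K F E : Type*} [Field K] [Field F] [Field E] [Algebra K F] [Algebra K E]

/-- if `E` is separable over `K(ι y)` then `F` is separable over `K(y)` -/
theorem tgn_isSeparable_of_algHom (ι : F →ₐ[K] E) (y : F)
    [hsep : Algebra.IsSeparable K⟮ι y⟯ E] : Algebra.IsSeparable K⟮y⟯ F := by
  letI : Algebra F E := ι.toRingHom.toAlgebra
  letI : Algebra K⟮y⟯ E := ((algebraMap F E).comp (algebraMap K⟮y⟯ F)).toAlgebra
  have hst : IsScalarTower K⟮y⟯ F E := IsScalarTower.of_algebraMap_eq (fun _ => rfl)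
  have h1 : (K⟮y⟯).map ι = K⟮ι y⟯ := by
    rw [IntermediateField.adjoin_map, Set.image_singleton]
  let e₁ : K⟮y⟯ ≃+* K⟮ι y⟯ :=
    (((K⟮y⟯).equivMap ι).trans (IntermediateField.equivOfEq h1)).toRingEquiv
  have hsepE : Algebra.IsSeparable K⟮y⟯ E := by
    refine Algebra.IsSeparable.of_equiv_equiv e₁.symm (RingEquiv.refl E) ?_
    ext c
    obtain ⟨c', rfl⟩ := e₁.surjective c
    rw [RingHom.comp_apply, RingHom.comp_apply]
    simp only [RingEquiv.coe_toRingHom, RingEquiv.symm_apply_apply, RingEquiv.refl_apply]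
    rfl
  exact @Algebra.isSeparable_tower_bot_of_isSeparable K⟮y⟯ _ F E _ _ _ _ _ _ hst hsepE

end Sep

/-! ### The embeddings -/

section Emb

variable (K : Type*) [Field K] (M : ℕ) [NeZero M] (ζ : Kˣ)

/-- `ι_M : TgOne K M ζ → tgFull K M ζ`, `q ↦ t^M` -/
def tgOneIncl : ↥(TgOne K M ζ) →ₐ[K] ↥(tgFull K M ζ) :=
  AlgHom.codRestrict ((qExpandAlgHomC K M).comp (TgOne K M ζ).val) (tgFull K M ζ).toSubalgebra
    (fun x => qExpand_mem_tgFull K M ζ x.2)

@[simp]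
theorem coe_tgOneIncl (y : ↥(TgOne K M ζ)) :
    ((tgOneIncl K M ζ y : ↥(tgFull K M ζ)) : LaurentSeries K) =
      qExpand K M (y : LaurentSeries K) := rfl

theorem tgOneIncl_tgOneJ : tgOneIncl K M ζ (tgOneJ K M ζ) = tgJ K M ζ := rfl

end Emb

namespace TgGalois

variable {K : Type*} [Field K] {M : ℕ} [NeZero M] {ζ : Kˣ} (G : TgGalois K M ζ)

/-- the embedding `TgOne → K((t))` attached to `γ ∈ SL₂(ℤ)` -/
def tgEmb (γ : SL(2, ℤ)) : ↥(TgOne K M ζ) →ₐ[K] LaurentSeries K :=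
  (tgFull K M ζ).val.comp (((G.ρ γ : ↥(tgFull K M ζ) ≃ₐ[K] ↥(tgFull K M ζ)) :
    ↥(tgFull K M ζ) →ₐ[K] ↥(tgFull K M ζ)).comp (tgOneIncl K M ζ))

theorem tgEmb_apply (γ : SL(2, ℤ)) (y : ↥(TgOne K M ζ)) :
    G.tgEmb γ y = ((G.ρ γ (tgOneIncl K M ζ y) : ↥(tgFull K M ζ)) : LaurentSeries K) := rfl

theorem tgEmb_tgOneJ (γ : SL(2, ℤ)) : G.tgEmb γ (tgOneJ K M ζ) = qExpand K M (jqModC K) := by
  rw [tgEmb_apply, tgOneIncl_tgOneJ, G.ρ_J]
  rfl

/-- `ι_M y` is fixed by `±Γ₁(M)` -/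
theorem ρ_tgOneIncl (hζ : IsPrimitiveRoot ζ M) (hM : 6 ≤ M) {γ : SL(2, ℤ)}
    (hγ : γ ∈ tgPm (Gamma1 M)) (y : ↥(TgOne K M ζ)) :
    G.ρ γ (tgOneIncl K M ζ y) = tgOneIncl K M ζ y := by
  have key := (G.mem_tgOne_iff hζ hM (tgOneIncl K M ζ y)).mpr ⟨y, y.2, rfl⟩
  rcases hγ with hγ | hγ
  · exact key γ hγ
  · rw [← G.ρ_neg]
    exact key _ hγ

theorem tgEmb_mul_right (hζ : IsPrimitiveRoot ζ M) (hM : 6 ≤ M) (γ : SL(2, ℤ)) {γ' : SL(2, ℤ)}
    (hγ' : γ' ∈ tgPm (Gamma1 M)) : G.tgEmb (γ * γ') = G.tgEmb γ := by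
  ext y
  rw [tgEmb_apply, tgEmb_apply, map_mul, AlgEquiv.mul_apply, G.ρ_tgOneIncl hζ hM hγ']

include G in
/-- every generator of `ι_M (TgOne)` is in the image of `ι_M` -/
theorem exists_tgOneIncl_eq (hζ : IsPrimitiveRoot ζ M) (hM : 6 ≤ M) {x : ↥(tgFull K M ζ)}
    (hx : x ∈ tgOneGens K M ζ) : ∃ y : ↥(TgOne K M ζ), tgOneIncl K M ζ y = x := by
  have h1 : ∀ γ ∈ Gamma1 M, G.ρ γ x = x := fun γ hγ => G.ρ_tgOneGens (le_tgPm _ hγ) hx
  obtain ⟨y, hy, hyx⟩ := (G.mem_tgOne_iff hζ hM x).mp h1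
  exact ⟨⟨y, hy⟩, Subtype.ext hyx⟩

theorem mem_tgPm_of_tgEmb_eq (hζ : IsPrimitiveRoot ζ M) (hM : 6 ≤ M) {γ γ' : SL(2, ℤ)}
    (h : G.tgEmb γ = G.tgEmb γ') : γ⁻¹ * γ' ∈ tgPm (Gamma1 M) := by
  apply G.mem_tgPm_Gamma1_of_fixes hζ hM
  intro x hx
  obtain ⟨y, rfl⟩ := G.exists_tgOneIncl_eq hζ hM hx
  have h1 : G.ρ γ (tgOneIncl K M ζ y) = G.ρ γ' (tgOneIncl K M ζ y) := by
    apply Subtype.ext
    have := congrArg (fun f : ↥(TgOne K M ζ) →ₐ[K] LaurentSeries K => f y) h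
    exact this
  rw [map_mul, AlgEquiv.mul_apply, ← h1, map_inv]
  exact (G.ρ γ).symm_apply_apply _

/-- `ρ(T⁻¹)` is the twist `t ↦ ζ t` -/
theorem tgEmb_T_inv_mul (γ : SL(2, ℤ)) (y : ↥(TgOne K M ζ)) :
    G.tgEmb (ModularGroup.T⁻¹ * γ) y = lsTwist ζ (G.tgEmb γ y) := by
  rw [tgEmb_apply, map_mul, AlgEquiv.mul_apply, G.ρ_T]
  rfl

theorem order_tgEmb_zpow_mul (k : ℤ) (γ : SL(2, ℤ)) (y : ↥(TgOne K M ζ)) :
    (G.tgEmb (ModularGroup.T ^ k * γ) y).order = (G.tgEmb γ y).order := by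
  have hinv : ∀ γ : SL(2, ℤ), (G.tgEmb (ModularGroup.T⁻¹ * γ) y).order = (G.tgEmb γ y).order := by
    intro γ
    rw [G.tgEmb_T_inv_mul, ta_order_lsTwist]
  revert γ
  refine zpow_induction_left (g := ModularGroup.T)
    (P := fun a => ∀ γ : SL(2, ℤ), (G.tgEmb (a * γ) y).order = (G.tgEmb γ y).order)
    (fun γ => by rw [one_mul]) (fun a ha γ => ?_) (fun a ha γ => ?_) k
  · rw [mul_assoc, ← hinv (ModularGroup.T * (a * γ)), inv_mul_cancel_left]
    exact ha γ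
  · rw [mul_assoc, hinv]
    exact ha γ

/-! ### `j` is a separating transcendental generator -/

include G in
theorem finiteDimensional_tgOne (hζ : IsPrimitiveRoot ζ M) (hM : 6 ≤ M) :
    FiniteDimensional ↥(K⟮tgOneJ K M ζ⟯) ↥(TgOne K M ζ) := by
  apply FiniteDimensional.of_finrank_pos
  rw [G.finrank_tgOne hζ hM]
  exact tgnDeg_pos M

theorem transcendental_tgOneJ : Transcendental K (tgOneJ K M ζ) := by
  have h := transcendental_jqModC K
  have hinj : Function.Injective (algebraMap ↥(TgOne K M ζ) (LaurentSeries K)) :=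
    (algebraMap ↥(TgOne K M ζ) (LaurentSeries K)).injective
  exact (transcendental_algebraMap_iff hinj).mp h

include G in
theorem isFunctionFieldGen_tgOneJ (hζ : IsPrimitiveRoot ζ M) (hM : 6 ≤ M) :
    IsFunctionFieldGen K ↥(TgOne K M ζ) (tgOneJ K M ζ) :=
  ⟨transcendental_tgOneJ, G.finiteDimensional_tgOne hζ hM⟩

include G in
theorem isSeparable_tgFull : Algebra.IsSeparable ↥(K⟮tgJ K M ζ⟯) ↥(tgFull K M ζ) := by
  haveI := G.finite_range
  have hgal := GaloisAux.isGalois_fixedField G.ρ.range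
  have h := G.fixedField_range
  have key : ∀ A : IntermediateField K ↥(tgFull K M ζ), A = K⟮tgJ K M ζ⟯ →
      IsGalois ↥A ↥(tgFull K M ζ) → Algebra.IsSeparable ↥(K⟮tgJ K M ζ⟯) ↥(tgFull K M ζ) := by
    rintro A rfl hA
    exact hA.to_isSeparable
  exact key _ h hgal

include G in
theorem isSeparable_tgOne :
    Algebra.IsSeparable ↥(K⟮tgOneJ K M ζ⟯) ↥(TgOne K M ζ) := by
  haveI : Algebra.IsSeparable ↥(K⟮tgOneIncl K M ζ (tgOneJ K M ζ)⟯) ↥(tgFull K M ζ) := by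
    rw [tgOneIncl_tgOneJ]
    exact G.isSeparable_tgFull
  exact tgn_isSeparable_of_algHom (tgOneIncl K M ζ) (tgOneJ K M ζ)

/-! ### The poles of `j` -/

include G in
/-- **the number of poles of `j` in the `Γ₁(M)`-field is at most the number of `⟨T⟩`-orbits on
`SL₂(ℤ)/±Γ₁(M)`** -/
theorem ncard_poles_le [IsAlgClosed K] (hζ : IsPrimitiveRoot ζ M) (hM : 6 ≤ M) :
    {Q : Place K ↥(TgOne K M ζ) | Q.ord (tgOneJ K M ζ) < 0}.ncard ≤ tgnCusps M := by
  classical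
  haveI := G.isSeparable_tgOne
  have hx := G.isFunctionFieldGen_tgOneJ hζ hM
  letI : Fintype (TgnCosets M) := Fintype.ofFinite _
  let σ : TgnCosets M → (↥(TgOne K M ζ) →ₐ[K] LaurentSeries K) := fun q => G.tgEmb q.out
  have hσ : Function.Injective σ := by
    intro q q' h
    have h1 := G.mem_tgPm_of_tgEmb_eq hζ hM h
    rw [← q.out_eq', ← q'.out_eq']
    exact QuotientGroup.eq.mpr h1
  have hσx : ∀ i j, σ i (tgOneJ K M ζ) = σ j (tgOneJ K M ζ) := fun i j => by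
    show G.tgEmb _ _ = G.tgEmb _ _
    rw [G.tgEmb_tgOneJ, G.tgEmb_tgOneJ]
  have hord : ∀ i, (σ i (tgOneJ K M ζ)).order < 0 := by
    intro i
    show (G.tgEmb _ _).order < 0
    rw [G.tgEmb_tgOneJ, Fermat.Agent.Eis.eh_order_qExpand M (jqModC_ne_zero K),
      Fermat.Agent.Eis.eh_order_jqModC]
    have : (0 : ℤ) < M := by exact_mod_cast Nat.pos_of_ne_zero (NeZero.ne M)
    omega
  have hcard : Fintype.card (TgnCosets M) =
      Module.finrank ↥(K⟮tgOneJ K M ζ⟯) ↥(TgOne K M ζ) := by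
    rw [G.finrank_tgOne hζ hM, ← Nat.card_eq_fintype_card]
    exact (tgnDeg_eq_card M).symm
  let cls : TgnCosets M →
      MulAction.orbitRel.Quotient (Subgroup.zpowers (ModularGroup.T)) (TgnCosets M) :=
    Quotient.mk''
  have hcls : ∀ i j, cls i = cls j →
      ∀ f : ↥(TgOne K M ζ), 0 ≤ (σ i f).order ↔ 0 ≤ (σ j f).order := by
    intro i j hij f
    have hmem : i ∈ MulAction.orbit (Subgroup.zpowers (ModularGroup.T)) j :=
      MulAction.orbitRel_apply.mp (Quotient.exact' hij)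
    obtain ⟨⟨g, k, rfl⟩, hg⟩ := hmem
    have h1 : i = ((ModularGroup.T ^ k * j.out : SL(2, ℤ)) : TgnCosets M) := by
      rw [← hg]
      conv_lhs => rw [← j.out_eq']
      rfl
    have h2 : (i.out)⁻¹ * (ModularGroup.T ^ k * j.out) ∈ tgPm (Gamma1 M) := by
      apply QuotientGroup.eq.mp
      exact (i.out_eq').trans h1
    have h3 : G.tgEmb (ModularGroup.T ^ k * j.out) = G.tgEmb i.out := by
      have := G.tgEmb_mul_right hζ hM i.out h2
      rwa [mul_inv_cancel_left] at this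
    show 0 ≤ (G.tgEmb i.out f).order ↔ 0 ≤ (G.tgEmb j.out f).order
    rw [← h3, G.order_tgEmb_zpow_mul]
  refine (ta_ncard_poles_le hx σ hσ hσx hord hcard cls hcls).trans ?_
  exact Set.ncard_le_card _

end TgGalois

end Fermat.Agent.T1G
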