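/-
T1G, AN-GENUS (helper5), the generic part: the genus of a subcover of a modular Galois cover of
the `j`-line in characteristic `0`.

`TgcCover ρ y` packages what the analytic model of a full level field `L` provides: `SL₂(ℤ)` acts
on `L / K` through `ρ` with finite image and fixed field `K(y)` (`y = j`), and there are places
above every `j = a` and above `j = ∞` whose stabilisers are the images of the trivial group
(`a ≠ 0, 1728`), of `⟨ST⟩` (`a = 0`), of `⟨S⟩` (`a = 1728`) and of `⟨T⟩` (`∞`).

For every subgroup `H ⊇ ker ρ` the fixed field `F` of `ρ(H)` then satisfies Hurwitz' formula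
`2 g(F) - 2 = n - o_S - o_{ST} - o_T` (`TgcCover.two_genusR_sub_two`), `n = [SL₂(ℤ) : H]` and `o_X`
the number of `⟨X⟩`-orbits on `SL₂(ℤ)/H`.
-/
import Fermat.Agent.Lib.Curve.Hurwitz
import Fermat.Agent.Lib.Curve.RiemannRoch
import Fermat.Agent.Lib.Curve.GaloisPlaces
import Fermat.Agent.Lib.Curve.PlaceOfValuation
import Fermat.Agent.Lib.S24.GaloisIndex

set_option autoImplicit false
set_option linter.unusedSectionVars false
set_option linter.style.haveILetI false

open Matrix MatrixGroups ModularGroup AlgebraicCurve KaehlerDifferential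
open Fermat.Agent.Curve Fermat.Agent.S24Lib

noncomputable section

namespace Fermat.Agent.T1G

variable {K : Type*} [Field K] [IsAlgClosed K] [CharZero K] {L : Type*} [Field L] [Algebra K L]

/-- **the analytic input**: the places of a modular Galois cover of the `j`-line and their
stabilisers -/
structure TgcCover (ρ : SL(2, ℤ) →* (L ≃ₐ[K] L)) (y : L) where
  fin : Finite ρ.range
  trans : Transcendental K y
  fix : IntermediateField.fixedField ρ.range = IntermediateField.adjoin K {y}
  /-- a place above `j = a` -/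
  pt : K → Place K L
  pt_ord : ∀ a : K, 0 < (pt a).ord (y - algebraMap K L a)
  stab_gen : ∀ a : K, a ≠ 0 → a ≠ 1728 → ∀ γ : SL(2, ℤ),
    ρ γ • pt a = pt a ↔ ∃ δ ∈ (⊥ : Subgroup SL(2, ℤ)), ρ γ = ρ δ
  stab_zero : ∀ γ : SL(2, ℤ),
    ρ γ • pt 0 = pt 0 ↔ ∃ δ ∈ Subgroup.zpowers (S * T), ρ γ = ρ δ
  stab_I : ∀ γ : SL(2, ℤ),
    ρ γ • pt 1728 = pt 1728 ↔ ∃ δ ∈ Subgroup.zpowers S, ρ γ = ρ δ
  /-- a place above `j = ∞` -/
  inf : Place K L
  inf_ord : 0 < inf.ord y⁻¹
  stab_inf : ∀ γ : SL(2, ℤ), ρ γ • inf = inf ↔ ∃ δ ∈ Subgroup.zpowers T, ρ γ = ρ δ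

section Aux

variable (y : L)

theorem tgc_adjoin_sub (a : K) :
    IntermediateField.adjoin K {y - algebraMap K L a} = IntermediateField.adjoin K {y} := by
  apply le_antisymm
  · rw [IntermediateField.adjoin_le_iff, Set.singleton_subset_iff]
    exact sub_mem (IntermediateField.mem_adjoin_simple_self K _)
      (IntermediateField.algebraMap_mem _ a)
  · rw [IntermediateField.adjoin_le_iff, Set.singleton_subset_iff]
    show y ∈ IntermediateField.adjoin K {y - algebraMap K L a}
    have h := add_mem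
      (IntermediateField.mem_adjoin_simple_self K (y - algebraMap K L a))
      (IntermediateField.algebraMap_mem
        (IntermediateField.adjoin K {y - algebraMap K L a}) a)
    rwa [sub_add_cancel] at h

theorem tgc_transcendental_sub (hy : Transcendental K y) (a : K) :
    Transcendental K (y - algebraMap K L a) := by
  intro h
  apply hy
  have h2 : y = (y - algebraMap K L a) + algebraMap K L a := by ring
  rw [h2]
  exact h.add (isAlgebraic_algebraMap a)

theorem tgc_adjoin_inv :
    IntermediateField.adjoin K {y⁻¹} = IntermediateField.adjoin K {y} := by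
  apply le_antisymm
  · rw [IntermediateField.adjoin_le_iff, Set.singleton_subset_iff]
    exact inv_mem (IntermediateField.mem_adjoin_simple_self K _)
  · rw [IntermediateField.adjoin_le_iff, Set.singleton_subset_iff]
    show y ∈ IntermediateField.adjoin K {y⁻¹}
    have h := inv_mem (IntermediateField.mem_adjoin_simple_self K y⁻¹)
    rwa [inv_inv] at h

theorem tgc_transcendental_inv (hy : Transcendental K y) : Transcendental K y⁻¹ := by
  intro h
  exact hy (IsAlgebraic.inv_iff.mp h)

/-- transport of degrees along an isomorphism -/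
theorem tgc_finrank_adjoin_congr {L' : Type*} [Field L'] [Algebra K L'] (e : L ≃ₐ[K] L') (x : L) :
    Module.finrank (IntermediateField.adjoin K {x}) L
      = Module.finrank (IntermediateField.adjoin K {e x}) L' := by
  have hmap : (IntermediateField.adjoin K {x}).map (e : L →ₐ[K] L')
      = IntermediateField.adjoin K {e x} := by
    rw [IntermediateField.adjoin_map, Set.image_singleton]
    rfl
  let i : IntermediateField.adjoin K {x} ≃ₐ[K] IntermediateField.adjoin K {e x} :=
    ((IntermediateField.adjoin K {x}).equivMap (e : L →ₐ[K] L')).trans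
      (IntermediateField.equivOfEq hmap)
  refine Algebra.finrank_eq_of_equiv_equiv i.toRingEquiv e.toRingEquiv ?_
  ext z
  rfl

/-- the orbits of the trivial group -/
theorem tgc_card_orbits_bot (H : Subgroup SL(2, ℤ)) :
    Nat.card (MulAction.orbitRel.Quotient (⊥ : Subgroup SL(2, ℤ)) (SL(2, ℤ) ⧸ H)) = H.index := by
  rw [Subgroup.index_eq_card]
  refine Nat.card_congr (Equiv.ofBijective (Quotient.mk'' : SL(2, ℤ) ⧸ H →
    MulAction.orbitRel.Quotient (⊥ : Subgroup SL(2, ℤ)) (SL(2, ℤ) ⧸ H)) ⟨?_, ?_⟩).symm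
  · intro p q h
    have h1 := Quotient.eq''.mp h
    rw [MulAction.orbitRel_apply] at h1
    obtain ⟨⟨g, hg⟩, rfl⟩ := h1
    rw [Subgroup.mem_bot] at hg
    subst hg
    exact one_smul _ q
  · exact Quotient.mk''_surjective

end Aux

namespace TgcCover

variable {ρ : SL(2, ℤ) →* (L ≃ₐ[K] L)} {y : L} (C : TgcCover ρ y)

include C in
theorem ρ_apply_y (γ : SL(2, ℤ)) : ρ γ y = y := by
  have h : y ∈ IntermediateField.fixedField ρ.range := by
    rw [C.fix]; exact IntermediateField.mem_adjoin_simple_self K y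
  exact h ⟨ρ γ, γ, rfl⟩

include C in
theorem y_ne_zero : y ≠ 0 := by
  intro h
  apply C.trans
  rw [h]
  exact isAlgebraic_zero

include C in
theorem finiteIndex_of_ker_le (H : Subgroup SL(2, ℤ)) (hker : ρ.ker ≤ H) : H.FiniteIndex := by
  haveI := C.fin
  haveI : ρ.ker.FiniteIndex := ⟨by
    rw [Subgroup.index_ker]
    exact Nat.card_pos.ne'⟩
  exact Subgroup.finiteIndex_of_le hker

include C in
/-- the basic counting statement, transported along an isomorphism -/
theorem ncard_of_stabilizer (H : Subgroup SL(2, ℤ)) (hker : ρ.ker ≤ H)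
    {F : Type*} [Field F] [Algebra K F] (Ψ : F ≃ₐ[K] IntermediateField.fixedField (H.map ρ))
    (x : F) (z : L) (hxz : ((Ψ x : IntermediateField.fixedField (H.map ρ)) : L) = z)
    (hz : Transcendental K z)
    (hfix : IntermediateField.fixedField ρ.range = IntermediateField.adjoin K {z})
    (v₀ : Place K L) (hv₀ : 0 < v₀.ord z) (Δ : Subgroup SL(2, ℤ))
    (hΔ : ∀ γ : SL(2, ℤ), ρ γ • v₀ = v₀ ↔ ∃ δ ∈ Δ, ρ γ = ρ δ) :
    {v : Place K F | 0 < v.ord x}.ncard
      = Nat.card (MulAction.orbitRel.Quotient Δ (SL(2, ℤ) ⧸ H)) := by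
  have hcount := ncard_places_fixedField ρ C.fin H hker z hz hfix v₀ hv₀ Δ hΔ
  rw [← hcount]
  refine (ncard_setOf_place_congr Ψ _ _ (fun v => ?_)).symm
  have hzfix : ∀ g ∈ H.map ρ, g z = z := by
    rintro g ⟨γ, -, rfl⟩
    have h : z ∈ IntermediateField.fixedField ρ.range := by
      rw [hfix]; exact IntermediateField.mem_adjoin_simple_self K z
    exact h ⟨ρ γ, γ, rfl⟩
  have h1 : fixedElt (H.map ρ) z hzfix = Ψ x := Subtype.ext hxz.symm
  show 0 < (placeMap Ψ v).ord (fixedElt (H.map ρ) z _) ↔ 0 < v.ord x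
  rw [h1, placeMap_ord]

include C in
/-- **Hurwitz' formula for the fixed field of `ρ(H)`**: `2 g - 2 = n - o_S - o_{ST} - o_T` -/
theorem two_genusR_sub_two (H : Subgroup SL(2, ℤ)) (hker : ρ.ker ≤ H)
    {F : Type*} [Field F] [Algebra K F] (Ψ : F ≃ₐ[K] IntermediateField.fixedField (H.map ρ))
    (x : F) (hx : ((Ψ x : IntermediateField.fixedField (H.map ρ)) : L) = y) :
    2 * (genusR K F : ℤ) - 2 = (H.index : ℤ)
      - Nat.card (MulAction.orbitRel.Quotient (Subgroup.zpowers S) (SL(2, ℤ) ⧸ H))
      - Nat.card (MulAction.orbitRel.Quotient (Subgroup.zpowers (S * T)) (SL(2, ℤ) ⧸ H))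
      - Nat.card (MulAction.orbitRel.Quotient (Subgroup.zpowers T) (SL(2, ℤ) ⧸ H)) := by
  classical
  haveI := C.finiteIndex_of_ker_le H hker
  have hyfix : ∀ g ∈ H.map ρ, g y = y := by
    rintro g ⟨γ, -, rfl⟩
    exact C.ρ_apply_y γ
  have hΨx : Ψ x = fixedElt (H.map ρ) y hyfix := Subtype.ext hx
  have hfin : Module.finrank (IntermediateField.adjoin K {x}) F = H.index := by
    rw [tgc_finrank_adjoin_congr Ψ x, hΨx]
    exact finrank_adjoin_fixedElt ρ C.fin H hker y C.fix hyfix
  have htrans : Transcendental K x := by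
    intro h
    apply C.trans
    have h1 : IsAlgebraic K (Ψ x) := h.algHom Ψ.toAlgHom
    have h2 := h1.algHom (IntermediateField.fixedField (H.map ρ)).val
    rw [← hx]
    exact h2
  have hgen : IsFunctionFieldGen K F x :=
    ⟨htrans, FiniteDimensional.of_finrank_pos (by
      rw [hfin]
      exact Nat.pos_of_ne_zero Subgroup.FiniteIndex.index_ne_zero)⟩
  have hnotK : x ∉ (algebraMap K F).range := hgen.not_mem_range
  obtain ⟨v₀⟩ := exists_place hgen
  have hω : D K F x ≠ 0 := D_ne_zero_of_place hgen v₀ hnotK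
  have hsub : ∀ a : K, ((Ψ (x - algebraMap K F a) : IntermediateField.fixedField (H.map ρ)) : L)
      = y - algebraMap K L a := by
    intro a
    rw [map_sub, AlgEquiv.commutes]
    show ((Ψ x : IntermediateField.fixedField (H.map ρ)) : L) - _ = _
    rw [hx]
    rfl
  have hinv : ((Ψ x⁻¹ : IntermediateField.fixedField (H.map ρ)) : L) = y⁻¹ := by
    rw [map_inv₀]
    show ((Ψ x : IntermediateField.fixedField (H.map ρ)) : L)⁻¹ = _
    rw [hx]
  have hcount_gen : ∀ a ∉ ({0, 1728} : Finset K),
      {v : Place K F | 0 < v.ord (x - algebraMap K F a)}.ncard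
        = Module.finrank (IntermediateField.adjoin K {x}) F := by
    intro a ha
    simp only [Finset.mem_insert, Finset.mem_singleton, not_or] at ha
    rw [C.ncard_of_stabilizer H hker Ψ _ _ (hsub a) (tgc_transcendental_sub y C.trans a)
      (by rw [tgc_adjoin_sub, C.fix]) (C.pt a) (C.pt_ord a) ⊥ (C.stab_gen a ha.1 ha.2),
      tgc_card_orbits_bot, hfin]
  have hcount0 := C.ncard_of_stabilizer H hker Ψ _ _ (hsub 0) (tgc_transcendental_sub y C.trans 0)
    (by rw [tgc_adjoin_sub, C.fix]) (C.pt 0) (C.pt_ord 0) _ C.stab_zero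
  have hcountI := C.ncard_of_stabilizer H hker Ψ _ _ (hsub 1728)
    (tgc_transcendental_sub y C.trans 1728)
    (by rw [tgc_adjoin_sub, C.fix]) (C.pt 1728) (C.pt_ord 1728) _ C.stab_I
  have hpoles : {v : Place K F | v.ord x < 0}.ncard =
      Nat.card (MulAction.orbitRel.Quotient (Subgroup.zpowers T) (SL(2, ℤ) ⧸ H)) := by
    have hset : {v : Place K F | v.ord x < 0} = {v : Place K F | 0 < v.ord x⁻¹} := by
      ext v
      simp only [Set.mem_ofPred_eq]
      rw [Place.ord_inv]
      omega
    rw [hset]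
    exact C.ncard_of_stabilizer H hker Ψ _ _ hinv (tgc_transcendental_inv y C.trans)
      (by rw [tgc_adjoin_inv, C.fix]) C.inf C.inf_ord _ C.stab_inf
  have hdeg := degree_canonical hgen ({0, 1728} : Finset K) hcount_gen (D K F x) hω
    (divDiff hgen (D K F x)) (fun v => divDiff_apply hgen hω v)
  rw [degree_divisor_differential hgen hω _ (fun v => divDiff_apply hgen hω v)] at hdeg
  have h01728 : (0 : K) ≠ 1728 := by norm_num
  rw [Finset.sum_pair h01728, hcount0, hcountI, hpoles, hfin] at hdeg
  linarith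

end TgcCover

end Fermat.Agent.T1G
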