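/-
T1G leaf TG-GENUS (helper5): the lower bound for the genus of the `Γ₁(M)`-field.

For a Galois package `G : TgGalois K M ζ` over an algebraically closed field `K` (`ζ` primitive,
`6 ≤ M`, `4 ∣ M` or `9 ∣ M`), given that the base field `F̄₀(4)` (resp. `F̄₀(9)`) has genus `0`:
`n / 6 - c ≤ 2 g - 2`, i.e. `n + 12 ≤ 12 g + 6 c`, with `n = tgnDeg M = [SL₂(ℤ) : ±Γ₁(M)]`,
`c = tgnCusps M` the number of `⟨T⟩`-orbits on `SL₂(ℤ)/±Γ₁(M)`, `g` the genus of `TgOne K M ζ`.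
(Riemann–Hurwitz over the genus-`0` subfield, `ta_genus_ge_of_tower`.)
-/
import Fermat.Agent.Lib.T1G.Model.Cusps

set_option autoImplicit false
set_option linter.unusedSectionVars false
set_option linter.style.haveILetI false

open HahnSeries ModularCurve Fermat.Agent.Igusa Matrix MatrixGroups CongruenceSubgroup
open IntermediateField Fermat.Agent.Curve AlgebraicCurve Fermat.Agent.T1

noncomputable section

namespace Fermat.Agent.T1G

section Base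

variable (K : Type*) [Field K] (M : ℕ) [NeZero M] (ζ : Kˣ)

/-- the inclusion of the `Γ₀(N₀)`-field into the `Γ₁(M)`-field, `N₀ ∣ M` -/
def tgBaseIncl {N₀ : ℕ} [NeZero N₀] (h : N₀ ∣ M) : TaBar K N₀ →ₐ[K] ↥(TgOne K M ζ) :=
  IntermediateField.inclusion ((ta_bar_le K h).trans (full_le_tgOne K M ζ))

theorem tgBaseIncl_taBarJ {N₀ : ℕ} [NeZero N₀] (h : N₀ ∣ M) :
    tgBaseIncl K M ζ h (taBarJ K N₀) = tgOneJ K M ζ := rfl

variable {K M ζ}

theorem tg_natCast_ne_zero_of_primitive (hζ : IsPrimitiveRoot ζ M) : ((M : ℕ) : K) ≠ 0 := by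
  have h : IsPrimitiveRoot ((ζ : Kˣ) : K) M := IsPrimitiveRoot.coe_units_iff.mpr hζ
  exact (h.neZero' (R := K)).ne

end Base

namespace TgGalois

variable {K : Type*} [Field K] {M : ℕ} [NeZero M] {ζ : Kˣ} (G : TgGalois K M ζ)

include G in
/-- **`n / 6 - c ≤ 2 g - 2`** for the `Γ₁(M)`-field, `p² ∣ M` with `p ∈ {2, 3}`, given that the base
field of level `p²` has genus `0` -/
theorem genus_ge_of_sq [IsAlgClosed K] (hζ : IsPrimitiveRoot ζ M) (hM : 6 ≤ M) {p : ℕ}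
    (hp : p.Prime) (hp3 : p = 2 ∨ p = 3) [NeZero (p * p)] (hdvd : p * p ∣ M)
    (hg0 : CurveP.genusR K (TaBar K (p * p)) = 0) :
    (tgnDeg M : ℚ) / 6 - tgnCusps M ≤ 2 * (CurveP.genusR K ↥(TgOne K M ζ) : ℚ) - 2 := by
  have hMK : ((M : ℕ) : K) ≠ 0 := tg_natCast_ne_zero_of_primitive hζ
  have hN₀ : (((p * p : ℕ)) : K) ≠ 0 := by
    intro h
    obtain ⟨m, hm⟩ := hdvd
    apply hMK
    rw [hm, Nat.cast_mul, h, zero_mul]
  haveI := ta_bar_isSeparable K (p * p) hN₀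
  haveI hsep := G.isSeparable_tgOne
  have hx : IsFunctionFieldGen K ↥(TgOne K M ζ) (tgBaseIncl K M ζ hdvd (taBarJ K (p * p))) :=
    G.isFunctionFieldGen_tgOneJ hζ hM
  haveI : Algebra.IsSeparable ↥(K⟮tgBaseIncl K M ζ hdvd (taBarJ K (p * p))⟯) ↥(TgOne K M ζ) :=
    hsep
  have hmain := ta_genus_ge_of_tower (tgBaseIncl K M ζ hdvd)
    (ta_bar_isFunctionFieldGen K (p * p)) hg0
    hx (c₀ := p + 1) (c := tgnCusps M) (d₀ := p * p + p) (d := tgnDeg M)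
    (ta_succ_le_ncard_poles K (p * p) hp rfl hN₀) (G.ncard_poles_le hζ hM)
    (ta_bar_finrank_sq_le K (p * p) hp rfl hN₀) (G.finrank_tgOne hζ hM).ge
    (by have := hp.two_le; omega)
  have hnum : (((p + 1 : ℕ) : ℚ) - 2) * (tgnDeg M : ℚ) / ((p * p + p : ℕ) : ℚ) =
      (tgnDeg M : ℚ) / 6 := by
    rcases hp3 with rfl | rfl
    · norm_num
    · norm_num
      ring
  rw [hnum] at hmain
  exact hmain

include G in
/-- base level `4` -/
theorem genus_ge_of_four [IsAlgClosed K] (hζ : IsPrimitiveRoot ζ M) (hM : 6 ≤ M) (hdvd : 4 ∣ M)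
    (hg0 : CurveP.genusR K (TaBar K 4) = 0) :
    (tgnDeg M : ℚ) / 6 - tgnCusps M ≤ 2 * (CurveP.genusR K ↥(TgOne K M ζ) : ℚ) - 2 :=
  G.genus_ge_of_sq hζ hM Nat.prime_two (Or.inl rfl) hdvd hg0

include G in
/-- base level `9` -/
theorem genus_ge_of_nine [IsAlgClosed K] (hζ : IsPrimitiveRoot ζ M) (hM : 6 ≤ M) (hdvd : 9 ∣ M)
    (hg0 : CurveP.genusR K (TaBar K 9) = 0) :
    (tgnDeg M : ℚ) / 6 - tgnCusps M ≤ 2 * (CurveP.genusR K ↥(TgOne K M ζ) : ℚ) - 2 :=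
  G.genus_ge_of_sq hζ hM Nat.prime_three (Or.inr rfl) hdvd hg0

end TgGalois

end Fermat.Agent.T1G
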