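/-
T1G (helper5): the `F̄`-side inputs of K1 for the `Γ₁(M)`-field (analogue of `TkrBarOK`,
Lib/T1/Kron/K3Final.lean): for an algebraically closed field `K` of characteristic `0` with a Galois
package `G : TgGalois K M ζ` and the cover data `C : TgcCover G.ρ (tgJ K M ζ)` (analytic input), and
an algebraically closed field `κ` with a Galois package `Gb : TgGalois κ M ζb` (from `tgGalBar`):
`TgOne κ M ζb / κ(j̄)` is a separable function field of the same degree `[SL₂(ℤ) : ±Γ₁(M)]` as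
`TgOne K M ζ / K(j)`, and `genus (TgOne K M ζ) ≤ genus (TgOne κ M ζb)` (`4 ∣ M` or `9 ∣ M`).
-/
import Fermat.Agent.Lib.T1G.An.GenusOne
import Fermat.Agent.Lib.T1G.Model.GenusGe

set_option autoImplicit false
set_option linter.unusedSectionVars false
set_option linter.style.haveILetI false

open HahnSeries ModularCurve Fermat.Agent.Igusa Matrix MatrixGroups CongruenceSubgroup
open IntermediateField Fermat.Agent.Curve AlgebraicCurve ModularGroup Fermat.Agent.T1

noncomputable section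

namespace Fermat.Agent.T1G

/-- the `F̄`-side inputs of K1 for the `Γ₁(M)`-fields `TgOne K M ζ` (generic fibre) and
`TgOne κ M ζb` (special fibre) -/
structure TgnBarOK (K κ : Type*) [Field K] [Field κ] (M : ℕ) [NeZero M] (ζ : Kˣ) (ζb : κˣ) :
    Prop where
  gen : IsFunctionFieldGen K ↥(TgOne K M ζ) (tgOneJ K M ζ)
  genb : IsFunctionFieldGen κ ↥(TgOne κ M ζb) (tgOneJ κ M ζb)
  sep : Algebra.IsSeparable ↥(κ⟮tgOneJ κ M ζb⟯) ↥(TgOne κ M ζb)
  deg : Module.finrank ↥(K⟮tgOneJ K M ζ⟯) ↥(TgOne K M ζ) =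
    Module.finrank ↥(κ⟮tgOneJ κ M ζb⟯) ↥(TgOne κ M ζb)
  genus : CurveP.genusR K ↥(TgOne K M ζ) ≤ CurveP.genusR κ ↥(TgOne κ M ζb)

variable {K κ : Type*} [Field K] [Field κ] {M : ℕ} [NeZero M] {ζ : Kˣ} {ζb : κˣ}

/-- the genus inequality from the characteristic-`0` genus formula `12 g + 6 c = n + 12` and the
Riemann–Hurwitz lower bound `n / 6 - c ≤ 2 ḡ - 2` on the special fibre -/
theorem tgn_genus_le_of_formula {g gb : ℕ} {n c : ℕ} (h0 : 12 * g + 6 * c = n + 12)
    (hb : (n : ℚ) / 6 - c ≤ 2 * (gb : ℚ) - 2) : g ≤ gb := by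
  have h0' : (12 : ℚ) * g + 6 * c = n + 12 := by exact_mod_cast h0
  have : (g : ℚ) ≤ gb := by linarith
  exact_mod_cast this

/-- **`TgnBarOK`** from the two Galois packages, the cover data in characteristic `0`, and the genus
`0` of the base level `4` resp. `9` on the special fibre -/
theorem tgn_barOK [IsAlgClosed K] [CharZero K] [IsAlgClosed κ] (G : TgGalois K M ζ)
    (C : TgcCover G.ρ (tgJ K M ζ)) (Gb : TgGalois κ M ζb) (hζ : IsPrimitiveRoot ζ M)
    (hζb : IsPrimitiveRoot ζb M) (hM : 6 ≤ M) (h49 : 4 ∣ M ∨ 9 ∣ M)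
    (hg4 : 4 ∣ M → CurveP.genusR κ (TaBar κ 4) = 0)
    (hg9 : 9 ∣ M → CurveP.genusR κ (TaBar κ 9) = 0) : TgnBarOK K κ M ζ ζb where
  gen := G.isFunctionFieldGen_tgOneJ hζ hM
  genb := Gb.isFunctionFieldGen_tgOneJ hζb hM
  sep := Gb.isSeparable_tgOne
  deg := (G.finrank_tgOne hζ hM).trans (Gb.finrank_tgOne hζb hM).symm
  genus := by
    have h0 := G.genusP_tgOne hζ hM C
    have hb : (tgnDeg M : ℚ) / 6 - tgnCusps M ≤ 2 * (CurveP.genusR κ ↥(TgOne κ M ζb) : ℚ) - 2 := by
      rcases h49 with h4 | h9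
      · haveI : NeZero 4 := ⟨by norm_num⟩
        exact Gb.genus_ge_of_four hζb hM h4 (hg4 h4)
      · haveI : NeZero 9 := ⟨by norm_num⟩
        exact Gb.genus_ge_of_nine hζb hM h9 (hg9 h9)
    exact tgn_genus_le_of_formula h0 hb

end Fermat.Agent.T1G
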