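/-
T1G (helper6): Artin's theorem for a finite group `G` of `K`-automorphisms of a field `E`
(`E / K` possibly transcendental), in the form needed for the full level field:
the fixed field `F` (an `IntermediateField K E`), `[E : F] = |G|`, every `F`-automorphism of `E`
comes from `G`, and one direction of the Galois correspondence.
-/
import Mathlib

set_option autoImplicit false
set_option linter.unusedSectionVars false
set_option linter.style.haveILetI false

noncomputable section

namespace Fermat.Agent.T1G

variable {K E : Type*} [Field K] [Field E] [Algebra K E] (G : Subgroup (E ≃ₐ[K] E)) [Finite G]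

theorem tgn_smul_def (g : ↥G) (x : E) : g • x = (g : E ≃ₐ[K] E) x := rfl

theorem tgn_mem_fixed_iff (x : E) :
    x ∈ FixedPoints.subfield (↥G) E ↔ ∀ g ∈ G, g x = x := by
  constructor
  · intro h g hg
    exact h ⟨g, hg⟩
  · intro h g
    exact h g g.2

/-- every automorphism of `E` over the fixed field of `G` is given by an element of `G` -/
theorem tgn_exists_eq_of_algEquiv (σ : E ≃ₐ[FixedPoints.subfield (↥G) E] E) :
    ∃ g ∈ G, ∀ x, σ x = g x := by
  obtain ⟨g, hg⟩ := FixedPoints.toAlgAut_surjective (↥G) E σ
  refine ⟨g, g.2, fun x => ?_⟩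
  rw [← hg]
  rfl

/-- **Galois correspondence**: an element fixed by `H` lies in the field generated over the
fixed field `F` of `G` by any set `S` whose pointwise stabiliser in `G` is contained in `H` -/
theorem tgn_mem_adjoin_of_fixed (H : Subgroup (E ≃ₐ[K] E)) (S : Set E)
    (hS : ∀ g ∈ G, (∀ s ∈ S, g s = s) → g ∈ H)
    (F : IntermediateField K E) (hF : ∀ x, (∀ g ∈ G, g x = x) → x ∈ F)
    (x : E) (hx : ∀ h ∈ H, h x = x) :
    x ∈ IntermediateField.adjoin K ((F : Set E) ∪ S) := by
  set K' := FixedPoints.subfield (↥G) E with hK'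
  set F' : IntermediateField K' E := IntermediateField.adjoin K' S with hF'
  have h1 : x ∈ IntermediateField.fixedField (IntermediateField.fixingSubgroup F') := by
    rw [IntermediateField.mem_fixedField_iff]
    intro σ hσ
    rw [IntermediateField.mem_fixingSubgroup_iff] at hσ
    obtain ⟨g, hg, hgσ⟩ := tgn_exists_eq_of_algEquiv G σ
    have hgH : g ∈ H := by
      refine hS g hg fun s hs => ?_
      rw [← hgσ]
      exact hσ s (IntermediateField.subset_adjoin K' S hs)
    rw [hgσ]
    exact hx g hgH
  rw [IsGalois.fixedField_fixingSubgroup] at h1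
  have h2 : x ∈ (IntermediateField.adjoin K' S).toSubfield := h1
  rw [IntermediateField.adjoin_toSubfield] at h2
  have h3 : Subfield.closure (Set.range (algebraMap K' E) ∪ S) ≤
      (IntermediateField.adjoin K ((F : Set E) ∪ S)).toSubfield := by
    rw [Subfield.closure_le]
    rintro y (⟨z, rfl⟩ | hy)
    · refine IntermediateField.subset_adjoin K _ (Or.inl ?_)
      exact hF _ ((tgn_mem_fixed_iff G _).mp z.2)
    · exact IntermediateField.subset_adjoin K _ (Or.inr hy)
  exact h3 h2

variable (F : IntermediateField K E) (hF : ∀ x, x ∈ F ↔ ∀ g ∈ G, g x = x)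

/-- the ring isomorphism between the fixed field as an intermediate field and as a subfield -/
def tgnFixEquiv : ↥F ≃+* ↥(FixedPoints.subfield (↥G) E) :=
  RingEquiv.ofBijective
    ((F.val : ↥F →+* E).codRestrict (FixedPoints.subfield (↥G) E)
      (fun x => (tgn_mem_fixed_iff G _).mpr ((hF _).mp x.2)))
    ⟨fun _ _ h => Subtype.ext (congrArg (fun z : ↥(FixedPoints.subfield (↥G) E) => (z : E)) h),
     fun y => ⟨⟨(y : E), (hF _).mpr ((tgn_mem_fixed_iff G _).mp y.2)⟩, Subtype.ext rfl⟩⟩

theorem coe_tgnFixEquiv (x : ↥F) : ((tgnFixEquiv G F hF x : ↥(FixedPoints.subfield (↥G) E)) : E) = x :=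
  rfl

include hF in
/-- **Artin**: `[E : F] = |G|` -/
theorem tgn_finrank_eq_card : Module.finrank ↥F E = Nat.card ↥G := by
  haveI : Fintype ↥G := Fintype.ofFinite _
  have h1 := FixedPoints.finrank_eq_card (↥G) E
  rw [Nat.card_eq_fintype_card, ← h1]
  refine Algebra.finrank_eq_of_equiv_equiv (tgnFixEquiv G F hF) (RingEquiv.refl E) ?_
  ext x
  rfl

include hF in
theorem tgn_finiteDimensional : FiniteDimensional ↥F E := by
  have hpos : 0 < Module.finrank ↥F E := by
    rw [tgn_finrank_eq_card G F hF]
    exact Nat.card_pos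
  exact Module.finite_of_finrank_pos hpos

include hF in
theorem tgn_isGalois : IsGalois ↥F E := by
  haveI : IsGalois ↥(FixedPoints.subfield (↥G) E) E := IsGalois.of_fixed_field E (↥G)
  refine IsGalois.of_equiv_equiv (F := ↥(FixedPoints.subfield (↥G) E)) (E := E)
    (f := (tgnFixEquiv G F hF).symm) (g := RingEquiv.refl E) ?_
  ext x
  obtain ⟨y, rfl⟩ := (tgnFixEquiv G F hF).surjective x
  rw [RingHom.comp_apply, RingHom.comp_apply]
  simp only [RingEquiv.coe_toRingHom, RingEquiv.symm_apply_apply]
  rfl

include hF in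
/-- every `F`-automorphism of `E` comes from `G` -/
theorem tgn_exists_eq (σ : E ≃ₐ[↥F] E) : ∃ g ∈ G, ∀ x, σ x = g x := by
  -- transport `σ` to an automorphism over the subfield of fixed points
  set τ : E ≃ₐ[↥(FixedPoints.subfield (↥G) E)] E :=
    { (σ : E ≃+* E) with
      commutes' := fun y => by
        have := σ.commutes ((tgnFixEquiv G F hF).symm y)
        have h2 : algebraMap ↥F E ((tgnFixEquiv G F hF).symm y) =
            algebraMap ↥(FixedPoints.subfield (↥G) E) E y := by
          obtain ⟨z, rfl⟩ := (tgnFixEquiv G F hF).surjective y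
          rw [RingEquiv.symm_apply_apply]
          rfl
        rw [h2] at this
        exact this } with hτ
  obtain ⟨g, hg, hgτ⟩ := tgn_exists_eq_of_algEquiv G τ
  exact ⟨g, hg, fun x => hgτ x⟩

end Fermat.Agent.T1G
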