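/-
T1G (helper6): generic consequences of the Galois package `TgGalois K M ζ` over an arbitrary
field `K` (used in characteristic `0` and for the reduction): the weaker package `TgPre` (without
the fixed field condition), finiteness of the image, the kernel is `±Γ(M)`.
-/
import Fermat.Agent.Lib.T1G.Model.Galois
import Fermat.Agent.Lib.T1G.Model.Lead
import Fermat.Agent.Lib.T1G.Model.Group
import Fermat.Agent.Lib.T1G.Model.Artin

set_option autoImplicit false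
set_option linter.unusedSectionVars false
set_option linter.style.haveILetI false

open HahnSeries ModularCurve Fermat.Agent.Igusa Matrix MatrixGroups CongruenceSubgroup

noncomputable section

namespace Fermat.Agent.T1G

variable (K : Type*) [Field K] (M : ℕ) [NeZero M] (ζ : Kˣ)

/-- the Galois package without the fixed field condition -/
structure TgPre where
  /-- the action -/
  ρ : SL(2, ℤ) →* (↥(tgFull K M ζ) ≃ₐ[K] ↥(tgFull K M ζ))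
  ρ_nu : ∀ (γ : SL(2, ℤ)) {v w : ZMod M × ZMod M} (hv : v ≠ 0) (hw : w ≠ 0),
    ρ γ (tgNuE K M ζ hv hw) =
      tgNuE K M ζ (tgAct_ne_zero M γ⁻¹ hv) (tgAct_ne_zero M γ⁻¹ hw)
  ρ_jset : ∀ (γ : SL(2, ℤ)) (x : ↥(tgFull K M ζ)), (x : LaurentSeries K) ∈ tgJSet K M ζ →
    ((ρ γ x : ↥(tgFull K M ζ)) : LaurentSeries K) ∈ tgJSet K M ζ
  ρ_J : ∀ γ : SL(2, ℤ), ρ γ (tgJ K M ζ) = tgJ K M ζ
  ρ_T : ∀ x : ↥(tgFull K M ζ),
    ((ρ ModularGroup.T⁻¹ x : ↥(tgFull K M ζ)) : LaurentSeries K) = lsTwist ζ (x : LaurentSeries K)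
  ρ_jd : ∀ γ ∈ Gamma0 M, ∀ {d : ℕ} [NeZero d] (hd : d ∣ M), ρ γ (tgJd K M ζ hd) = tgJd K M ζ hd
  stab_jM : ∀ γ : SL(2, ℤ), ρ γ (tgJd K M ζ (dvd_refl M)) = tgJd K M ζ (dvd_refl M) →
    γ ∈ Gamma0 M
  ρ_Gamma : ∀ γ ∈ Gamma M, ρ γ = 1
  ρ_neg_one : ρ (-1) = 1

variable {K M ζ}

/-- forget the fixed field condition -/
def TgGalois.toPre (Gal : TgGalois K M ζ) : TgPre K M ζ where
  ρ := Gal.ρ
  ρ_nu := Gal.ρ_nu
  ρ_jset := Gal.ρ_jset
  ρ_J := Gal.ρ_J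
  ρ_T := Gal.ρ_T
  ρ_jd := Gal.ρ_jd
  stab_jM := Gal.stab_jM
  ρ_Gamma := Gal.ρ_Gamma
  ρ_neg_one := Gal.ρ_neg_one

@[simp] theorem TgGalois.toPre_ρ (Gal : TgGalois K M ζ) : Gal.toPre.ρ = Gal.ρ := rfl

/-- add the fixed field condition -/
def TgPre.toGalois (P : TgPre K M ζ)
    (hfix : ∀ x : ↥(tgFull K M ζ), (∀ γ : SL(2, ℤ), P.ρ γ x = x) →
      x ∈ IntermediateField.adjoin K {tgJ K M ζ}) : TgGalois K M ζ where
  ρ := P.ρ
  ρ_nu := P.ρ_nu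
  ρ_jset := P.ρ_jset
  ρ_J := P.ρ_J
  ρ_T := P.ρ_T
  fixed := hfix
  ρ_jd := P.ρ_jd
  stab_jM := P.stab_jM
  ρ_Gamma := P.ρ_Gamma
  ρ_neg_one := P.ρ_neg_one

@[simp] theorem TgPre.toGalois_ρ (P : TgPre K M ζ) (hfix) : (P.toGalois hfix).ρ = P.ρ := rfl

namespace TgPre

variable (P : TgPre K M ζ)

theorem Gamma_le_ker : Gamma M ≤ P.ρ.ker := fun γ hγ => P.ρ_Gamma γ hγ

instance finiteIndex_ker : P.ρ.ker.FiniteIndex :=
  Subgroup.finiteIndex_of_le P.Gamma_le_ker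

/-- the image of `SL₂(ℤ)` is finite -/
instance finite_range : Finite ↥P.ρ.range := by
  have h1 : Finite (SL(2, ℤ) ⧸ P.ρ.ker) := Subgroup.finite_quotient_of_finiteIndex
  exact Finite.of_equiv _ (QuotientGroup.quotientKerEquivRange P.ρ).toEquiv

theorem card_range : Nat.card ↥P.ρ.range = P.ρ.ker.index :=
  (Subgroup.index_ker P.ρ).symm

/-- some power `≥ 1` of `ρ γ` is trivial -/
theorem exists_pow_eq_one (γ : SL(2, ℤ)) : ∃ n : ℕ, 0 < n ∧ P.ρ γ ^ n = 1 := by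
  haveI := Gamma_normal M
  refine ⟨(Gamma M).index, Nat.pos_of_ne_zero Subgroup.FiniteIndex.index_ne_zero, ?_⟩
  rw [← map_pow]
  exact P.ρ_Gamma _ (Subgroup.pow_index_mem _ γ)

theorem ρ_neg (γ : SL(2, ℤ)) : P.ρ (-γ) = P.ρ γ := by
  have h : -γ = -1 * γ := by rw [neg_mul, one_mul]
  rw [h, map_mul, P.ρ_neg_one, one_mul]

theorem coe_ρ_nu (γ : SL(2, ℤ)) {v w : ZMod M × ZMod M} (hv : v ≠ 0) (hw : w ≠ 0) :
    ((P.ρ γ (tgNuE K M ζ hv hw) : ↥(tgFull K M ζ)) : LaurentSeries K) =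
      tgNu K M ζ (tgAct M γ⁻¹ v) (tgAct M γ⁻¹ w) :=
  congrArg (fun x : ↥(tgFull K M ζ) => (x : LaurentSeries K)) (P.ρ_nu γ hv hw)

theorem ker_le_Gamma0 : P.ρ.ker ≤ Gamma0 M := by
  intro γ hγ
  apply P.stab_jM
  rw [MonoidHom.mem_ker.mp hγ]
  rfl

/-- **the kernel of the action is `±Γ(M)`** -/
theorem mem_Gamma_or_of_ρ_eq_one (hM : 3 ≤ M) {γ : SL(2, ℤ)} (hγ : P.ρ γ = 1) :
    γ ∈ Gamma M ∨ -γ ∈ Gamma M := by
  have hker : γ ∈ P.ρ.ker := hγ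
  obtain ⟨α, -, h00, h11, h01, h10⟩ := tgg_scalar_of_normal M P.ρ.ker P.ker_le_Gamma0 hker
  have e10 : ((1 : ZMod M), (0 : ZMod M)) ≠ 0 := by
    intro h
    have h1 := congrArg Prod.fst h
    haveI : Fact (1 < M) := ⟨by omega⟩
    exact one_ne_zero h1
  have e01 : ((0 : ZMod M), (1 : ZMod M)) ≠ 0 := by
    intro h
    have h1 := congrArg Prod.snd h
    haveI : Fact (1 < M) := ⟨by omega⟩
    exact one_ne_zero h1
  have h1 := P.coe_ρ_nu γ⁻¹ e10 e01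
  have h2 : P.ρ γ⁻¹ = 1 := by rw [map_inv, hγ, inv_one]
  rw [h2, inv_inv] at h1
  have h3 : tgAct M γ (1, 0) = (α, 0) := by
    rw [tgAct, h00, h01]
    simp
  have h4 : tgAct M γ (0, 1) = (0, α) := by
    rw [tgAct, h10, h11]
    simp
  rw [h3, h4] at h1
  rcases tg_scalar_eq_of_tgNu_eq hM α h1.symm with rfl | rfl
  · left
    rw [Gamma_mem]
    exact ⟨h00, h01, h10, h11⟩
  · right
    rw [Gamma_mem]
    simp only [Matrix.SpecialLinearGroup.coe_neg, Matrix.neg_apply, Int.cast_neg, h00, h01, h10,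
      h11, neg_neg, neg_zero, and_self]

theorem ρ_eq_one_iff (hM : 3 ≤ M) (γ : SL(2, ℤ)) :
    P.ρ γ = 1 ↔ γ ∈ Gamma M ∨ -γ ∈ Gamma M := by
  refine ⟨P.mem_Gamma_or_of_ρ_eq_one hM, ?_⟩
  rintro (h | h)
  · exact P.ρ_Gamma γ h
  · rw [← P.ρ_neg]
    exact P.ρ_Gamma _ h

/-- two packages (possibly over different fields) have the same kernel -/
theorem ker_eq_ker {K' : Type*} [Field K'] {ζ' : K'ˣ} (P' : TgPre K' M ζ') (hM : 3 ≤ M) :
    P.ρ.ker = P'.ρ.ker := by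
  ext γ
  rw [MonoidHom.mem_ker, MonoidHom.mem_ker, P.ρ_eq_one_iff hM, P'.ρ_eq_one_iff hM]

theorem card_range_eq {K' : Type*} [Field K'] {ζ' : K'ˣ} (P' : TgPre K' M ζ') (hM : 3 ≤ M) :
    Nat.card ↥P.ρ.range = Nat.card ↥P'.ρ.range := by
  rw [card_range, card_range, P.ker_eq_ker P' hM]

end TgPre

end Fermat.Agent.T1G
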