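/-
T1G (helper6): the embedding `ι_M : TgOne K M ζ → tgFull K M ζ`, `q ↦ t^M`, as an algebra
homomorphism, and its values on the generators.
-/
import Fermat.Agent.Lib.T1G.Model.Galois

set_option autoImplicit false
set_option linter.unusedSectionVars false
set_option linter.style.haveILetI false

open HahnSeries ModularCurve Fermat.Agent.Igusa

noncomputable section

namespace Fermat.Agent.T1G

variable (K : Type*) [Field K] (M : ℕ) [NeZero M] (ζ : Kˣ)

/-- `ι_M : TgOne K M ζ → tgFull K M ζ`, `q ↦ t^M` -/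
def tgIotaOne : ↥(TgOne K M ζ) →ₐ[K] ↥(tgFull K M ζ) where
  toFun x := ⟨qExpand K M (x : LaurentSeries K), qExpand_mem_tgFull K M ζ x.2⟩
  map_one' := Subtype.ext (map_one (qExpand K M))
  map_mul' _ _ := Subtype.ext (map_mul (qExpand K M) _ _)
  map_zero' := Subtype.ext (map_zero (qExpand K M))
  map_add' _ _ := Subtype.ext (map_add (qExpand K M) _ _)
  commutes' c := Subtype.ext ((qExpandAlgHomC K M).commutes c)

theorem coe_tgIotaOne (x : ↥(TgOne K M ζ)) :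
    ((tgIotaOne K M ζ x : ↥(tgFull K M ζ)) : LaurentSeries K) = qExpand K M (x : LaurentSeries K) :=
  rfl

theorem tgIotaOne_injective : Function.Injective (tgIotaOne K M ζ) :=
  (tgIotaOne K M ζ).toRingHom.injective

/-- `j(q^d) ∈ TgOne` -/
theorem jqModCd_mem_tgOne {d : ℕ} [NeZero d] (hd : d ∣ M) :
    qExpand K d (jqModC K) ∈ TgOne K M ζ :=
  full_le_tgOne K M ζ (jqModCd_mem_full K M hd)

/-- `j(q^d)` as an element of `TgOne` -/
def tgOneJd {d : ℕ} [NeZero d] (hd : d ∣ M) : ↥(TgOne K M ζ) :=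
  ⟨qExpand K d (jqModC K), jqModCd_mem_tgOne K M ζ hd⟩

/-- `j` as an element of `TgOne` -/
def tgOneJc : ↥(TgOne K M ζ) :=
  ⟨jqModC K, by
    have h := jqModCd_mem_tgOne K M ζ (one_dvd M)
    rwa [qExpand_one_apply] at h⟩

/-- `ν¹_{a,a'}` as an element of `TgOne` -/
def tgOneNu {a a' : ZMod M} (ha : a ≠ 0) (ha' : a' ≠ 0) : ↥(TgOne K M ζ) :=
  ⟨tgNu1 K M ζ a a', tgNu1_mem_tgOne K M ζ ha ha'⟩

theorem tgIotaOne_tgOneJc : tgIotaOne K M ζ (tgOneJc K M ζ) = tgJ K M ζ := rfl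

theorem tgIotaOne_tgOneJd {d : ℕ} [NeZero d] (hd : d ∣ M) :
    tgIotaOne K M ζ (tgOneJd K M ζ hd) = tgJd K M ζ hd := by
  apply Subtype.ext
  show qExpand K M (qExpand K d (jqModC K)) = qExpand K (M * d) (jqModC K)
  rw [qExpand_qExpand]

theorem tg_snd_ne_zero {a : ZMod M} (ha : a ≠ 0) : ((0 : ZMod M), a) ≠ 0 := by
  intro h
  exact ha (congrArg Prod.snd h)

theorem tgIotaOne_tgOneNu {a a' : ZMod M} (ha : a ≠ 0) (ha' : a' ≠ 0) :
    tgIotaOne K M ζ (tgOneNu K M ζ ha ha') =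
      tgNuE K M ζ (tg_snd_ne_zero M ha) (tg_snd_ne_zero M ha') := by
  apply Subtype.ext
  show qExpand K M (tgNu1 K M ζ a a') = tgNu K M ζ (0, a) (0, a')
  rw [qExpand_tgNu1]

end Fermat.Agent.T1G
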