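/-
T1G / TG-TRANS (helper8): **the Galois group acts transitively on the valuation subrings above a given
valuation subring**.  `E / K` finite Galois, `W` ANY valuation subring of `K` (no discreteness needed),
`V₁ V₂` valuation subrings of `E` with `Vᵢ ∩ K = W`: there is `g ∈ Gal(E/K)` with `V₂ = g⁻¹ V₁`.

Proof.  Let `B` be the integral closure of `W` in `E`; it lies in every `Vᵢ`, and the centres
`Pᵢ = 𝔪(Vᵢ) ∩ B` are primes of `B` above `𝔪(W)`, hence conjugate (Mathlib,
`Algebra.IsInvariant.exists_smul_of_under_eq`).  A valuation subring above `W` is determined by its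
centre: by Kaplansky's `u, u⁻¹`-lemma (`tgt_exists_frac_or_inv`; every element of `E` is a root of
a polynomial over `W` with a unit coefficient, `tgt_exists_coeff_eq_one`) every `x ∈ E` has `x` or `x⁻¹`
of the form `b / s` with `b, s ∈ B`, `s ∉ P`.
-/
import Mathlib

set_option autoImplicit false
set_option linter.unusedSectionVars false
set_option linter.style.haveILetI false

open Polynomial

namespace Fermat.Agent.T1G

section UU

variable {E : Type*} [Field E] {R : Type*} [CommRing R] [Algebra R E]

/-- Kaplansky's `u, u⁻¹` lemma in global form: if `B` is integrally closed in the field `E`, `P` is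
a prime of `B`, and `x` is a root of a polynomial over `B` with a coefficient outside `P`, then `x` or
`x⁻¹` is a fraction with denominator outside `P`. -/
theorem tgt_exists_frac_or_inv (B : Subalgebra R E) (hB : ∀ y : E, IsIntegral B y → y ∈ B)
    (P : Ideal B) [P.IsPrime] (x : E) :
    ∀ (n : ℕ) (f : Polynomial B), f.natDegree ≤ n → aeval x f = 0 → (∃ i, f.coeff i ∉ P) →
      ∃ b s : B, s ∉ P ∧ ((x = (b : E) / (s : E)) ∨ (x⁻¹ = (b : E) / (s : E))) := by
  intro n
  induction n with
  | zero =>
    intro f hdeg hroot ⟨i, hi⟩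
    exfalso
    rw [eq_C_of_natDegree_le_zero hdeg, aeval_C] at hroot
    have h0 : f.coeff 0 = 0 := by
      have : ((f.coeff 0 : B) : E) = 0 := hroot
      exact_mod_cast this
    have hf : f = 0 := by rw [eq_C_of_natDegree_le_zero hdeg, h0, map_zero]
    rw [hf, coeff_zero] at hi
    exact hi P.zero_mem
  | succ n ih =>
    intro f hdeg hroot hunit
    by_cases hlt : f.natDegree ≤ n
    · exact ih f hlt hroot hunit
    have hnd : f.natDegree = n + 1 := by omega
    set a : B := f.leadingCoeff with ha
    have hy : (a : E) * x ∈ B := by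
      apply hB
      have := isIntegral_leadingCoeff_smul f x hroot
      rwa [Algebra.smul_def] at this
    set y : B := ⟨(a : E) * x, hy⟩ with hydef
    have hyE : (y : E) = (a : E) * x := rfl
    set g : Polynomial B := f.eraseLead + C y * X ^ n with hg
    have hgdeg : g.natDegree ≤ n := by
      refine (natDegree_add_le _ _).trans (max_le ?_ (natDegree_C_mul_X_pow_le _ _))
      have := eraseLead_natDegree_le f
      omega
    have hgroot : aeval x g = 0 := by
      have h1 : aeval x f.eraseLead = aeval x f - (a : E) * x ^ (n + 1) := by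
        conv_rhs => rw [← eraseLead_add_C_mul_X_pow f]
        rw [map_add, hnd]
        simp only [map_mul, aeval_C, map_pow, aeval_X, ha]
        have : (algebraMap B E) f.leadingCoeff = (f.leadingCoeff : E) := rfl
        rw [this]
        ring
      rw [hg, map_add, h1, hroot]
      simp only [map_mul, aeval_C, map_pow, aeval_X]
      have : (algebraMap B E) y = (a : E) * x := rfl
      rw [this]
      ring
    by_cases hgunit : ∃ i, g.coeff i ∉ P
    · exact ih g hgdeg hgroot hgunit
    push Not at hgunit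
    obtain ⟨i, hi⟩ := hunit
    have hgcoeff : ∀ j, j ≠ n → j ≠ n + 1 → g.coeff j = f.coeff j := by
      intro j hj1 hj2
      rw [hg, coeff_add, coeff_C_mul_X_pow, if_neg hj1, add_zero,
        eraseLead_coeff_of_ne _ (by rw [hnd]; exact hj2)]
    by_cases hi1 : i = n + 1
    · -- the leading coefficient is outside `P`
      have haP : a ∉ P := by
        rw [ha, leadingCoeff, hnd, ← hi1]; exact hi
      have ha0 : (a : E) ≠ 0 := by
        intro h0
        have : a = 0 := by exact_mod_cast h0
        exact haP (this ▸ P.zero_mem)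
      refine ⟨y, a, haP, Or.inl ?_⟩
      rw [hyE]
      field_simp
    by_cases hi2 : i = n
    · -- the next coefficient is outside `P`
      have h1 : g.coeff n = f.coeff n + y := by
        rw [hg, coeff_add, coeff_C_mul_X_pow, if_pos rfl,
          eraseLead_coeff_of_ne _ (by rw [hnd]; omega)]
      have hyP : y ∉ P := by
        intro hyP
        have h2 := hgunit n
        rw [h1] at h2
        have := (Ideal.add_mem_iff_left P hyP).mp h2
        exact hi (hi2 ▸ this)
      have hy0 : (y : E) ≠ 0 := by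
        intro h0
        have : y = 0 := by exact_mod_cast h0
        exact hyP (this ▸ P.zero_mem)
      have hax : (a : E) ≠ 0 ∧ x ≠ 0 := by
        rw [hyE] at hy0
        exact ⟨left_ne_zero_of_mul hy0, right_ne_zero_of_mul hy0⟩
      refine ⟨a, y, hyP, Or.inr ?_⟩
      rw [hyE]
      have := hax.1
      have := hax.2
      field_simp
    · exfalso
      have := hgunit i
      rw [hgcoeff i hi2 hi1] at this
      exact hi this

end UU

section Norm

variable {K : Type*} [Field K]

/-- a nonzero polynomial over a valuation ring is a constant times a polynomial with a coefficient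
equal to one -/
theorem tgt_exists_coeff_eq_one (W : ValuationSubring K) (p : Polynomial W) (hp : p ≠ 0) :
    ∃ (c : W) (q : Polynomial W), c ≠ 0 ∧ p = C c * q ∧ ∃ i, q.coeff i = 1 := by
  have hne : p.support.Nonempty := by
    rwa [Finset.nonempty_iff_ne_empty, Ne, support_eq_empty]
  obtain ⟨j, hj, hmax⟩ := Finset.exists_max_image p.support
    (fun i => W.valuation ((p.coeff i : W) : K)) hne
  set c : W := p.coeff j with hc
  have hc0 : c ≠ 0 := mem_support_iff.mp hj
  have hcK : ((c : W) : K) ≠ 0 := by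
    intro h; exact hc0 (by exact_mod_cast h)
  have hdvd : ∀ i, c ∣ p.coeff i := by
    intro i
    by_cases hi : i ∈ p.support
    · have h1 := hmax i hi
      obtain ⟨a, ha⟩ := (W.valuation_le_iff _ _).mp h1
      exact ⟨a, Subtype.ext (by rw [← ha]; push_cast; ring)⟩
    · rw [notMem_support_iff.mp hi]; exact dvd_zero _
  obtain ⟨q, hq⟩ := (C_dvd_iff_dvd_coeff c p).mpr hdvd
  refine ⟨c, q, hc0, hq, j, ?_⟩
  have h2 : p.coeff j = c * q.coeff j := by rw [hq, coeff_C_mul]
  rw [← hc] at h2
  exact (mul_left_cancel₀ hc0 (by rw [← h2, mul_one])).symm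

end Norm

section Centre

variable {E : Type*} [Field E] {R : Type*} [CommRing R] [Algebra R E]

/-- the centre on `B` of a valuation subring containing `B` -/
noncomputable def tgtCentre (B : Subalgebra R E) (V : ValuationSubring E) (h : ∀ b ∈ B, b ∈ V) :
    Ideal B :=
  Ideal.comap ((B.val : B →+* E).codRestrict V (fun b => h _ b.2)) (IsLocalRing.maximalIdeal V)

instance tgtCentre_isPrime (B : Subalgebra R E) (V : ValuationSubring E) (h : ∀ b ∈ B, b ∈ V) :
    (tgtCentre B V h).IsPrime :=
  Ideal.comap_isPrime _ _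

theorem mem_tgtCentre (B : Subalgebra R E) (V : ValuationSubring E) (h : ∀ b ∈ B, b ∈ V) (b : B) :
    b ∈ tgtCentre B V h ↔ (b : E) ∈ V.nonunits := by
  rw [tgtCentre, Ideal.mem_comap, ← ValuationSubring.coe_mem_nonunits_iff]
  rfl

/-- a valuation subring is determined by its centre on an integrally closed subalgebra over which
every element is a root of a polynomial with a coefficient outside the centre -/
theorem tgt_le_of_centre_eq (B : Subalgebra R E) (hB : ∀ y : E, IsIntegral B y → y ∈ B)
    (V₁ V₂ : ValuationSubring E) (h₁ : ∀ b ∈ B, b ∈ V₁) (h₂ : ∀ b ∈ B, b ∈ V₂)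
    (hc : tgtCentre B V₁ h₁ = tgtCentre B V₂ h₂)
    (hpoly : ∀ x : E, ∃ f : Polynomial B, aeval x f = 0 ∧ ∃ i, f.coeff i ∉ tgtCentre B V₁ h₁) :
    V₁ ≤ V₂ := by
  intro x hx
  obtain ⟨f, hf, hi⟩ := hpoly x
  obtain ⟨b, s, hs, hbs⟩ := tgt_exists_frac_or_inv B hB (tgtCentre B V₁ h₁) x f.natDegree f le_rfl hf hi
  -- `s` is a unit in both valuation rings
  have hs₁ : (s : E) ∉ V₁.nonunits := fun h => hs ((mem_tgtCentre B V₁ h₁ s).mpr h)
  have hs₂ : (s : E) ∉ V₂.nonunits := fun h => hs (hc ▸ (mem_tgtCentre B V₂ h₂ s).mpr h)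
  have hs0 : (s : E) ≠ 0 := fun h => hs₁ (h ▸ V₁.nonunits.zero_mem)
  have hsinv₁ : (s : E)⁻¹ ∈ V₁ := by
    by_contra hcon
    exact hs₁ ((ValuationSubring.mem_nonunits_iff_or _).mpr (Or.inr hcon))
  have hsinv₂ : (s : E)⁻¹ ∈ V₂ := by
    by_contra hcon
    exact hs₂ ((ValuationSubring.mem_nonunits_iff_or _).mpr (Or.inr hcon))
  rcases hbs with hbs | hbs
  · rw [hbs, div_eq_mul_inv]
    exact V₂.mul_mem _ _ (h₂ _ b.2) hsinv₂
  · -- `x⁻¹ = b / s ∈ V₁`, so `x` is a unit of `V₁`, hence `b` is outside the centre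
    by_cases hx0 : x = 0
    · rw [hx0]; exact V₂.zero_mem
    have hxinv : x⁻¹ ∈ V₁ := by
      rw [hbs, div_eq_mul_inv]
      exact V₁.mul_mem _ _ (h₁ _ b.2) hsinv₁
    have hb₁ : (b : E) ∉ V₁.nonunits := by
      intro hb
      have h3 : x⁻¹ ∈ V₁.nonunits := by
        rw [hbs, div_eq_mul_inv]
        rw [ValuationSubring.mem_nonunits_iff] at hb ⊢
        rw [map_mul]
        exact mul_lt_one_of_lt_of_le hb ((V₁.valuation_le_one_iff _).mpr hsinv₁)
      rw [ValuationSubring.mem_nonunits_iff_or, inv_inv] at h3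
      rcases h3 with h3 | h3
      · exact hx0 (inv_eq_zero.mp h3)
      · exact h3 hx
    have hb₂ : (b : E) ∉ V₂.nonunits := by
      intro hb
      have : b ∈ tgtCentre B V₁ h₁ := hc ▸ (mem_tgtCentre B V₂ h₂ b).mpr hb
      exact hb₁ ((mem_tgtCentre B V₁ h₁ b).mp this)
    have hb0 : (b : E) ≠ 0 := fun h => hb₁ (h ▸ V₁.nonunits.zero_mem)
    have hbinv₂ : (b : E)⁻¹ ∈ V₂ := by
      by_contra hcon
      exact hb₂ ((ValuationSubring.mem_nonunits_iff_or _).mpr (Or.inr hcon))
    have hxeq : x = (s : E) * (b : E)⁻¹ := by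
      have : x = (x⁻¹)⁻¹ := (inv_inv x).symm
      rw [this, hbs]
      field_simp
    rw [hxeq]
    exact V₂.mul_mem _ _ (h₂ _ s.2) hbinv₂

end Centre

section Galois

variable {K E : Type*} [Field K] [Field E] [Algebra K E]

theorem tgt_mem_comap_nonunits (V : ValuationSubring E) (φ : K →+* E) (x : K) :
    x ∈ (V.comap φ).nonunits ↔ φ x ∈ V.nonunits := by
  rw [ValuationSubring.mem_nonunits_iff_or, ValuationSubring.mem_nonunits_iff_or,
    ValuationSubring.mem_comap, map_inv₀, map_eq_zero]

/-- the integral closure of `W` lies in every valuation subring above `W` -/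
theorem tgt_integralClosure_le (W : ValuationSubring K) (V : ValuationSubring E)
    (hV : V.comap (algebraMap K E) = W) : ∀ b ∈ integralClosure W E, b ∈ V := by
  intro b hb
  have hWV : ∀ w : W, algebraMap K E (w : K) ∈ V := by
    intro w
    have : (w : K) ∈ V.comap (algebraMap K E) := hV ▸ w.2
    exact ValuationSubring.mem_comap.mp this
  letI : Algebra W V := ((algebraMap W E).codRestrict V hWV).toAlgebra
  haveI : IsScalarTower W V E := IsScalarTower.of_algebraMap_eq (fun x => rfl)
  have h1 : IsIntegral W b := hb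
  have h2 : IsIntegral V b := h1.tower_top
  obtain ⟨y, hy⟩ := IsIntegrallyClosed.isIntegral_iff.mp h2
  rw [← hy]
  exact y.2

variable [Algebra.IsAlgebraic K E]

theorem tgt_exists_poly (W : ValuationSubring K) (V : ValuationSubring E)
    (hV : V.comap (algebraMap K E) = W) (x : E) :
    ∃ f : Polynomial (integralClosure W E), aeval x f = 0 ∧
      ∃ i, f.coeff i ∉ tgtCentre _ V (tgt_integralClosure_le W V hV) := by
  have hx : IsAlgebraic W x :=
    (IsFractionRing.isAlgebraic_iff W K E).mpr (Algebra.IsAlgebraic.isAlgebraic x)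
  obtain ⟨p, hp0, hp⟩ := hx
  obtain ⟨c, q, hc0, hpq, i, hi⟩ := tgt_exists_coeff_eq_one W p hp0
  have hcE : algebraMap W E c ≠ 0 := by
    rw [Ne, map_eq_zero_iff _ (FaithfulSMul.algebraMap_injective W E)]
    exact hc0
  have hq : aeval x q = 0 := by
    rw [hpq, map_mul, aeval_C] at hp
    exact (mul_eq_zero.mp hp).resolve_left hcE
  refine ⟨q.map (algebraMap W (integralClosure W E)), ?_, i, ?_⟩
  · rw [aeval_map_algebraMap]; exact hq
  · rw [coeff_map, hi, map_one]
    exact fun h => (tgtCentre_isPrime _ V _).ne_top ((Ideal.eq_top_iff_one _).mpr h)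

theorem tgt_eq_of_centre_eq (W : ValuationSubring K) (V₁ V₂ : ValuationSubring E)
    (h₁ : V₁.comap (algebraMap K E) = W) (h₂ : V₂.comap (algebraMap K E) = W)
    (hc : tgtCentre _ V₁ (tgt_integralClosure_le W V₁ h₁)
      = tgtCentre _ V₂ (tgt_integralClosure_le W V₂ h₂)) : V₁ = V₂ := by
  have hB : ∀ y : E, IsIntegral (integralClosure W E) y → y ∈ integralClosure W E := by
    intro y hy
    exact isIntegral_trans _ hy
  apply le_antisymm
  · exact tgt_le_of_centre_eq _ hB V₁ V₂ _ _ hc (tgt_exists_poly W V₁ h₁)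
  · exact tgt_le_of_centre_eq _ hB V₂ V₁ _ _ hc.symm (tgt_exists_poly W V₂ h₂)

open scoped Pointwise

omit [Algebra.IsAlgebraic K E] in
/-- **transitivity**: the Galois group of a finite Galois extension `E / K` acts transitively on the
valuation subrings of `E` above a given valuation subring of `K`. -/
theorem tg_exists_smul_valuationSubring [FiniteDimensional K E] [IsGalois K E]
    (W : ValuationSubring K) (V₁ V₂ : ValuationSubring E)
    (h₁ : V₁.comap (algebraMap K E) = W) (h₂ : V₂.comap (algebraMap K E) = W) :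
    ∃ g : E ≃ₐ[K] E, ∀ x, x ∈ V₂ ↔ g x ∈ V₁ := by
  set B := integralClosure W E with hBdef
  haveI : IsFractionRing B E := integralClosure.isFractionRing_of_finite_extension K E
  letI := IsIntegralClosure.MulSemiringAction W K E B
  haveI : Algebra.IsInvariant W B (E ≃ₐ[K] E) := Algebra.isInvariant_of_isGalois W K E B
  have hsmul : ∀ (g : E ≃ₐ[K] E) (b : B), ((g • b : B) : E) = g (b : E) := fun g b =>
    algebraMap_galRestrict_apply W g b
  haveI : SMulCommClass (E ≃ₐ[K] E) W B := ⟨fun g w b => by
    apply Subtype.ext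
    rw [hsmul, Algebra.smul_def, Algebra.smul_def]
    push_cast
    rw [map_mul, hsmul]
    congr 1
    have : algebraMap W E w = algebraMap K E (w : K) := rfl
    rw [this, AlgEquiv.commutes]⟩
  set P₁ := tgtCentre B V₁ (tgt_integralClosure_le W V₁ h₁) with hP₁
  set P₂ := tgtCentre B V₂ (tgt_integralClosure_le W V₂ h₂) with hP₂
  have hunder : P₁.under W = P₂.under W := by
    ext w
    rw [Ideal.mem_comap, Ideal.mem_comap, mem_tgtCentre, mem_tgtCentre]
    have e : ((algebraMap W B w : B) : E) = algebraMap K E (w : K) := rfl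
    rw [e, ← tgt_mem_comap_nonunits, ← tgt_mem_comap_nonunits, h₁, h₂]
  obtain ⟨g, hg⟩ := Algebra.IsInvariant.exists_smul_of_under_eq W B (E ≃ₐ[K] E) P₁ P₂ hunder
  -- the conjugate valuation subring
  set V₁' : ValuationSubring E := V₁.comap ((g⁻¹ : E ≃ₐ[K] E) : E →+* E) with hV₁'
  have h₁' : V₁'.comap (algebraMap K E) = W := by
    rw [← h₁]
    ext x
    rw [ValuationSubring.mem_comap, ValuationSubring.mem_comap, ValuationSubring.mem_comap]
    have : ((g⁻¹ : E ≃ₐ[K] E) : E →+* E) (algebraMap K E x) = algebraMap K E x :=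
      AlgEquiv.commutes _ x
    rw [this]
  have hc : tgtCentre B V₁' (tgt_integralClosure_le W V₁' h₁') = P₂ := by
    ext b
    rw [mem_tgtCentre, hg, Ideal.mem_pointwise_smul_iff_inv_smul_mem, mem_tgtCentre, hsmul,
      hV₁', tgt_mem_comap_nonunits]
    rfl
  have heq : V₁' = V₂ := tgt_eq_of_centre_eq W V₁' V₂ h₁' h₂ hc
  refine ⟨g⁻¹, fun x => ?_⟩
  rw [← heq, hV₁', ValuationSubring.mem_comap]
  rfl

omit [Algebra.IsAlgebraic K E] in
/-- the same statement with the pointwise action of `Gal(E/K)` on valuation subrings -/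
theorem tg_exists_smul_eq_valuationSubring [FiniteDimensional K E] [IsGalois K E]
    (W : ValuationSubring K) (V₁ V₂ : ValuationSubring E)
    (h₁ : V₁.comap (algebraMap K E) = W) (h₂ : V₂.comap (algebraMap K E) = W) :
    ∃ g : E ≃ₐ[K] E, V₂ = g • V₁ := by
  obtain ⟨g, hg⟩ := tg_exists_smul_valuationSubring W V₁ V₂ h₁ h₂
  refine ⟨g⁻¹, ?_⟩
  ext x
  rw [hg, ValuationSubring.mem_pointwise_smul_iff_inv_smul_mem, inv_inv]
  rfl

end Galois

end Fermat.Agent.T1G
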