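/-
T1G / TG-TRANS (helper8), group forms: a finite group `G` acting on a field `E` acts transitively on
the valuation subrings of `E` with a given trace on the fixed field `E^G`.
-/
import Mathlib
import Fermat.Agent.Lib.T1G.Model.Trans

set_option autoImplicit false

namespace Fermat.Agent.T1G

variable {E : Type*} [Field E]

/-- transitivity for a finite group acting on `E` (the action need not be faithful) -/
theorem tg_exists_smul_of_group (G : Type*) [Group G] [Finite G] [MulSemiringAction G E]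
    (V₁ V₂ : ValuationSubring E)
    (h : ∀ x : E, (∀ g : G, g • x = x) → (x ∈ V₁ ↔ x ∈ V₂)) :
    ∃ g : G, ∀ x, x ∈ V₂ ↔ g • x ∈ V₁ := by
  set K := FixedPoints.subfield G E with hK
  have h₂ : V₂.comap (algebraMap K E) = V₁.comap (algebraMap K E) := by
    ext x
    rw [ValuationSubring.mem_comap, ValuationSubring.mem_comap]
    exact (h (x : E) (fun g => x.2 g)).symm
  obtain ⟨σ, hσ⟩ := tg_exists_smul_valuationSubring (V₁.comap (algebraMap K E)) V₁ V₂ rfl h₂
  obtain ⟨g, hg⟩ := FixedPoints.toAlgAut_surjective G E σ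
  refine ⟨g, fun x => ?_⟩
  rw [hσ x, ← hg]
  rfl

/-- transitivity for a finite subgroup of `Aut_F(E)` -/
theorem tg_exists_mem_subgroup {F : Type*} [Field F] [Algebra F E] (H : Subgroup (E ≃ₐ[F] E))
    [Finite H] (V₁ V₂ : ValuationSubring E)
    (h : ∀ x : E, (∀ g ∈ H, g x = x) → (x ∈ V₁ ↔ x ∈ V₂)) :
    ∃ g ∈ H, ∀ x, x ∈ V₂ ↔ g x ∈ V₁ := by
  obtain ⟨g, hg⟩ := tg_exists_smul_of_group H V₁ V₂
    (fun x hx => h x (fun g hgH => hx ⟨g, hgH⟩))
  exact ⟨g, g.2, hg⟩

end Fermat.Agent.T1G
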