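/-
T1G (helper5): `TgnBarOK` at a place `𝔓` of `ℚ̄` — the genus `0` of the base levels `4`, `9` over the
residue field `κ(𝔓)` is supplied by T1 (`tkr_genus_base_eq_zero` + `tbq_allLevelsOK`).
-/
import Fermat.Agent.Lib.T1G.Model.BarOK
import Fermat.Agent.Lib.T1.Kron.BarOK
import Fermat.Agent.Lib.T1.S18.AllLevels

set_option autoImplicit false
set_option linter.unusedSectionVars false
set_option linter.style.haveILetI false
set_option synthInstance.maxHeartbeats 400000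

open HahnSeries ModularCurve Fermat.Agent.Igusa Matrix MatrixGroups CongruenceSubgroup
open IntermediateField Fermat.Agent.Curve AlgebraicCurve ModularGroup Fermat.Agent.T1
  Fermat.Agent.TW

noncomputable section

namespace Fermat.Agent.T1G

local notation "Qb" => AlgebraicClosure ℚ

/-- the genus of `F̄₀(e)` over the residue field of `𝔓` is `0` for `e = 4, 9` prime to the residue
characteristic -/
theorem tgn_genus_base_four (𝔓 : FFPlace) (h : ¬ 𝔓.p ∣ 4) :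
    CurveP.genusR (IsLocalRing.ResidueField ↥𝔓.P) (TaBar (IsLocalRing.ResidueField ↥𝔓.P) 4) = 0 :=
  haveI : NeZero 4 := ⟨by norm_num⟩
  tkr_genus_base_eq_zero 𝔓 4 ta_genusFormula_four h (tbq_allLevelsOK 𝔓 4 h)

theorem tgn_genus_base_nine (𝔓 : FFPlace) (h : ¬ 𝔓.p ∣ 9) :
    CurveP.genusR (IsLocalRing.ResidueField ↥𝔓.P) (TaBar (IsLocalRing.ResidueField ↥𝔓.P) 9) = 0 :=
  haveI : NeZero 9 := ⟨by norm_num⟩
  tkr_genus_base_eq_zero 𝔓 9 ta_genusFormula_nine h (tbq_allLevelsOK 𝔓 9 h)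

/-- **`TgnBarOK` at a place `𝔓 ∤ M`** (`4 ∣ M` or `9 ∣ M`, `6 ≤ M`) from the two Galois packages and
the characteristic-`0` cover data -/
theorem tgn_barOK_place (𝔓 : FFPlace) {M : ℕ} [NeZero M] {ζ : Qbˣ}
    {ζb : (IsLocalRing.ResidueField ↥𝔓.P)ˣ} (G : TgGalois Qb M ζ)
    (C : TgcCover G.ρ (tgJ Qb M ζ)) (Gb : TgGalois (IsLocalRing.ResidueField ↥𝔓.P) M ζb)
    (hζ : IsPrimitiveRoot ζ M) (hζb : IsPrimitiveRoot ζb M) (hM : 6 ≤ M) (h49 : 4 ∣ M ∨ 9 ∣ M)
    (hpM : ¬ 𝔓.p ∣ M) : TgnBarOK Qb (IsLocalRing.ResidueField ↥𝔓.P) M ζ ζb := by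
  haveI : IsAlgClosed (IsLocalRing.ResidueField ↥𝔓.P) := tb_isAlgClosed_residueField 𝔓.P
  exact tgn_barOK G C Gb hζ hζb hM h49
    (fun h4 => tgn_genus_base_four 𝔓 (fun h => hpM (h.trans h4)))
    (fun h9 => tgn_genus_base_nine 𝔓 (fun h => hpM (h.trans h9)))

end Fermat.Agent.T1G
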