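/-
T1G, AN-GENUS (D) (helper5): transport of the cover data `TgcCover ρ y` along an isomorphism of
fields `e : L ≃ₐ[K] L'` intertwining `ρ` and `ρ'`.
-/
import Fermat.Agent.Lib.T1G.Model.GenusCover

set_option autoImplicit false
set_option linter.unusedSectionVars false
set_option linter.style.haveILetI false

open Matrix MatrixGroups ModularGroup AlgebraicCurve
open Fermat.Agent.Curve Fermat.Agent.S24Lib

noncomputable section

namespace Fermat.Agent.T1G

variable {K : Type*} [Field K] {L : Type*} [Field L] [Algebra K L]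
  {L' : Type*} [Field L'] [Algebra K L']

/-- the action on places commutes with transport along an isomorphism -/
theorem tgc_smul_placeMap (e : L ≃ₐ[K] L') (σ : L ≃ₐ[K] L) (σ' : L' ≃ₐ[K] L')
    (h : ∀ x, σ' (e x) = e (σ x)) (v : Place K L) :
    σ' • placeMap e v = placeMap e (σ • v) := by
  apply Place.ext
  ext x'
  rw [Place.smul_toValuationSubring, ValuationSubring.mem_pointwise_smul_iff_inv_smul_mem,
    mem_placeMap_iff, mem_placeMap_iff, Place.smul_toValuationSubring,
    ValuationSubring.mem_pointwise_smul_iff_inv_smul_mem]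
  have h1 : e.symm (σ'⁻¹ • x') = σ⁻¹ • e.symm x' := by
    rw [AlgEquiv.smul_def, AlgEquiv.smul_def]
    apply σ.injective
    apply e.injective
    rw [← h, AlgEquiv.apply_symm_apply]
    show σ' (σ'⁻¹ x') = e (σ (σ⁻¹ (e.symm x')))
    rw [show σ' (σ'⁻¹ x') = x' from AlgEquiv.apply_symm_apply σ' x',
      show σ (σ⁻¹ (e.symm x')) = e.symm x' from AlgEquiv.apply_symm_apply σ _,
      AlgEquiv.apply_symm_apply]
  rw [h1]

theorem tgc_smul_placeMap_eq_iff (e : L ≃ₐ[K] L') (σ : L ≃ₐ[K] L) (σ' : L' ≃ₐ[K] L')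
    (h : ∀ x, σ' (e x) = e (σ x)) (v : Place K L) :
    σ' • placeMap e v = placeMap e v ↔ σ • v = v := by
  rw [tgc_smul_placeMap e σ σ' h v]
  exact (placeEquiv e).injective.eq_iff

variable [IsAlgClosed K] [CharZero K]

namespace TgcCover

variable {ρ : SL(2, ℤ) →* (L ≃ₐ[K] L)} {y : L}

/-- **transport of the cover data along an isomorphism** -/
def transport (C : TgcCover ρ y) (e : L ≃ₐ[K] L') (ρ' : SL(2, ℤ) →* (L' ≃ₐ[K] L'))
    (hρ : ∀ γ x, ρ' γ (e x) = e (ρ γ x)) : TgcCover ρ' (e y) :=
  have hconj : ∀ γ δ : SL(2, ℤ), ρ' γ = ρ' δ ↔ ρ γ = ρ δ := fun γ δ => by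
    constructor
    · intro h
      ext x
      apply e.injective
      rw [← hρ, ← hρ, h]
    · intro h
      ext x'
      obtain ⟨x, rfl⟩ := e.surjective x'
      rw [hρ, hρ, h]
  { fin := by
      haveI := C.fin
      let f : ρ.range → ρ'.range := fun σ => ⟨ρ' σ.2.choose, σ.2.choose, rfl⟩
      refine Finite.of_surjective f ?_
      rintro ⟨_, γ, rfl⟩
      refine ⟨⟨ρ γ, γ, rfl⟩, ?_⟩
      apply Subtype.ext
      show ρ' _ = ρ' γ
      rw [hconj]
      exact (⟨ρ γ, γ, rfl⟩ : ρ.range).2.choose_spec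
    trans := by
      intro h
      apply C.trans
      exact (isAlgebraic_algHom_iff (e : L →ₐ[K] L') e.injective).mp h
    fix := by
      have hmap : (IntermediateField.adjoin K {y}).map (e : L →ₐ[K] L')
          = IntermediateField.adjoin K {e y} := by
        rw [IntermediateField.adjoin_map, Set.image_singleton]
        rfl
      rw [← hmap, ← C.fix]
      ext x'
      rw [IntermediateField.mem_fixedField_iff, IntermediateField.mem_map]
      constructor
      · intro h
        refine ⟨e.symm x', ?_, AlgEquiv.apply_symm_apply e x'⟩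
        rw [IntermediateField.mem_fixedField_iff]
        rintro _ ⟨γ, rfl⟩
        apply e.injective
        rw [← hρ, AlgEquiv.apply_symm_apply]
        exact h _ ⟨γ, rfl⟩
      · rintro ⟨x, hx, rfl⟩
        rw [IntermediateField.mem_fixedField_iff] at hx
        rintro _ ⟨γ, rfl⟩
        show ρ' γ (e x) = e x
        rw [hρ, hx _ ⟨γ, rfl⟩]
    pt := fun a => placeMap e (C.pt a)
    pt_ord := fun a => by
      have h : e y - algebraMap K L' a = e (y - algebraMap K L a) := by
        rw [map_sub, AlgEquiv.commutes]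
      rw [h, placeMap_ord]
      exact C.pt_ord a
    stab_gen := fun a h0 h1 γ => by
      rw [tgc_smul_placeMap_eq_iff e (ρ γ) (ρ' γ) (hρ γ), C.stab_gen a h0 h1 γ]
      simp only [hconj]
    stab_zero := fun γ => by
      rw [tgc_smul_placeMap_eq_iff e (ρ γ) (ρ' γ) (hρ γ), C.stab_zero γ]
      simp only [hconj]
    stab_I := fun γ => by
      rw [tgc_smul_placeMap_eq_iff e (ρ γ) (ρ' γ) (hρ γ), C.stab_I γ]
      simp only [hconj]
    inf := placeMap e C.inf
    inf_ord := by
      have h : (e y)⁻¹ = e y⁻¹ := (map_inv₀ e y).symm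
      rw [h, placeMap_ord]
      exact C.inf_ord
    stab_inf := fun γ => by
      rw [tgc_smul_placeMap_eq_iff e (ρ γ) (ρ' γ) (hρ γ), C.stab_inf γ]
      simp only [hconj] }

end TgcCover

end Fermat.Agent.T1G
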