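/-
T1G (helper6): the order of `j(ζ^c t^e)`; `j(t^{M²})` is the only element of `tgJSet` of order
`-M²`.
-/
import Fermat.Agent.Lib.T1G.Model.Series

set_option autoImplicit false
set_option linter.unusedSectionVars false
set_option linter.style.haveILetI false

open HahnSeries ModularCurve Fermat.Agent.Igusa

noncomputable section

namespace Fermat.Agent.T1G

variable (K : Type*) [Field K] (ζ : Kˣ)

theorem tgJc_coeff_neg (c e : ℕ) [NeZero e] :
    (tgJc K ζ c e).coeff (-(e : ℤ)) = (((ζ ^ c) ^ (-1 : ℤ) : Kˣ) : K) := by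
  rw [tgJc, dif_neg (NeZero.ne e)]
  have h : -(e : ℤ) = (e : ℤ) * (-1) := by ring
  rw [h, qExpand_coeff_mul, lsTwist_coeff, coeff_jqModC_neg_one, mul_one]

theorem tgJc_coeff_neg_ne_zero (c e : ℕ) [NeZero e] : (tgJc K ζ c e).coeff (-(e : ℤ)) ≠ 0 := by
  rw [tgJc_coeff_neg]
  exact Units.ne_zero _

theorem tgJc_coeff_of_lt (c e : ℕ) [NeZero e] {m : ℤ} (hm : m < -(e : ℤ)) :
    (tgJc K ζ c e).coeff m = 0 := by
  rw [tgJc, dif_neg (NeZero.ne e)]
  by_cases hd : (e : ℤ) ∣ m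
  · obtain ⟨n, rfl⟩ := hd
    rw [qExpand_coeff_mul, lsTwist_coeff]
    have he : (0 : ℤ) < e := by exact_mod_cast Nat.pos_of_ne_zero (NeZero.ne e)
    have hn : n < -1 := by
      by_contra hcon
      have hcon' : -1 ≤ n := not_lt.mp hcon
      have : (e : ℤ) * (-1) ≤ (e : ℤ) * n := mul_le_mul_of_nonneg_left hcon' he.le
      linarith
    rw [coeff_jqModC_of_lt K hn, mul_zero]
  · exact qExpand_coeff_of_not_dvd e _ hd

theorem tgJc_exp_eq {c e c' e' : ℕ} (he : e ≠ 0) (he' : e' ≠ 0)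
    (h : tgJc K ζ c e = tgJc K ζ c' e') : e = e' := by
  haveI : NeZero e := ⟨he⟩
  haveI : NeZero e' := ⟨he'⟩
  by_contra hne
  rcases lt_or_gt_of_ne hne with hlt | hlt
  · have h1 := tgJc_coeff_neg_ne_zero K ζ c' e'
    rw [← h, tgJc_coeff_of_lt K ζ c e (by exact_mod_cast neg_lt_neg (Int.ofNat_lt.mpr hlt))] at h1
    exact h1 rfl
  · have h1 := tgJc_coeff_neg_ne_zero K ζ c e
    rw [h, tgJc_coeff_of_lt K ζ c' e' (by exact_mod_cast neg_lt_neg (Int.ofNat_lt.mpr hlt))] at h1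
    exact h1 rfl

/-- `j(t^{M²})` is the only element of `tgJSet` of order `-M²` -/
theorem tg_jset_eq_jM (M : ℕ) [NeZero M] {a' d' b' : ℕ} (h : a' * d' ∣ M) (hb : b' < d')
    (e : tgJc K ζ (M / d' * b') (M / d' * a') = qExpand K (M * M) (jqModC K)) :
    d' = 1 ∧ a' = M ∧ b' = 0 := by
  have hM0 : M ≠ 0 := NeZero.ne M
  obtain ⟨m, hm⟩ := h
  have ha0 : a' ≠ 0 := by
    rintro rfl
    apply hM0
    rw [hm, zero_mul, zero_mul]
  have hd0 : d' ≠ 0 := by
    rintro rfl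
    apply hM0
    rw [hm, mul_zero, zero_mul]
  have hm0 : m ≠ 0 := by
    rintro rfl
    apply hM0
    rw [hm, mul_zero]
  have hdiv : M / d' = a' * m := by
    rw [hm]
    have : a' * d' * m = d' * (a' * m) := by ring
    rw [this, Nat.mul_div_cancel_left _ (Nat.pos_of_ne_zero hd0)]
  have he0 : M / d' * a' ≠ 0 := by
    rw [hdiv]
    exact mul_ne_zero (mul_ne_zero ha0 hm0) ha0
  haveI : NeZero (M * M) := ⟨mul_ne_zero hM0 hM0⟩
  rw [← tgJc_zero_eq K ζ (M * M)] at e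
  have h1 := tgJc_exp_eq K ζ he0 (mul_ne_zero hM0 hM0) e
  rw [hdiv, hm] at h1
  -- a' m a' = a' d' m a' d' m
  have h2 : a' * a' * m * 1 = a' * a' * m * (d' * d' * m) := by
    rw [mul_one]
    calc a' * a' * m = a' * m * a' := by ring
      _ = a' * d' * m * (a' * d' * m) := h1
      _ = a' * a' * m * (d' * d' * m) := by ring
  have h3 : 1 = d' * d' * m :=
    Nat.eq_of_mul_eq_mul_left (Nat.pos_of_ne_zero (mul_ne_zero (mul_ne_zero ha0 ha0) hm0)) h2
  have hd1 : d' = 1 := by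
    have : d' ∣ 1 := ⟨d' * m, by rw [h3]; ring⟩
    exact Nat.dvd_one.mp this
  have hm1 : m = 1 := by
    rw [hd1] at h3
    simpa using h3.symm
  refine ⟨hd1, ?_, ?_⟩
  · rw [hm, hd1, hm1, mul_one, mul_one]
  · rw [hd1] at hb
    exact Nat.lt_one_iff.mp hb

end Fermat.Agent.T1G
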